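import Fermat.Agent.CFT.Sha.Defs
import Fermat.Agent.CFT.Interface.Cohomology
import Fermat.Agent.CFT.Interface.Reciprocity
import Fermat.Agent.CFT.Interface.LocalDuality

/-!
# Poitou–Tate counting

Orthogonality of the global images (reciprocity) and the description of the image of `H²(G_S, M)`
in the local groups give the inequality between the orders of the Tate–Shafarevich groups.
-/

set_option autoImplicit false
set_option linter.style.haveILetI false

open CategoryTheory groupCohomology ExtCitation Module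

noncomputable section

namespace Fermat.Agent.CFT.Sha

variable {p : ℕ} [Fact p.Prime] {S : Finset Nat.Primes} {A M : Rep.{0} (ZMod p) GQ}

/-- `β a` as an equivariant map `M → μ_p` for invariant `a`. -/
lemma beta_equivariant (P : DualPair p (cycloChar p) A M) (a : A.ρ.invariants) (g : GQ) (m : M) :
    P.β a.1 (M.ρ g m) = (muRep p).ρ g (P.β a.1 m) := by
  have := P.equivariant g a.1 m
  rwa [a.2 g] at this

section reciprocity

variable (hp2 : p ≠ 2) (hpS : pPrime p ∈ S)

include hp2 hpS in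
/-- Reciprocity: a global invariant is orthogonal to the image of `H²(G_S, M)`. -/
theorem thetaTot_diag0 (P : DualPair p (cycloChar p) A M) (x : G2 S M) (a : A.ρ.invariants) :
    thetaTot P x (diag0 S A a) = 0 := by
  obtain ⟨c, rfl⟩ := Submodule.mkQ_surjective _ x
  have h := sum_invLoc_eq_zero hp2 S hpS
    (pushH2 (M' := muRep p) (P.β a.1) (beta_equivariant P a) (H2cπ _ _ _ c))
  rw [← Finset.sum_coe_sort] at h
  rw [thetaTot_apply, ← h]
  rfl

variable (hA : IsSmoothRep (Levels.unr S) (MonoidHom.id GQ) A)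
  (hM : IsSmoothRep (Levels.unr S) (MonoidHom.id GQ) M)

/-- The pairing `A × M → μ_p` on the local group. -/
abbrev betaLoc (P : DualPair p (cycloChar p) A M) (q : Nat.Primes) :
    MLoc q A →ₗ[ZMod p] MLoc q M →ₗ[ZMod p] muLoc p q := P.β

lemma betaLoc_equivariant (P : DualPair p (cycloChar p) A M) (q : Nat.Primes) :
    Cup.IsEquivariant (betaLoc P q) :=
  fun g a m => P.equivariant (primeLocalToGlobal q g) a m

/-- The local pairing on `H¹`. -/
def pairLoc (P : DualPair p (cycloChar p) A M)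
    (hM : IsSmoothRep (Levels.unr S) (MonoidHom.id GQ) M) (q : Nat.Primes) :
    Lo1 q A →ₗ[ZMod p] Lo1 q M →ₗ[ZMod p] ZMod p :=
  (Cup.cupH1 (r := rLoc q) (betaLoc_equivariant P q) (isSmoothRep_loc hM q)).compr₂ (invLoc p q)

lemma pairLoc_π (P : DualPair p (cycloChar p) A M) (q : Nat.Primes)
    (a : ↥(Z1 Levels.all (rLoc q) (MLoc q A))) (m : ↥(Z1 Levels.all (rLoc q) (MLoc q M))) :
    ∃ c : ↥(Z2 Levels.all (rLoc q) (muLoc p q)),
      (∀ g, (c.1 g : ZMod p) = P.β (a.1 g.1) (M.ρ (primeLocalToGlobal q g.1) (m.1 g.2))) ∧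
      pairLoc P hM q ⟨(H1π (MLoc q A)).hom a.1, ⟨a.1, a.2, rfl⟩⟩
        ⟨(H1π (MLoc q M)).hom m.1, ⟨m.1, m.2, rfl⟩⟩ = invLoc p q (H2cπ _ _ _ c) := by
  refine ⟨⟨_, (Cup.cup₁₁_mem_cocycles₂ (betaLoc_equivariant P q) a.1.2 m.1.2),
    Cup.isLevelConstant₂_cup₁₁ (r := rLoc q) _ (isSmoothRep_loc hM q) a.2 m.2⟩,
    fun g => rfl, ?_⟩
  exact congrArg (invLoc p q) (Cup.cupH1_π (r := rLoc q) _ _ a m)

include hp2 hpS in
/-- The global images are orthogonal. -/
theorem sum_pairLoc_eq_zero (P : DualPair p (cycloChar p) A M)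
    (x : G1 S A) (y : G1 S M) :
    ∑ q : ↥S, pairLoc P hM q.1 (loc1 S q.1 A x) (loc1 S q.1 M y) = 0 := by
  obtain ⟨_, a, ha, rfl⟩ := x
  obtain ⟨_, m, hm, rfl⟩ := y
  have hc := cupFun_mem_Z2 (Levels.hasNormal_unr S) hM P (muRep p) (LinearEquiv.refl _ _)
    (fun g x => rfl) a m ha hm
  have h := sum_invLoc_eq_zero hp2 S hpS (H2cπ _ _ _ ⟨_, hc⟩)
  rw [← Finset.sum_coe_sort] at h
  rw [← h]
  refine Finset.sum_congr rfl fun q _ => ?_
  have hl : IsLevelHom (Levels.unr S) (MonoidHom.id GQ) Levels.all (rLoc q.1)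
      (primeLocalToGlobal q.1) := fun F hF => ⟨F, hF.1, fun _ h => h⟩
  let a' : ↥(Z1 Levels.all (rLoc q.1) (MLoc q.1 A)) :=
    ⟨(mapCocycles₁ (primeLocalToGlobal q.1) (𝟙 (MLoc q.1 A))).hom a, IsConst₁.pull hl ha⟩
  let m' : ↥(Z1 Levels.all (rLoc q.1) (MLoc q.1 M)) :=
    ⟨(mapCocycles₁ (primeLocalToGlobal q.1) (𝟙 (MLoc q.1 M))).hom m, IsConst₁.pull hl hm⟩
  obtain ⟨c, hc, he⟩ := pairLoc_π hM P q.1 a' m'
  have e1 : loc1 S q.1 A ⟨(H1π A).hom a, ⟨a, ha, rfl⟩⟩ = ⟨_, ⟨a'.1, a'.2, rfl⟩⟩ :=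
    Subtype.ext (locH1_π q.1 A a)
  have e2 : loc1 S q.1 M ⟨(H1π M).hom m, ⟨m, hm, rfl⟩⟩ = ⟨_, ⟨m'.1, m'.2, rfl⟩⟩ :=
    Subtype.ext (locH1_π q.1 M m)
  refine ((congrArg₂ (fun u v => pairLoc P hM q.1 u v) e1 e2).trans he).trans ?_
  refine congrArg (invLoc p q.1) ?_
  show H2cπ Levels.all (primeLocalToGlobal q.1) (muLoc p q.1) c = _
  exact congrArg (H2cπ _ _ _) (Subtype.ext (funext fun g => hc g))

include hp2 hA in
/-- A local class orthogonal to everything is zero. -/
theorem pairLoc_injective [FiniteDimensional (ZMod p) M] (P : DualPair p (cycloChar p) A M)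
    (q : Nat.Primes) : Function.Injective (pairLoc P hM q) := by
  haveI : FiniteDimensional (ZMod p) (MLoc q M) := ‹FiniteDimensional (ZMod p) M›
  refine (injective_iff_map_eq_zero _).2 fun x hx => ?_
  obtain ⟨_, a, ha, rfl⟩ := x
  refine Subtype.ext (H1_pairing_injective hp2 q (P.res (primeLocalToGlobal q))
    (isSmoothRep_loc hM q) (isSmoothRep_loc hA q) a ha fun m hm => ?_)
  obtain ⟨c, hc, he⟩ := pairLoc_π hM P q ⟨a, ha⟩ ⟨m, hm⟩
  exact ⟨c, hc, he ▸ LinearMap.congr_fun hx _⟩

end reciprocity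

variable (hp2 : p ≠ 2) (hpS : pPrime p ∈ S)
  (hA : IsSmoothRep (Levels.unr S) (MonoidHom.id GQ) A)
  (hM : IsSmoothRep (Levels.unr S) (MonoidHom.id GQ) M)
  [FiniteDimensional (ZMod p) A] [FiniteDimensional (ZMod p) M]
  (P : DualPair p (cycloChar p) A M)

omit [FiniteDimensional (ZMod p) A] [FiniteDimensional (ZMod p) M] in
include hpS in
lemma diag0_injective : Function.Injective (diag0 S A) := fun a b h =>
  Subtype.ext (show (a : A) = b by
    simpa [coe_diag0] using congrArg Subtype.val (congrFun h ⟨pPrime p, hpS⟩))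

omit [FiniteDimensional (ZMod p) A] in
include hp2 hA hM in
lemma ker_thetaTot : LinearMap.ker (thetaTot P (S := S)) = Sha2 S M := by
  classical
  haveI := fun q : Nat.Primes =>
    (show FiniteDimensional (ZMod p) (MLoc q M) from ‹FiniteDimensional (ZMod p) M›)
  ext x
  simp only [Sha2, LinearMap.mem_ker, loc2T, funext_iff, LinearMap.pi_apply, Pi.zero_apply]
  constructor
  · intro h q
    refine (thetaLoc_bijective hp2 q.1 (P.res (primeLocalToGlobal q.1)) (isSmoothRep_loc hM q.1)
      (isSmoothRep_loc hA q.1)).1 ?_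
    rw [map_zero]
    ext a
    have := LinearMap.congr_fun h (Pi.single q a)
    rw [thetaTot_apply, Finset.sum_eq_single q (fun q' _ hne => by
      rw [Pi.single_eq_of_ne hne, map_zero]) (fun h => absurd (Finset.mem_univ q) h),
      Pi.single_eq_same] at this
    simpa using this
  · intro h
    refine LinearMap.ext fun a => ?_
    rw [thetaTot_apply, Finset.sum_eq_zero fun q _ => by rw [h q, map_zero, LinearMap.zero_apply]]
    rfl

include hp2 hpS hA hM in
/-- The image of `H²(G_S, M)` is the orthogonal of the global invariants; dimension form. -/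
theorem finrank_G2_add [FiniteDimensional (ZMod p) (G2 S M)]
    (hB : ∀ a : Inv0 S A, (∀ x : G2 S M, thetaTot P x a = 0) →
      a ∈ LinearMap.range (diag0 S A)) :
    finrank (ZMod p) (G2 S M) + finrank (ZMod p) A.ρ.invariants =
      finrank (ZMod p) (Sha2 S M) + ∑ q : ↥S, finrank (ZMod p) (MLoc q.1 A).ρ.invariants := by
  have hco : Submodule.dualCoannihilator
      (LinearMap.range (thetaTot P (S := S)) : Submodule (ZMod p) (Dual (ZMod p) (Inv0 S A))) =
      LinearMap.range (diag0 S A) := by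
    ext a
    simp only [Submodule.mem_dualCoannihilator, LinearMap.mem_range, forall_exists_index,
      forall_apply_eq_imp_iff]
    refine ⟨hB a, ?_⟩
    rintro ⟨a₀, rfl⟩ x
    exact thetaTot_diag0 hp2 hpS P x a₀
  have h1 := Subspace.finrank_add_finrank_dualCoannihilator_eq
    (LinearMap.range (thetaTot P (S := S)) : Submodule (ZMod p) (Dual (ZMod p) (Inv0 S A)))
  rw [hco, LinearMap.finrank_range_of_inj (diag0_injective hpS), Module.finrank_pi_fintype] at h1
  have h2 := LinearMap.finrank_range_add_finrank_ker (thetaTot P (S := S))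
  rw [ker_thetaTot hp2 hA hM P] at h2
  have h1' : finrank (ZMod p) (LinearMap.range (thetaTot P (S := S))) +
      finrank (ZMod p) A.ρ.invariants =
        ∑ q : ↥S, finrank (ZMod p) (MLoc q.1 A).ρ.invariants := h1
  omega

omit [FiniteDimensional (ZMod p) A] in
include hp2 hpS hA hM P in
/-- Isotropy: the two global images fit into the product of the local `H¹`. -/
theorem finrank_images_le [FiniteDimensional (ZMod p) (G1 S A)]
    [FiniteDimensional (ZMod p) (G1 S M)] :
    (finrank (ZMod p) (G1 S A) - finrank (ZMod p) (Sha1 S A)) +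
        (finrank (ZMod p) (G1 S M) - finrank (ZMod p) (Sha1 S M)) ≤
      ∑ q : ↥S, finrank (ZMod p) (Lo1 q.1 M) := by
  classical
  haveI : ∀ q : ↥S, FiniteDimensional (ZMod p) (Lo1 q.1 M) := fun q => by
    haveI : FiniteDimensional (ZMod p) (MLoc q.1 M) := ‹FiniteDimensional (ZMod p) M›
    exact finite_H1c hp2 q.1 (isSmoothRep_loc hM q.1)
  let Φ : (∀ q : ↥S, Lo1 q.1 A) →ₗ[ZMod p] Dual (ZMod p) (∀ q : ↥S, Lo1 q.1 M) :=
    ∑ q : ↥S, ((LinearMap.lcomp (ZMod p) (ZMod p) (LinearMap.proj q)).comp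
      ((pairLoc P hM q.1).comp (LinearMap.proj q)))
  have hΦ : ∀ a m, Φ a m = ∑ q : ↥S, pairLoc P hM q.1 (a q) (m q) := fun a m => by
    simp [Φ, LinearMap.sum_apply]
  have hinj : Function.Injective Φ := by
    refine (injective_iff_map_eq_zero _).2 fun a ha => funext fun q => ?_
    refine pairLoc_injective hp2 hA hM P q.1 ?_
    rw [Pi.zero_apply, map_zero]
    ext m
    have := LinearMap.congr_fun ha (Pi.single q m)
    rw [hΦ, Finset.sum_eq_single q (fun q' _ hne => by
      rw [Pi.single_eq_of_ne hne, map_zero]) (fun h => absurd (Finset.mem_univ q) h),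
      Pi.single_eq_same] at this
    simpa using this
  have hle : LinearMap.range (Φ.comp (loc1T S A)) ≤
      (LinearMap.range (loc1T S M)).dualAnnihilator := by
    rintro _ ⟨x, rfl⟩
    rw [Submodule.mem_dualAnnihilator]
    rintro _ ⟨y, rfl⟩
    rw [LinearMap.comp_apply, hΦ]
    exact sum_pairLoc_eq_zero hp2 hpS hM P x y
  have h1 := LinearMap.finrank_range_add_finrank_ker (Φ.comp (loc1T S A))
  have hk : LinearMap.ker (Φ.comp (loc1T S A)) = Sha1 S A := by
    rw [LinearMap.ker_comp, LinearMap.ker_eq_bot.2 hinj, Submodule.comap_bot]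
    rfl
  rw [hk] at h1
  have h2 := Submodule.finrank_mono hle
  have h3 := Subspace.finrank_add_finrank_dualAnnihilator_eq
    (LinearMap.range (loc1T S M))
  have h4 := LinearMap.finrank_range_add_finrank_ker (loc1T S M)
  rw [← Module.finrank_pi_fintype (ZMod p)]
  change finrank (ZMod p) _ + finrank (ZMod p) (Sha1 S M) = _ at h4
  omega

end Fermat.Agent.CFT.Sha
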