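import Fermat.Agent.CFT.Setup
import Fermat.Agent.CFT.Cup.H1

/-!
# The Poitou–Tate counting: global and local groups, localisation, Tate–Shafarevich groups
-/

set_option autoImplicit false
set_option linter.style.haveILetI false

open CategoryTheory groupCohomology ExtCitation Module

noncomputable section

namespace Fermat.Agent.CFT.Sha

variable {p : ℕ} [Fact p.Prime]

/-- `H¹(G_S, M)`. -/
abbrev G1 (S : Finset Nat.Primes) (M : Rep.{0} (ZMod p) GQ) : Submodule (ZMod p) (H1 M) :=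
  H1c (Levels.unr S) (MonoidHom.id GQ) M

/-- `H²(G_S, M)`. -/
abbrev G2 (S : Finset Nat.Primes) (M : Rep.{0} (ZMod p) GQ) : Type :=
  H2c (Levels.unr S) (MonoidHom.id GQ) M

/-- The local group at `q`. -/
abbrev rLoc (q : Nat.Primes) : primeLocalGaloisGroup q →* GQ := primeLocalToGlobal q

/-- `M` as a module over the local group at `q`. -/
abbrev MLoc (q : Nat.Primes) (M : Rep.{0} (ZMod p) GQ) :
    Rep.{0} (ZMod p) (primeLocalGaloisGroup q) :=
  Rep.res (primeLocalToGlobal q) M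

/-- `H¹(G_q, M)`. -/
abbrev Lo1 (q : Nat.Primes) (M : Rep.{0} (ZMod p) GQ) : Submodule (ZMod p) (H1 (MLoc q M)) :=
  H1c Levels.all (rLoc q) (MLoc q M)

/-- `H²(G_q, M)`. -/
abbrev Lo2 (q : Nat.Primes) (M : Rep.{0} (ZMod p) GQ) : Type :=
  H2c Levels.all (rLoc q) (MLoc q M)

/-- Restriction to the local group in degree one. -/
def locH1 (q : Nat.Primes) (M : Rep.{0} (ZMod p) GQ) : H1 M →ₗ[ZMod p] H1 (MLoc q M) :=
  (map (primeLocalToGlobal q) (𝟙 (MLoc q M)) 1).hom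

lemma locH1_π (q : Nat.Primes) (M : Rep.{0} (ZMod p) GQ) (c : cocycles₁ M) :
    locH1 q M ((H1π M).hom c) =
      (H1π (MLoc q M)).hom ((mapCocycles₁ (primeLocalToGlobal q) (𝟙 (MLoc q M))).hom c) :=
  H1π_comp_map_apply (primeLocalToGlobal q) (𝟙 (MLoc q M)) c

lemma locH1_mem {S : Finset Nat.Primes} (q : Nat.Primes) {M : Rep.{0} (ZMod p) GQ} {x : H1 M}
    (hx : x ∈ G1 S M) : locH1 q M x ∈ Lo1 q M := by
  obtain ⟨c, hc, rfl⟩ := hx
  rw [locH1_π]
  refine ⟨_, ?_, rfl⟩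
  have : IsConst₁ Levels.all (rLoc q) ((c : GQ → M) ∘ primeLocalToGlobal q) :=
    IsConst₁.pull (L := Levels.unr S) (r := MonoidHom.id GQ) (f := primeLocalToGlobal q)
      (fun F hF => ⟨F, hF.1, fun _ h => h⟩) hc
  exact this

variable (S : Finset Nat.Primes)

/-- Localisation in degree one. -/
def loc1 (q : Nat.Primes) (M : Rep.{0} (ZMod p) GQ) : G1 S M →ₗ[ZMod p] Lo1 q M :=
  LinearMap.codRestrict _ (locH1 q M ∘ₗ (G1 S M).subtype) fun x => locH1_mem q x.2

/-- Localisation in degree two. -/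
def loc2 (q : Nat.Primes) (M : Rep.{0} (ZMod p) GQ) : G2 S M →ₗ[ZMod p] Lo2 q M := locS q M

def loc1T (M : Rep.{0} (ZMod p) GQ) : G1 S M →ₗ[ZMod p] ∀ q : ↥S, Lo1 q.1 M :=
  LinearMap.pi fun q => loc1 S q.1 M

def loc2T (M : Rep.{0} (ZMod p) GQ) : G2 S M →ₗ[ZMod p] ∀ q : ↥S, Lo2 q.1 M :=
  LinearMap.pi fun q => loc2 S q.1 M

/-- `Ш¹`, for the finite places in `S`. -/
def Sha1 (M : Rep.{0} (ZMod p) GQ) : Submodule (ZMod p) (G1 S M) := LinearMap.ker (loc1T S M)

/-- `Ш²`, for the finite places in `S`. -/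
def Sha2 (M : Rep.{0} (ZMod p) GQ) : Submodule (ZMod p) (G2 S M) := LinearMap.ker (loc2T S M)

/-- The product of the local invariants. -/
abbrev Inv0 (A : Rep.{0} (ZMod p) GQ) : Type := ∀ q : ↥S, (MLoc q.1 A).ρ.invariants

/-- The diagonal map on invariants. -/
def diag0 (A : Rep.{0} (ZMod p) GQ) : A.ρ.invariants →ₗ[ZMod p] Inv0 S A :=
  LinearMap.pi fun q => LinearMap.codRestrict _ A.ρ.invariants.subtype
    fun a g => a.2 (primeLocalToGlobal q.1 g)

lemma coe_diag0 (A : Rep.{0} (ZMod p) GQ) (a : A.ρ.invariants) (q : ↥S) :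
    (diag0 S A a q : A) = (a : A) := rfl

variable {S} {A M : Rep.{0} (ZMod p) GQ}

/-- `x ↦ (a ↦ ∑_q θ_q(x_q)(a_q))`. -/
def thetaTot (P : DualPair p (cycloChar p) A M) :
    G2 S M →ₗ[ZMod p] (Inv0 S A →ₗ[ZMod p] ZMod p) :=
  ∑ q : ↥S, (LinearMap.lcomp (ZMod p) (ZMod p) (LinearMap.proj q)).comp
    ((thetaLoc (P.res (primeLocalToGlobal q.1))).comp (loc2 S q.1 M))

lemma thetaTot_apply (P : DualPair p (cycloChar p) A M) (x : G2 S M) (a : Inv0 S A) :
    thetaTot P x a =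
      ∑ q : ↥S, thetaLoc (P.res (primeLocalToGlobal q.1)) (loc2 S q.1 M x) (a q) := by
  simp [thetaTot, LinearMap.sum_apply]

lemma isSmoothRep_loc {S : Finset Nat.Primes} (hM : IsSmoothRep (Levels.unr S) (MonoidHom.id GQ) M)
    (q : Nat.Primes) : IsSmoothRep Levels.all (rLoc q) (MLoc q M) := fun m => by
  obtain ⟨F, hF, h⟩ := hM m
  exact ⟨F, hF.1, fun s hs => h (primeLocalToGlobal q s) hs⟩

/-- The evaluation pairing of a module and its twisted dual. -/
def evalPair (M : Rep.{0} (ZMod p) GQ) [FiniteDimensional (ZMod p) M] :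
    DualPair p (cycloChar p) (M.dualTwist (cycloChar p)) M where
  β := (LinearMap.id : Module.Dual (ZMod p) M →ₗ[ZMod p] M →ₗ[ZMod p] ZMod p)
  equivariant g a m := by
    show ((cycloChar p g : ZMod p) • ((a : Module.Dual (ZMod p) M) ∘ₗ M.ρ g⁻¹)) (M.ρ g m) = _
    simp [← Module.End.mul_apply, ← map_mul]
  left a h := LinearMap.ext h
  right m h := (Module.forall_dual_apply_eq_zero_iff (ZMod p) m).1 h

end Fermat.Agent.CFT.Sha
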