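import Fermat.Agent.CFT.Sha.EulerSub
import Fermat.Agent.CFT.Sha.Defs

/-!
# Isomorphic coefficients, coinduced pairings, a Sylow subgroup of finite level
-/

set_option autoImplicit false
set_option linter.style.haveILetI false

open CategoryTheory groupCohomology ExtCitation Module

noncomputable section

namespace Fermat.Agent.CFT.Sha

section congr

variable {G : Type} [Group G] {L : Levels} {r : G →* GQ} {k : Type} [Field k]
  {A B : Rep.{0} k G}

lemma pushH1c_comp_eq_id (φ : A →ₗ[k] B) (hφ : ∀ g a, φ (A.ρ g a) = B.ρ g (φ a))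
    (ψ : B →ₗ[k] A) (hψ : ∀ g b, ψ (B.ρ g b) = A.ρ g (ψ b)) (h : ∀ a, ψ (φ a) = a)
    (x : H1c L r A) : pushH1c (L := L) (r := r) ψ hψ (pushH1c φ hφ x) = x := by
  obtain ⟨_, c, hc, rfl⟩ := x
  refine Subtype.ext ?_
  change pushH1 ψ hψ (pushH1 φ hφ ((H1π A).hom c)) = _
  rw [pushH1_π, pushH1_π]
  exact congrArg (H1π A).hom (Subtype.ext (funext fun g => h _))

lemma pushH2_comp_eq_id (φ : A →ₗ[k] B) (hφ : ∀ g a, φ (A.ρ g a) = B.ρ g (φ a))
    (ψ : B →ₗ[k] A) (hψ : ∀ g b, ψ (B.ρ g b) = A.ρ g (ψ b)) (h : ∀ a, ψ (φ a) = a)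
    (x : H2c L r A) : pushH2 (L := L) (r := r) ψ hψ (pushH2 φ hφ x) = x := by
  obtain ⟨c, rfl⟩ := Submodule.mkQ_surjective _ x
  exact congrArg (H2cπ L r A) (Subtype.ext (funext fun g => h _))

lemma finrank_invariants_congr (e : A ≃ₗ[k] B) (he : ∀ g a, e (A.ρ g a) = B.ρ g (e a)) :
    finrank k A.ρ.invariants = finrank k B.ρ.invariants := by
  refine LinearEquiv.finrank_eq (LinearEquiv.ofLinearMap
    (e.toLinearMap.restrict fun a ha g => by
      change B.ρ g (e a) = e a
      rw [← he, ha g])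
    (e.symm.toLinearMap.restrict fun b hb g => by
      change A.ρ g (e.symm b) = e.symm b
      apply e.injective
      rw [he, e.apply_symm_apply, hb g]) ?_ ?_)
  · exact LinearMap.ext fun x => Subtype.ext (e.apply_symm_apply x.1)
  · exact LinearMap.ext fun x => Subtype.ext (e.symm_apply_apply x.1)

lemma finrank_H1c_congr (e : A ≃ₗ[k] B) (he : ∀ g a, e (A.ρ g a) = B.ρ g (e a)) :
    finrank k (H1c L r A) = finrank k (H1c L r B) := by
  have he' : ∀ g b, e.symm.toLinearMap (B.ρ g b) = A.ρ g (e.symm b) := fun g b => by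
    apply e.injective
    rw [he]
    simp
  refine LinearEquiv.finrank_eq (LinearEquiv.ofLinearMap (pushH1c e.toLinearMap he)
    (pushH1c e.symm.toLinearMap he') ?_ ?_)
  · exact LinearMap.ext (pushH1c_comp_eq_id _ he' _ he e.apply_symm_apply)
  · exact LinearMap.ext (pushH1c_comp_eq_id _ he _ he' e.symm_apply_apply)

lemma finrank_H2c_congr (e : A ≃ₗ[k] B) (he : ∀ g a, e (A.ρ g a) = B.ρ g (e a)) :
    finrank k (H2c L r A) = finrank k (H2c L r B) := by
  have he' : ∀ g b, e.symm.toLinearMap (B.ρ g b) = A.ρ g (e.symm b) := fun g b => by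
    apply e.injective
    rw [he]
    simp
  refine LinearEquiv.finrank_eq (LinearEquiv.ofLinearMap (pushH2 e.toLinearMap he)
    (pushH2 e.symm.toLinearMap he') ?_ ?_)
  · exact LinearMap.ext (pushH2_comp_eq_id _ he' _ he e.apply_symm_apply)
  · exact LinearMap.ext (pushH2_comp_eq_id _ he _ he' e.symm_apply_apply)

lemma finrank_of_subsingleton [Subsingleton A] :
    finrank k A.ρ.invariants = 0 ∧ finrank k (H1c L r A) = 0 ∧ finrank k (H2c L r A) = 0 := by
  haveI : Subsingleton A.ρ.invariants := inferInstance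
  haveI : Subsingleton (H1c L r A) := ⟨fun x y => by
    obtain ⟨_, c, hc, rfl⟩ := x
    obtain ⟨_, d, hd, rfl⟩ := y
    exact Subtype.ext (congrArg (H1π A).hom (Subtype.ext (funext fun g => Subsingleton.elim _ _)))⟩
  haveI : Subsingleton (H2c L r A) := ⟨fun x y => by
    obtain ⟨c, rfl⟩ := Submodule.mkQ_surjective _ x
    obtain ⟨d, rfl⟩ := Submodule.mkQ_surjective _ y
    exact congrArg (H2cπ L r A) (Subtype.ext (funext fun g => Subsingleton.elim _ _))⟩
  exact ⟨finrank_zero_of_subsingleton, finrank_zero_of_subsingleton, finrank_zero_of_subsingleton⟩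

end congr

variable {p : ℕ} [Fact p.Prime]

/-- The pairing of coinduced modules. -/
def funPair {A M : Rep.{0} (ZMod p) GQ} (P : DualPair p (cycloChar p) A M) (U : Subgroup GQ)
    [Finite (GQ ⧸ U)] : DualPair p (cycloChar p) (funRep A U) (funRep M U) where
  β :=
    letI := Fintype.ofFinite (GQ ⧸ U)
    ∑ x : GQ ⧸ U, P.β.compl₁₂ (LinearMap.proj x) (LinearMap.proj x)
  equivariant g a m := by
    classical
    letI := Fintype.ofFinite (GQ ⧸ U)
    simp only [LinearMap.sum_apply, LinearMap.compl₁₂_apply, LinearMap.proj_apply, Finset.mul_sum]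
    refine Fintype.sum_equiv (MulAction.toPerm (g⁻¹ : GQ)) _ _ fun x => ?_
    exact P.equivariant g _ _
  left a h := by
    classical
    letI := Fintype.ofFinite (GQ ⧸ U)
    funext x
    refine P.left _ fun m => ?_
    have := h (Pi.single x m)
    simp only [LinearMap.sum_apply, LinearMap.compl₁₂_apply, LinearMap.proj_apply] at this
    simpa [Pi.single_apply, apply_ite, ite_apply, apply_ite (fun f : _ →ₗ[ZMod p] _ => f _)] using this
  right m h := by
    classical
    letI := Fintype.ofFinite (GQ ⧸ U)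
    funext x
    refine P.right _ fun a => ?_
    have := h (Pi.single x a)
    simp only [LinearMap.sum_apply, LinearMap.compl₁₂_apply, LinearMap.proj_apply] at this
    simpa [Pi.single_apply, apply_ite, ite_apply, apply_ite (fun f : _ →ₗ[ZMod p] _ => f _)] using this

lemma funPair_apply {A M : Rep.{0} (ZMod p) GQ} (P : DualPair p (cycloChar p) A M)
    (U : Subgroup GQ) [Fintype (GQ ⧸ U)] (a : funRep A U) (m : funRep M U) :
    (funPair P U).β a m = ∑ x : GQ ⧸ U, P.β (a x) (m x) := by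
  simp only [funPair, LinearMap.sum_apply, LinearMap.compl₁₂_apply, LinearMap.proj_apply]
  rw [Subsingleton.elim (Fintype.ofFinite (GQ ⧸ U)) ‹Fintype (GQ ⧸ U)›]

lemma finiteDimensional_funRep (M : Rep.{0} (ZMod p) GQ) [FiniteDimensional (ZMod p) M]
    (U : Subgroup GQ) [Finite (GQ ⧸ U)] : FiniteDimensional (ZMod p) (funRep M U) :=
  inferInstanceAs (FiniteDimensional (ZMod p) (GQ ⧸ U → M))

lemma rho_eq_one_of_pair {A M : Rep.{0} (ZMod p) GQ} (P : DualPair p (cycloChar p) A M) {g : GQ}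
    (hM : M.ρ g = 1) (hχ : cycloChar p g = 1) : A.ρ g = 1 :=
  LinearMap.ext fun a => sub_eq_zero.1 (P.left _ fun m => by
    have := P.equivariant g a m
    rw [hM, hχ, Units.val_one, one_mul, Module.End.one_apply] at this
    rw [map_sub, LinearMap.sub_apply, this, Module.End.one_apply, sub_self])

/-- A subgroup of `p'`-index, of level `L`, on which `χ` is trivial and `M` and `A` are
unipotent. -/
theorem exists_sylow {L : Levels} {A M : Rep.{0} (ZMod p) GQ}
    [FiniteDimensional (ZMod p) A] [FiniteDimensional (ZMod p) M]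
    (P : DualPair p (cycloChar p) A M) (hM : IsSmoothRep L (MonoidHom.id GQ) M)
    (hμ : IsSmoothRep L (MonoidHom.id GQ) (muRep p)) :
    ∃ U : Subgroup GQ, IsLevelSubgroup L (MonoidHom.id GQ) U ∧ ¬ p ∣ U.index ∧
      (∀ g ∈ U, cycloChar p g = 1) ∧
      (∀ (W : Submodule (ZMod p) M), (∀ g ∈ U, ∀ w ∈ W, M.ρ g w ∈ W) → W ≠ ⊤ →
        ∃ m ∉ W, ∀ g ∈ U, M.ρ g m - m ∈ W) ∧
      (∀ (W : Submodule (ZMod p) A), (∀ g ∈ U, ∀ w ∈ W, A.ρ g w ∈ W) → W ≠ ⊤ →
        ∃ m ∉ W, ∀ g ∈ U, A.ρ g m - m ∈ W) := by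
  classical
  let U₀ : Subgroup GQ := MonoidHom.ker M.ρ ⊓ (cycloChar p).ker
  haveI : U₀.Normal := Subgroup.normal_inf_normal _ _
  obtain ⟨F, hF, hFle⟩ : IsLevelSubgroup L (MonoidHom.id GQ) U₀ := by
    let b := Module.finBasis (ZMod p) M
    choose F hF hfix using fun i => hM (b i)
    obtain ⟨F₁, hF₁, hfix₁⟩ := hμ (1 : ZMod p)
    obtain ⟨F', hF', hle⟩ := Levels.exists_ge (L := L) F hF
    refine ⟨F' ⊔ F₁, L.sup _ _ hF' hF₁, fun s hs => ⟨?_, ?_⟩⟩
    · exact MonoidHom.mem_ker.2 (b.ext fun i => hfix i s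
        (IntermediateField.fixingSubgroup_antitone ((hle i).trans le_sup_left) hs))
    · refine MonoidHom.mem_ker.2 (Units.ext ?_)
      have := hfix₁ s (IntermediateField.fixingSubgroup_antitone le_sup_right hs)
      rwa [muRep_apply, mul_one] at this
  have hU₀ : IsLevelSubgroup L (MonoidHom.id GQ) U₀ := ⟨F, hF, hFle⟩
  haveI : Finite (GQ ⧸ U₀) := hU₀.finite_quotient
  obtain ⟨Q⟩ : Nonempty (Sylow p (GQ ⧸ U₀)) := inferInstance
  let U : Subgroup GQ := Q.1.comap (QuotientGroup.mk' U₀)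
  have hle : U₀ ≤ U := fun g hg => by
    change QuotientGroup.mk' U₀ g ∈ Q.1
    rw [(QuotientGroup.eq_one_iff g).2 hg |> (fun h => show QuotientGroup.mk' U₀ g = 1 from h)]
    exact one_mem _
  have hpow : ∀ g ∈ U, ∃ k : ℕ, g ^ p ^ k ∈ U₀ := fun g hg => by
    obtain ⟨k, hk⟩ := Q.2 ⟨_, hg⟩
    refine ⟨k, (QuotientGroup.eq_one_iff _).1 ?_⟩
    have := congrArg Subtype.val hk
    simpa using this
  have hχ : ∀ g ∈ U, cycloChar p g = 1 := fun g hg => by
    obtain ⟨k, hk⟩ := hpow g hg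
    have h1 : cycloChar p g ^ p ^ k = 1 := by
      rw [← map_pow]
      exact MonoidHom.mem_ker.1 hk.2
    have h2 : cycloChar p g ^ (p - 1) = 1 := by
      rw [← ZMod.card_units p]; exact pow_card_eq_one
    have hco : Nat.Coprime (p ^ k) (p - 1) := by
      refine Nat.Coprime.pow_left k ((Nat.Prime.coprime_iff_not_dvd Fact.out).2 fun h => ?_)
      have := (Fact.out : p.Prime).two_le
      exact absurd (Nat.le_of_dvd (by omega) h) (by omega)
    have h := pow_gcd_eq_one.2 ⟨h1, h2⟩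
    rwa [hco.gcd_eq_one, pow_one] at h
  have hfilt : ∀ (V : Rep.{0} (ZMod p) GQ) [FiniteDimensional (ZMod p) V],
      (∀ g ∈ U₀, V.ρ g = 1) →
      ∀ (W : Submodule (ZMod p) V), (∀ g ∈ U, ∀ w ∈ W, V.ρ g w ∈ W) → W ≠ ⊤ →
        ∃ m ∉ W, ∀ g ∈ U, V.ρ g m - m ∈ W := by
    intro V _ h0 W hW hne
    let act : U →* Module.End (ZMod p) (V ⧸ W) :=
      { toFun := fun g => W.mapQ W (V.ρ g) fun w hw => hW g g.2 w hw
        map_one' := Submodule.linearMap_qext _ (LinearMap.ext fun v => by simp)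
        map_mul' := fun g h => Submodule.linearMap_qext _ (LinearMap.ext fun v => by simp) }
    let H : Subgroup (Module.End (ZMod p) (V ⧸ W))ˣ := act.toHomUnits.range
    have hH : IsPGroup p H := by
      rintro ⟨_, g, rfl⟩
      obtain ⟨k, hk⟩ := hpow g g.2
      refine ⟨k, Subtype.ext (Units.ext ?_)⟩
      have : act (g ^ p ^ k) = 1 :=
        Submodule.linearMap_qext _ (LinearMap.ext fun v => by
          show Submodule.Quotient.mk (V.ρ ((g ^ p ^ k : U) : GQ) v) = Submodule.Quotient.mk v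
          rw [Subgroup.coe_pow, h0 _ hk]
          rfl)
      simpa [map_pow] using this
    letI : MulAction H (V ⧸ W) :=
      { smul := fun h x => (h.1 : Module.End (ZMod p) (V ⧸ W)) x
        one_smul := fun x => rfl
        mul_smul := fun h h' x => rfl }
    haveI : Finite (V ⧸ W) := Module.finite_of_finite (ZMod p)
    haveI : Nontrivial (V ⧸ W) := Submodule.Quotient.nontrivial_iff.2 hne
    have hdvd : p ∣ Nat.card (V ⧸ W) := by
      rw [Module.natCard_eq_pow_finrank (K := ZMod p), Nat.card_zmod]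
      exact dvd_pow_self p (Module.finrank_pos).ne'
    obtain ⟨x, hx, hx0⟩ := hH.exists_fixed_point_of_prime_dvd_card_of_fixed_point (V ⧸ W) hdvd
      (a := 0) (fun h => map_zero (h.1 : Module.End (ZMod p) (V ⧸ W)))
    obtain ⟨m, rfl⟩ := Submodule.Quotient.mk_surjective W x
    refine ⟨m, fun hm => hx0 ((Submodule.Quotient.mk_eq_zero W).2 hm).symm, fun g hg => ?_⟩
    exact (Submodule.Quotient.eq W).1 (hx ⟨_, ⟨g, hg⟩, rfl⟩)
  refine ⟨U, ⟨F, hF, fun s hs => hle (hFle s hs)⟩, ?_, hχ,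
    hfilt M fun g hg => MonoidHom.mem_ker.1 hg.1,
    hfilt A fun g hg => rho_eq_one_of_pair P (MonoidHom.mem_ker.1 hg.1) (MonoidHom.mem_ker.1 hg.2)⟩
  rw [Subgroup.index_comap_of_surjective _ (QuotientGroup.mk'_surjective U₀)]
  exact Q.not_dvd_index

end Fermat.Agent.CFT.Sha
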