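import Fermat.Agent.CFT.Sha.Pairs

/-!
# Functoriality of the Tate–Shafarevich groups, behaviour on direct summands
-/

set_option autoImplicit false

open CategoryTheory groupCohomology ExtCitation Module

noncomputable section

namespace Fermat.Agent.CFT.Sha

variable {p : ℕ} [Fact p.Prime] {S : Finset Nat.Primes} {A B C : Rep.{0} (ZMod p) GQ}

lemma loc2_push (φ : A →ₗ[ZMod p] B) (hφ : ∀ g a, φ (A.ρ g a) = B.ρ g (φ a)) (q : Nat.Primes)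
    (x : G2 S A) :
    loc2 S q B (pushH2 φ hφ x) =
      pushH2 (M := MLoc q A) (M' := MLoc q B) φ (fun g a => hφ (primeLocalToGlobal q g) a)
        (loc2 S q A x) := by
  obtain ⟨c, rfl⟩ := Submodule.mkQ_surjective _ x
  rfl

lemma locH1_push (φ : A →ₗ[ZMod p] B) (hφ : ∀ g a, φ (A.ρ g a) = B.ρ g (φ a)) (q : Nat.Primes)
    (x : H1 A) :
    locH1 q B (pushH1 φ hφ x) =
      pushH1 (A := MLoc q A) (B := MLoc q B) φ (fun g a => hφ (primeLocalToGlobal q g) a)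
        (locH1 q A x) := by
  induction x using H1_induction_on with
  | h c =>
    rw [pushH1_π, locH1_π, locH1_π, pushH1_π]
    rfl

/-- `Ш²` is functorial. -/
def pushSha2 (φ : A →ₗ[ZMod p] B) (hφ : ∀ g a, φ (A.ρ g a) = B.ρ g (φ a)) :
    Sha2 S A →ₗ[ZMod p] Sha2 S B :=
  (pushH2 φ hφ).restrict fun x hx => by
    simp only [Sha2, LinearMap.mem_ker, loc2T, funext_iff, LinearMap.pi_apply, Pi.zero_apply] at hx ⊢
    intro q
    rw [loc2_push, hx q, map_zero]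

lemma coe_pushSha2 (φ : A →ₗ[ZMod p] B) (hφ : ∀ g a, φ (A.ρ g a) = B.ρ g (φ a)) (x : Sha2 S A) :
    (pushSha2 φ hφ x : G2 S B) = pushH2 φ hφ x := rfl

/-- `Ш¹` is functorial. -/
def pushSha1 (φ : A →ₗ[ZMod p] B) (hφ : ∀ g a, φ (A.ρ g a) = B.ρ g (φ a)) :
    Sha1 S A →ₗ[ZMod p] Sha1 S B :=
  (pushH1c φ hφ).restrict fun x hx => by
    simp only [Sha1, LinearMap.mem_ker, loc1T, funext_iff, LinearMap.pi_apply, Pi.zero_apply] at hx ⊢
    intro q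
    refine Subtype.ext ?_
    change locH1 q.1 B (pushH1 φ hφ x.1) = 0
    rw [locH1_push, show locH1 q.1 A x.1 = 0 from congrArg Subtype.val (hx q), map_zero]

lemma coe_pushSha1 (φ : A →ₗ[ZMod p] B) (hφ : ∀ g a, φ (A.ρ g a) = B.ρ g (φ a)) (x : Sha1 S A) :
    ((pushSha1 φ hφ x : G1 S B) : H1 B) = pushH1 φ hφ x.1.1 := rfl

lemma pushH2_pushH2 (φ : A →ₗ[ZMod p] B) (hφ : ∀ g a, φ (A.ρ g a) = B.ρ g (φ a))
    (ψ : B →ₗ[ZMod p] C) (hψ : ∀ g b, ψ (B.ρ g b) = C.ρ g (ψ b)) (x : G2 S A) :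
    pushH2 ψ hψ (pushH2 φ hφ x) =
      pushH2 (ψ ∘ₗ φ) (fun g a => (congrArg ψ (hφ g a)).trans (hψ g (φ a))) x := by
  obtain ⟨c, rfl⟩ := Submodule.mkQ_surjective _ x
  rfl

lemma pushH2_eq_zero_of_forall (φ : A →ₗ[ZMod p] B) (hφ : ∀ g a, φ (A.ρ g a) = B.ρ g (φ a))
    (h : ∀ a, φ a = 0) (x : G2 S A) : pushH2 φ hφ x = 0 := by
  obtain ⟨c, rfl⟩ := Submodule.mkQ_surjective _ x
  exact (congrArg (H2cπ (Levels.unr S) (MonoidHom.id GQ) B)
    (Subtype.ext (funext fun g => h _) : mapZ2 _ _ φ _ c = 0)).trans (map_zero _)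

lemma pushH2_eq_self_of_forall (φ : A →ₗ[ZMod p] A) (hφ : ∀ g a, φ (A.ρ g a) = A.ρ g (φ a))
    (h : ∀ a, φ a = a) (x : G2 S A) : pushH2 φ hφ x = x := by
  obtain ⟨c, rfl⟩ := Submodule.mkQ_surjective _ x
  exact congrArg (H2cπ (Levels.unr S) (MonoidHom.id GQ) A) (Subtype.ext (funext fun g => h _))

variable {M N K : Rep.{0} (ZMod p) GQ}

/-- `Ш²(M) × Ш²(K)` embeds in `Ш²(N)` when `N = M ⊕ K`. -/
theorem finrank_sha2_add_le [FiniteDimensional (ZMod p) (Sha2 S M)]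
    [FiniteDimensional (ZMod p) (Sha2 S K)] [FiniteDimensional (ZMod p) (Sha2 S N)]
    (i : M →ₗ[ZMod p] N) (hi : ∀ g a, i (M.ρ g a) = N.ρ g (i a))
    (π : N →ₗ[ZMod p] M) (hπ : ∀ g a, π (N.ρ g a) = M.ρ g (π a))
    (j : K →ₗ[ZMod p] N) (hj : ∀ g a, j (K.ρ g a) = N.ρ g (j a))
    (ω : N →ₗ[ZMod p] K) (hω : ∀ g a, ω (N.ρ g a) = K.ρ g (ω a))
    (hπi : ∀ m, π (i m) = m) (hπj : ∀ c, π (j c) = 0) (hωi : ∀ m, ω (i m) = 0)
    (hωj : ∀ c, ω (j c) = c) :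
    finrank (ZMod p) (Sha2 S M) + finrank (ZMod p) (Sha2 S K) ≤
      finrank (ZMod p) (Sha2 S N) := by
  rw [← Module.finrank_prod]
  refine LinearMap.finrank_le_finrank_of_injective
    (f := (pushSha2 i hi).coprod (pushSha2 j hj)) ((injective_iff_map_eq_zero _).2 ?_)
  rintro ⟨x, y⟩ h
  have h' : pushH2 i hi x.1 + pushH2 j hj y.1 = 0 := congrArg Subtype.val h
  have hx := congrArg (pushH2 (L := Levels.unr S) (r := MonoidHom.id GQ) π hπ) h'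
  have hy := congrArg (pushH2 (L := Levels.unr S) (r := MonoidHom.id GQ) ω hω) h'
  rw [map_add, map_zero, pushH2_pushH2, pushH2_pushH2,
    pushH2_eq_self_of_forall (π ∘ₗ i) _ hπi, pushH2_eq_zero_of_forall (π ∘ₗ j) _ hπj,
    add_zero] at hx
  rw [map_add, map_zero, pushH2_pushH2, pushH2_pushH2,
    pushH2_eq_self_of_forall (ω ∘ₗ j) _ hωj, pushH2_eq_zero_of_forall (ω ∘ₗ i) _ hωi,
    zero_add] at hy
  exact Prod.ext (Subtype.ext hx) (Subtype.ext hy)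

/-- `Ш¹(N)` embeds in `Ш¹(M) × Ш¹(K)` when `N = M ⊕ K`. -/
theorem finrank_sha1_le_add [FiniteDimensional (ZMod p) (Sha1 S M)]
    [FiniteDimensional (ZMod p) (Sha1 S K)]
    (i : M →ₗ[ZMod p] N) (hi : ∀ g a, i (M.ρ g a) = N.ρ g (i a))
    (π : N →ₗ[ZMod p] M) (hπ : ∀ g a, π (N.ρ g a) = M.ρ g (π a))
    (j : K →ₗ[ZMod p] N) (hj : ∀ g a, j (K.ρ g a) = N.ρ g (j a))
    (ω : N →ₗ[ZMod p] K) (hω : ∀ g a, ω (N.ρ g a) = K.ρ g (ω a))
    (hsum : ∀ n, i (π n) + j (ω n) = n) :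
    finrank (ZMod p) (Sha1 S N) ≤
      finrank (ZMod p) (Sha1 S M) + finrank (ZMod p) (Sha1 S K) := by
  rw [← Module.finrank_prod]
  refine LinearMap.finrank_le_finrank_of_injective
    (f := (pushSha1 π hπ).prod (pushSha1 ω hω)) ((injective_iff_map_eq_zero _).2 ?_)
  rintro ⟨⟨x, hx⟩, hx'⟩ h
  have h1 : pushH1 π hπ x = 0 :=
    congrArg (fun z : Sha1 S M × Sha1 S K => (z.1.1.1 : H1 M)) h
  have h2 : pushH1 ω hω x = 0 :=
    congrArg (fun z : Sha1 S M × Sha1 S K => (z.2.1.1 : H1 K)) h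
  obtain ⟨c, -, rfl⟩ := hx
  have e : pushH1 i hi (pushH1 π hπ ((H1π N).hom c)) + pushH1 j hj (pushH1 ω hω ((H1π N).hom c)) =
      (H1π N).hom c := by
    rw [pushH1_π, pushH1_π, pushH1_π, pushH1_π, ← map_add]
    exact congrArg (H1π N).hom (Subtype.ext (funext fun g => hsum (c g)))
  rw [h1, h2, map_zero, map_zero, add_zero] at e
  exact Subtype.ext (Subtype.ext e.symm)

end Fermat.Agent.CFT.Sha
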