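import Fermat.Agent.CFT.Sha.Layered
import Fermat.Agent.CFT.Sha.Functorial

/-!
# `dim Ш¹(A) = dim Ш²(M)`
-/

set_option autoImplicit false
set_option linter.style.haveILetI false

open CategoryTheory groupCohomology ExtCitation Module

noncomputable section

namespace Fermat.Agent.CFT.Sha

variable {p : ℕ} [Fact p.Prime] {S : Finset Nat.Primes}

/-- Constant functions. -/
def constFun (M : Rep.{0} (ZMod p) GQ) (U : Subgroup GQ) : M →ₗ[ZMod p] funRep M U where
  toFun m := fun _ => m
  map_add' _ _ := rfl
  map_smul' _ _ := rfl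

lemma constFun_equivariant (M : Rep.{0} (ZMod p) GQ) (U : Subgroup GQ) (g : GQ) (m : M) :
    constFun M U (M.ρ g m) = (funRep M U).ρ g (constFun M U m) := rfl

/-- The normalised sum. -/
def avgFun (M : Rep.{0} (ZMod p) GQ) (U : Subgroup GQ) [Fintype (GQ ⧸ U)] :
    funRep M U →ₗ[ZMod p] M where
  toFun f := (U.index : ZMod p)⁻¹ • ∑ x, f x
  map_add' f f' := by
    rw [← smul_add, ← Finset.sum_add_distrib]
    rfl
  map_smul' c f := by
    change (U.index : ZMod p)⁻¹ • ∑ x, c • f x = c • ((U.index : ZMod p)⁻¹ • ∑ x, f x)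
    rw [← Finset.smul_sum, smul_comm]

lemma avgFun_equivariant (M : Rep.{0} (ZMod p) GQ) (U : Subgroup GQ) [Fintype (GQ ⧸ U)] (g : GQ)
    (f : funRep M U) : avgFun M U ((funRep M U).ρ g f) = M.ρ g (avgFun M U f) := by
  change (U.index : ZMod p)⁻¹ • ∑ x, M.ρ g (f (g⁻¹ • x)) =
    M.ρ g ((U.index : ZMod p)⁻¹ • ∑ x, f x)
  rw [map_smul, map_sum]
  congr 1
  exact Fintype.sum_equiv (MulAction.toPerm (g⁻¹ : GQ)) _ _ fun x => rfl

lemma avgFun_constFun (M : Rep.{0} (ZMod p) GQ) (U : Subgroup GQ) [Fintype (GQ ⧸ U)]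
    (hU : ¬ p ∣ U.index) (m : M) : avgFun M U (constFun M U m) = m := by
  change (U.index : ZMod p)⁻¹ • ∑ _x : GQ ⧸ U, m = m
  rw [Finset.sum_const, Finset.card_univ, ← Nat.card_eq_fintype_card,
    show Nat.card (GQ ⧸ U) = U.index from rfl, ← Nat.cast_smul_eq_nsmul (ZMod p), smul_smul,
    inv_mul_cancel₀ fun h => hU ((CharP.cast_eq_zero_iff (ZMod p) p _).mp h), one_smul]

section summand

variable (M : Rep.{0} (ZMod p) GQ) (U : Subgroup GQ) [Fintype (GQ ⧸ U)]

/-- The complement of the constants. -/
abbrev complRep : Rep.{0} (ZMod p) GQ :=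
  Rep.of (Subrepresentation.toRepresentation (ρ := (funRep M U).ρ)
    ⟨LinearMap.ker (avgFun M U), fun g f hf => by
      rw [LinearMap.mem_ker, avgFun_equivariant, LinearMap.mem_ker.1 hf, map_zero]⟩)

variable (hU : ¬ p ∣ U.index)

/-- Projection onto the complement. -/
def complProj : funRep M U →ₗ[ZMod p] complRep M U :=
  LinearMap.codRestrict _ (LinearMap.id - constFun M U ∘ₗ avgFun M U) fun f => by
    rw [LinearMap.mem_ker, LinearMap.sub_apply, map_sub, LinearMap.comp_apply,
      avgFun_constFun M U hU, LinearMap.id_apply, sub_self]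

lemma complProj_equivariant (g : GQ) (f : funRep M U) :
    complProj M U hU ((funRep M U).ρ g f) = (complRep M U).ρ g (complProj M U hU f) :=
  Subtype.ext (by
    change (funRep M U).ρ g f - constFun M U (avgFun M U ((funRep M U).ρ g f)) =
      (funRep M U).ρ g (f - constFun M U (avgFun M U f))
    rw [map_sub, avgFun_equivariant, constFun_equivariant])

end summand

variable (hp2 : p ≠ 2) (hpS : pPrime p ∈ S) {A M : Rep.{0} (ZMod p) GQ}
  [FiniteDimensional (ZMod p) A] [FiniteDimensional (ZMod p) M]
  (hA : IsSmoothRep (Levels.unr S) (MonoidHom.id GQ) A)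
  (hM : IsSmoothRep (Levels.unr S) (MonoidHom.id GQ) M)
  (P : DualPair p (cycloChar p) A M)

/-- The pairing of the complements. -/
def complPair (U : Subgroup GQ) [Fintype (GQ ⧸ U)] (hU : ¬ p ∣ U.index) :
    DualPair p (cycloChar p) (complRep A U) (complRep M U) where
  β := (funPair P U).β.compl₁₂ (LinearMap.ker (avgFun A U)).subtype
    (LinearMap.ker (avgFun M U)).subtype
  equivariant g a m := (funPair P U).equivariant g a.1 m.1
  left a h := Subtype.ext ((funPair P U).left a.1 fun f => by
    have h0 : (funPair P U).β a.1 (complProj M U hU f).1 = 0 := h (complProj M U hU f)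
    have hc : (complProj M U hU f).1 = f - constFun M U (avgFun M U f) := rfl
    have hsum : ∑ x, a.1 x = (0 : A) := by
      have := LinearMap.mem_ker.1 a.2
      change (U.index : ZMod p)⁻¹ • ∑ x, a.1 x = 0 at this
      exact (smul_eq_zero.1 this).resolve_left
        (inv_ne_zero fun h => hU ((CharP.cast_eq_zero_iff (ZMod p) p _).mp h))
    have hz : (funPair P U).β a.1 (constFun M U (avgFun M U f)) = 0 := by
      rw [funPair_apply]
      change ∑ x, P.β (a.1 x) (avgFun M U f) = 0
      rw [← LinearMap.sum_apply, ← map_sum, hsum, map_zero, LinearMap.zero_apply]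
    rw [hc, map_sub, hz, sub_zero] at h0
    exact h0)
  right m h := Subtype.ext ((funPair P U).right m.1 fun f => by
    have h0 : (funPair P U).β (complProj A U hU f).1 m.1 = 0 := h (complProj A U hU f)
    have hc : (complProj A U hU f).1 = f - constFun A U (avgFun A U f) := rfl
    have hsum : ∑ x, m.1 x = (0 : M) := by
      have := LinearMap.mem_ker.1 m.2
      change (U.index : ZMod p)⁻¹ • ∑ x, m.1 x = 0 at this
      exact (smul_eq_zero.1 this).resolve_left
        (inv_ne_zero fun h => hU ((CharP.cast_eq_zero_iff (ZMod p) p _).mp h))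
    have hz : (funPair P U).β (constFun A U (avgFun A U f)) m.1 = 0 := by
      rw [funPair_apply]
      change ∑ x, P.β (avgFun A U f) (m.1 x) = 0
      rw [← map_sum, hsum, map_zero]
    rw [hc, map_sub, LinearMap.sub_apply, hz, sub_zero] at h0
    exact h0)

include hp2 hpS hA hM P in
/-- The two Tate–Shafarevich groups have equal dimension. -/
theorem finrank_sha_eq : finrank (ZMod p) (Sha1 S A) = finrank (ZMod p) (Sha2 S M) := by
  have hL := Levels.hasNormal_unr S
  obtain ⟨U, hU, hidx, hχ, hfM, hfA⟩ := exists_sylow P hM (isSmoothRep_muRep hpS)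
  haveI : Finite (GQ ⧸ U) := hU.finite_quotient
  letI := Fintype.ofFinite (GQ ⧸ U)
  have hNM := isSmoothRep_funRep hL hU hM
  have hNA := isSmoothRep_funRep hL hU hA
  haveI := finiteDimensional_funRep M U
  haveI := finiteDimensional_funRep A U
  haveI : FiniteDimensional (ZMod p) (complRep M U) :=
    inferInstanceAs (FiniteDimensional (ZMod p) (LinearMap.ker (avgFun M U)))
  haveI : FiniteDimensional (ZMod p) (complRep A U) :=
    inferInstanceAs (FiniteDimensional (ZMod p) (LinearMap.ker (avgFun A U)))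
  have hCM : IsSmoothRep (Levels.unr S) (MonoidHom.id GQ) (complRep M U) := fun f => by
    obtain ⟨F, hF, h⟩ := hNM f.1
    exact ⟨F, hF, fun s hs => Subtype.ext (h s hs)⟩
  have hCA : IsSmoothRep (Levels.unr S) (MonoidHom.id GQ) (complRep A U) := fun f => by
    obtain ⟨F, hF, h⟩ := hNA f.1
    exact ⟨F, hF, fun s hs => Subtype.ext (h s hs)⟩
  haveI := finite_H1c_unr S hpS _ hA
  haveI := finite_H1c_unr S hpS _ hCA
  haveI := finite_H2c_unr hp2 S hpS _ hM
  haveI := finite_H2c_unr hp2 S hpS _ hCM
  haveI := finite_H2c_unr hp2 S hpS _ hNM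
  have h1 := finrank_sha1_le hp2 hpS hA hM P
  have h2 := finrank_sha1_le hp2 hpS hCA hCM (complPair P U hidx)
  have h3 := layered_sha_eq hp2 hpS hM hA P hU hχ hfM hfA
  have h4 : finrank (ZMod p) (Sha2 S M) + finrank (ZMod p) (Sha2 S (complRep M U)) ≤
      finrank (ZMod p) (Sha2 S (funRep M U)) :=
    finrank_sha2_add_le (constFun M U) (constFun_equivariant M U) (avgFun M U)
      (avgFun_equivariant M U) (LinearMap.ker (avgFun M U)).subtype (fun g c => rfl)
      (complProj M U hidx) (complProj_equivariant M U hidx) (avgFun_constFun M U hidx)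
      (fun c => LinearMap.mem_ker.1 c.2)
      (fun m => Subtype.ext (by
        change constFun M U m - constFun M U (avgFun M U (constFun M U m)) = 0
        rw [avgFun_constFun M U hidx, sub_self]))
      (fun c => Subtype.ext (by
        change c.1 - constFun M U (avgFun M U c.1) = c.1
        rw [LinearMap.mem_ker.1 c.2, map_zero, sub_zero]))
  have h5 : finrank (ZMod p) (Sha1 S (funRep A U)) ≤
      finrank (ZMod p) (Sha1 S A) + finrank (ZMod p) (Sha1 S (complRep A U)) :=
    finrank_sha1_le_add (constFun A U) (constFun_equivariant A U) (avgFun A U)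
      (avgFun_equivariant A U) (LinearMap.ker (avgFun A U)).subtype (fun g c => rfl)
      (complProj A U hidx) (complProj_equivariant A U hidx)
      (fun n => add_sub_cancel (constFun A U (avgFun A U n)) n)
  omega

end Fermat.Agent.CFT.Sha
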