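import Fermat.Agent.CFT.Sha.Defs

/-!
# The archimedean place contributes nothing for odd `p`
-/

set_option autoImplicit false
set_option linter.style.haveILetI false

open CategoryTheory groupCohomology ExtCitation Module

noncomputable section

namespace Fermat.Agent.CFT.Sha

variable {p : ℕ} [Fact p.Prime]

lemma two_ne_zero_zmod (hp2 : p ≠ 2) : (2 : ZMod p) ≠ 0 := fun h => by
  have h' : ((2 : ℕ) : ZMod p) = 0 := by exact_mod_cast h
  have h2 := Nat.le_of_dvd two_pos ((CharP.cast_eq_zero_iff (ZMod p) p 2).1 h')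
  have := (Fact.out : p.Prime).two_le
  omega

lemma exists_ne_complexConjugation :
    ∃ x : AlgebraicClosure ℚ, x ^ 2 = -1 ∧ complexConjugation x ≠ x := by
  obtain ⟨x, hx⟩ := IsAlgClosed.exists_pow_nat_eq (-1 : AlgebraicClosure ℚ) two_pos
  refine ⟨x, hx, fun h => ?_⟩
  have e := complexEmbedding_complexConjugation x
  rw [h] at e
  obtain ⟨r, hr⟩ := Complex.conj_eq_iff_real.1 e.symm
  have h1 := congrArg complexEmbedding hx
  rw [map_pow, map_neg, map_one, hr] at h1
  have h2 := congrArg Complex.re h1
  simp [pow_two] at h2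
  nlinarith [mul_self_nonneg r]

lemma arch_cases (g : ↥archimedeanDecomposition) : g = 1 ∨ g = archimedeanGen := by
  obtain ⟨n, hn⟩ := Subgroup.mem_zpowers_iff.1 g.2
  obtain ⟨k, hk | hk⟩ := Int.even_or_odd' n
  · refine Or.inl (Subtype.ext ?_)
    rw [← hn, hk, zpow_mul, zpow_two, complexConjugation_mul_self, one_zpow]
    rfl
  · refine Or.inr (Subtype.ext ?_)
    rw [← hn, hk, zpow_add, zpow_mul, zpow_two, complexConjugation_mul_self, one_zpow, one_mul,
      zpow_one]
    rfl

lemma archimedeanGen_mul_self : archimedeanGen * archimedeanGen = 1 :=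
  Subtype.ext complexConjugation_mul_self

lemma arch_isLevelConstant₁ {X : Type} (f : ↥archimedeanDecomposition → X) :
    IsLevelConstant₁ archimedeanLoc f := by
  obtain ⟨x, hx, hne⟩ := exists_ne_complexConjugation
  refine ⟨IntermediateField.adjoin ℚ {x},
    IntermediateField.adjoin.finiteDimensional
      (IsIntegral.of_pow two_pos (by rw [hx]; exact isIntegral_one.neg)), fun g s hs => ?_⟩
  have hs1 : s = 1 := by
    rcases arch_cases s with h | h
    · exact h
    · exfalso
      subst h
      rw [IntermediateField.mem_fixingSubgroup_iff] at hs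
      exact hne (hs x (IntermediateField.mem_adjoin_simple_self ℚ x))
  rw [hs1, mul_one]

variable (hp2 : p ≠ 2) (M : Rep.{0} (ZMod p) ↥archimedeanDecomposition)

include hp2 in
lemma arch_H1_eq_zero (x : H1 M) : x = 0 := by
  induction x using H1_induction_on with
  | h z =>
    refine (H1π_eq_zero_iff _).2 ?_
    refine ⟨-(2 : ZMod p)⁻¹ • z archimedeanGen, funext fun g => ?_⟩
    have h0 : z 1 = 0 := cocycles₁_map_one z
    rw [d₀₁_hom_apply]
    rcases arch_cases g with rfl | rfl
    · rw [map_one, Module.End.one_apply, sub_self]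
      exact h0.symm
    · have hc : M.ρ archimedeanGen (z archimedeanGen) = - z archimedeanGen := by
        have h := (mem_cocycles₁_iff z.1).1 z.2 archimedeanGen archimedeanGen
        rw [archimedeanGen_mul_self] at h
        exact eq_neg_of_add_eq_zero_left (h.symm.trans h0)
      change M.ρ archimedeanGen (-(2 : ZMod p)⁻¹ • z archimedeanGen) -
        -(2 : ZMod p)⁻¹ • z archimedeanGen = z archimedeanGen
      rw [map_smul, hc, ← smul_sub, sub_eq_add_neg, ← two_smul (ZMod p), smul_smul,
        smul_neg, neg_mul, inv_mul_cancel₀ (two_ne_zero_zmod hp2), neg_smul, one_smul, neg_neg]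

include hp2 in
lemma arch_H2_eq_zero (x : continuousH2 archimedeanLoc M) : x = 0 := by
  obtain ⟨c, rfl⟩ := Submodule.mkQ_surjective _ x
  refine (continuousH2π_eq_zero_iff _ _ c).2 ((mem_levelCoboundaries₂_iff _ _ _).2
    ⟨fun g => (2 : ZMod p)⁻¹ • (c.1 (g, 1) + c.1 (g, archimedeanGen)), arch_isLevelConstant₁ _, ?_⟩)
  have hc := (mem_cocycles₂_iff c.1).1 c.2.1
  have key : ∀ g h, M.ρ g (c.1 (h, 1) + c.1 (h, archimedeanGen)) -
      (c.1 (g * h, 1) + c.1 (g * h, archimedeanGen)) + (c.1 (g, 1) + c.1 (g, archimedeanGen)) =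
      c.1 (g, h) + c.1 (g, h) := by
    intro g h
    have e1 := hc g h 1
    have e2 := hc g h archimedeanGen
    rw [mul_one] at e1
    have hs : c.1 (g, 1) + c.1 (g, archimedeanGen) =
        c.1 (g, h) + c.1 (g, h * archimedeanGen) := by
      rcases arch_cases h with rfl | rfl
      · rw [one_mul]
      · rw [archimedeanGen_mul_self, add_comm]
    rw [map_add, hs]
    linear_combination (norm := module) -(e1 : _ = _) - e2
  funext ⟨g, h⟩
  rw [d₁₂_hom_apply]
  simp only [map_smul, ← smul_sub, ← smul_add]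
  rw [key g h, ← two_smul (ZMod p) (c.1 (g, h)), smul_smul,
    inv_mul_cancel₀ (two_ne_zero_zmod hp2), one_smul]

end Fermat.Agent.CFT.Sha
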