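import Fermat.Agent.CFT.Interface.Cohomology
import Fermat.Agent.CFT.Interface.Reciprocity
import Fermat.Agent.CFT.LocalInst.Fields
import Fermat.Agent.CFT.Class.Carry
import Fermat.Agent.CFT.MuInc
import Fermat.Agent.CFT.Global.PlaceBasic

/-!
# Carry classes in induced modules

* the multiplicative modules in additive notation;
* lifting a carry identity from a subgroup to the induced module;
* the scaled inclusion `ℤ/p → ℤ/pⁿ` and the symbol on invariant elements of `Omega q`.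
-/

set_option autoImplicit false
set_option linter.style.haveILetI false

open CategoryTheory groupCohomology ExtCitation

noncomputable section

namespace Fermat.Agent.CFT.Sha

/-! ### The multiplicative modules -/

/-- `galUnit` as a `ℤ`-representation. -/
def galUnitρ : Representation ℤ GQ (Additive (AlgebraicClosure ℚ)ˣ) where
  toFun g := (MonoidHom.toAdditive (galUnit g)).toIntLinearMap
  map_one' := LinearMap.ext fun a => congrArg Additive.ofMul
    (Units.ext rfl : galUnit 1 a.toMul = a.toMul)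
  map_mul' g g' := LinearMap.ext fun a => congrArg Additive.ofMul (galUnit_mul g g' a.toMul)

/-- `ℚ̄ˣ` written additively. -/
abbrev galW : Rep.{0} ℤ GQ := Rep.of galUnitρ

/-- `locUnitAct` as a `ℤ`-representation. -/
def locUnitρ (q : Nat.Primes) :
    Representation ℤ (primeLocalGaloisGroup q) (Additive (Omega q)ˣ) where
  toFun g := (MonoidHom.toAdditive (locUnitAct g)).toIntLinearMap
  map_one' := LinearMap.ext fun a => congrArg Additive.ofMul
    (Units.ext rfl : locUnitAct (1 : primeLocalGaloisGroup q) a.toMul = a.toMul)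
  map_mul' g g' := LinearMap.ext fun a => congrArg Additive.ofMul (locUnitAct_mul g g' a.toMul)

/-- `(Omega q)ˣ` written additively. -/
abbrev locW (q : Nat.Primes) : Rep.{0} ℤ (primeLocalGaloisGroup q) := Rep.of (locUnitρ q)

lemma galW_apply (g : GQ) (a : (AlgebraicClosure ℚ)ˣ) :
    galW.ρ g (Additive.ofMul a) = Additive.ofMul (galUnit g a) := rfl

lemma locW_apply {q : Nat.Primes} (g : primeLocalGaloisGroup q) (a : (Omega q)ˣ) :
    (locW q).ρ g (Additive.ofMul a) = Additive.ofMul (locUnitAct g a) := rfl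

/-! ### Lifting carry identities -/

/-- A carry identity on a subgroup, at the trivial coset, lifts to the induced module. -/
theorem exists_lift_carry {G : Type} [Group G] {r : G →* GQ} {k : Type} [CommRing k]
    {U : Subgroup G} (hU : IsLevelSubgroup Levels.all r U) {M : Rep.{0} k G} {W : Rep.{0} ℤ G}
    (e : M →+ W) (he : ∀ g m, e (M.ρ g m) = W.ρ g (e m))
    {C : G × G → (funRep M U : Type)} (hC : C ∈ cocycles₂ (funRep M U))
    (hCc : IsConst₂ Levels.all r C) (κ : G × G → ℕ)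
    (hκ : ∀ g h j, κ (g * h, j) + κ (g, h) = κ (h, j) + κ (g, h * j))
    (hκc : IsConst₂ Levels.all r κ) (α : G ⧸ U → W)
    (hα : ∀ g x, W.ρ g (α (g⁻¹ • x)) = α x) {y : U → W}
    (hy : IsConst₁ Levels.all (r.comp U.subtype) y)
    (hyC : ∀ s t : U, e (C ((s : G), (t : G)) (QuotientGroup.mk 1)) =
      W.ρ s (y t) - y (s * t) + y s + κ ((s : G), (t : G)) • α (QuotientGroup.mk 1)) :
    ∃ F : G → G ⧸ U → W, IsConst₁ Levels.all r F ∧ ∀ g h x,
      e (C (g, h) x) = W.ρ g (F h (g⁻¹ • x)) - F (g * h) x + F g x + κ (g, h) • α x := by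
  let D : G × G → (funRep W U : Type) := fun gh x => e (C gh x) - κ gh • α x
  have hD : D ∈ cocycles₂ (funRep W U) := by
    rw [mem_cocycles₂_iff]
    intro g h j
    funext x
    have h1 := congrArg e (congrFun ((mem_cocycles₂_iff C).1 hC g h j) x)
    simp only [Pi.add_apply, funRepρ_apply, map_add, he] at h1
    have h2 : (κ (g * h, j) : ℕ) • α x + κ (g, h) • α x = κ (h, j) • α x + κ (g, h * j) • α x := by
      rw [← add_nsmul, ← add_nsmul, hκ]
    simp only [D, Pi.add_apply, funRepρ_apply, map_sub, map_nsmul, hα]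
    linear_combination (norm := abel) h1 - h2
  have hDc : IsConst₂ Levels.all r D :=
    (IsConst₂.prodMk hCc hκc).comp fun z x => e (z.1 x) - z.2 • α x
  obtain ⟨Y, hY, hYd⟩ := exists_eq_d₁₂_of_shapiro Levels.normalBasis_all hU hD hDc hy
    (fun s t => by
      simp only [D]
      rw [hyC]
      abel)
  refine ⟨Y, hY, fun g h x => ?_⟩
  have h1 := congrFun (congrFun hYd (g, h)) x
  simp only [d₁₂_hom_apply, Pi.add_apply, Pi.sub_apply, funRepρ_apply, D] at h1
  rw [h1]
  abel

/-! ### Scalars -/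

variable {p : ℕ} [Fact p.Prime]

lemma pow_pred_mul (p : ℕ) {n : ℕ} (hn : 1 ≤ n) : p ^ (n - 1) * p = p ^ n := by
  rw [← pow_succ, Nat.sub_add_cancel hn]

/-- `i ↦ p ^ (n - 1) * i`, from `ℤ/p` to `ℤ/pⁿ`. -/
def pEmb (p n : ℕ) (i : ZMod p) : ZMod (p ^ n) := ((p ^ (n - 1) * i.val : ℕ) : ZMod (p ^ n))

lemma pEmb_natCast {n : ℕ} (hn : 1 ≤ n) (k : ℕ) :
    pEmb p n (k : ZMod p) = (p ^ (n - 1) : ℕ) * (k : ZMod (p ^ n)) := by
  rw [pEmb, ZMod.val_natCast, ← Nat.cast_mul, ZMod.natCast_eq_natCast_iff]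
  have h := (Nat.mod_modEq k p).mul_left' (p ^ (n - 1))
  rwa [pow_pred_mul p hn] at h

lemma pEmb_add {n : ℕ} (hn : 1 ≤ n) (i j : ZMod p) :
    pEmb p n (i + j) = pEmb p n i + pEmb p n j := by
  rw [← ZMod.natCast_zmod_val i, ← ZMod.natCast_zmod_val j, ← Nat.cast_add, pEmb_natCast hn,
    pEmb_natCast hn, pEmb_natCast hn, Nat.cast_add, mul_add]

/-- `pEmb` as a homomorphism. -/
def pEmbHom {n : ℕ} (hn : 1 ≤ n) : ZMod p →+ ZMod (p ^ n) :=
  AddMonoidHom.mk' (pEmb p n) (pEmb_add hn)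

lemma pEmb_mul {n : ℕ} (hn : 1 ≤ n) (i j : ZMod p) :
    pEmb p n (i * j) = (i.val : ZMod (p ^ n)) * pEmb p n j := by
  conv_lhs => rw [← ZMod.natCast_zmod_val i, ← ZMod.natCast_zmod_val j, ← Nat.cast_mul,
    pEmb_natCast hn]
  rw [pEmb, Nat.cast_mul, Nat.cast_mul]
  ring

lemma pEmb_injective {n : ℕ} (hn : 1 ≤ n) : Function.Injective (pEmb p n) := by
  intro i j h
  haveI : NeZero p := ⟨(Fact.out : p.Prime).ne_zero⟩
  haveI : NeZero (p ^ n) := ⟨pow_ne_zero _ (Fact.out : p.Prime).ne_zero⟩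
  rw [pEmb, pEmb, ZMod.natCast_eq_natCast_iff', Nat.mod_eq_of_lt, Nat.mod_eq_of_lt] at h
  · exact ZMod.val_injective p (Nat.eq_of_mul_eq_mul_left
      (Nat.pow_pos (Fact.out : p.Prime).pos) h)
  all_goals
    calc _ < p ^ (n - 1) * p :=
          Nat.mul_lt_mul_of_pos_left (ZMod.val_lt _) (Nat.pow_pos (Fact.out : p.Prime).pos)
      _ = p ^ n := pow_pred_mul p hn

/-- An element of `ℤ/pⁿ` killed by `p` is in the image of `pEmb`. -/
lemma exists_pEmb_eq {n : ℕ} (hn : 1 ≤ n) {t : ZMod (p ^ n)} (ht : p • t = 0) :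
    ∃ i, pEmb p n i = t := by
  haveI : NeZero (p ^ n) := ⟨pow_ne_zero _ (Fact.out : p.Prime).ne_zero⟩
  rw [← ZMod.natCast_zmod_val t, nsmul_eq_mul, ← Nat.cast_mul, ZMod.natCast_eq_zero_iff] at ht
  have ht' : p * p ^ (n - 1) ∣ p * t.val := by
    rw [mul_comm p (p ^ (n - 1)), pow_pred_mul p hn]; exact ht
  obtain ⟨k, hk⟩ := Nat.dvd_of_mul_dvd_mul_left (Fact.out : p.Prime).pos ht'
  refine ⟨(k : ZMod p), ?_⟩
  rw [pEmb_natCast hn, ← Nat.cast_mul, ← hk, ZMod.natCast_zmod_val]

/-! ### The carry cocycle of the tower -/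

variable (hp2 : p ≠ 2)

include hp2 in
lemma carry_eq_classCarry (n : ℕ) (g h : GQ) :
    carry p n (g, h) = (haveI := Recip.neZeroPow p n; Class.carry (Recip.towerHom hp2 n) g h) := by
  haveI := Recip.neZeroPow p n
  have hg : (tower p n g).val < p ^ n := ZMod.val_lt _
  have hh : (tower p n h).val < p ^ n := ZMod.val_lt _
  show (if p ^ n ≤ (tower p n g).val + (tower p n h).val then 1 else 0) =
    ((tower p n g).val + (tower p n h).val) / p ^ n
  split_ifs with hle
  · exact (Nat.div_eq_of_lt_le (by omega) (by omega)).symm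
  · exact (Nat.div_eq_of_lt (by omega)).symm

include hp2 in
lemma carry_cocycle (n : ℕ) (g h j : GQ) :
    carry p n (g * h, j) + carry p n (g, h) = carry p n (h, j) + carry p n (g, h * j) := by
  haveI := Recip.neZeroPow p n
  simp only [carry_eq_classCarry hp2, Class.carry_assoc]

include hp2 in
lemma carry_isConst {G : Type} [Group G] (r : G →* GQ) (n : ℕ) :
    IsConst₂ Levels.all r fun g => carry p n (r g.1, r g.2) := by
  obtain ⟨F, hF, h⟩ := tower_levelConst hp2 n
  exact ⟨F, hF.1, fun g g' s s' hs hs' => by simp only [map_mul, carry, h _ _ hs, h _ _ hs']⟩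

/-! ### The symbol on invariant elements -/

variable {q : Nat.Primes}

/-- Invariant units. -/
def fixedTop (q : Nat.Primes) : Subgroup (Omega q)ˣ := locUnits q ⊤

lemma mem_fixedTop {z : (Omega q)ˣ} :
    z ∈ fixedTop q ↔ ∀ τ : primeLocalGaloisGroup q, locUnitAct τ z = z :=
  ⟨fun h τ => Units.ext (h τ (Subgroup.mem_top τ)), fun h τ _ => congrArg Units.val (h τ)⟩

lemma exists_map_eq_of_fixedTop {z : (Omega q)ˣ} (hz : z ∈ fixedTop q) :
    ∃ b : (ℚ_[(q : ℕ)])ˣ, Units.map (algebraMap ℚ_[(q : ℕ)] (Omega q)).toMonoidHom b = z := by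
  have h : (z : Omega q) ∈ LocalInst.fld (q := q) ⊤ := LocalInst.mem_fld_iff.2 hz
  have h' : (z : Omega q) ∈ (⊥ : IntermediateField ℚ_[(q : ℕ)] (Omega q)) := by
    rw [← InfiniteGalois.fixedField_fixingSubgroup
      (⊥ : IntermediateField ℚ_[(q : ℕ)] (Omega q)), IntermediateField.fixingSubgroup_bot]
    exact h
  obtain ⟨b, hb⟩ := IntermediateField.mem_bot.1 h'
  have hb0 : b ≠ 0 := fun h0 => z.ne_zero (by rw [← hb, h0, map_zero])
  exact ⟨Units.mk0 b hb0, Units.ext hb⟩

open Classical in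
/-- The element of `ℚ_qˣ` below an invariant unit. -/
def descQ (q : Nat.Primes) (z : (Omega q)ˣ) : (ℚ_[(q : ℕ)])ˣ :=
  if h : ∃ b, Units.map (algebraMap ℚ_[(q : ℕ)] (Omega q)).toMonoidHom b = z then h.choose else 1

lemma map_descQ {z : (Omega q)ˣ} (hz : z ∈ fixedTop q) :
    algebraMap ℚ_[(q : ℕ)] (Omega q) (descQ q z) = z := by
  rw [descQ, dif_pos (exists_map_eq_of_fixedTop hz)]
  exact congrArg Units.val (exists_map_eq_of_fixedTop hz).choose_spec

lemma descQ_eq {z : (Omega q)ˣ} {b : (ℚ_[(q : ℕ)])ˣ}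
    (h : algebraMap ℚ_[(q : ℕ)] (Omega q) b = z) : descQ q z = b := by
  have hex : ∃ b, Units.map (algebraMap ℚ_[(q : ℕ)] (Omega q)).toMonoidHom b = z :=
    ⟨b, Units.ext h⟩
  refine Units.ext ((algebraMap ℚ_[(q : ℕ)] (Omega q)).injective ?_)
  rw [descQ, dif_pos hex, h]
  exact congrArg Units.val hex.choose_spec

variable (p) in
/-- The symbol of an invariant unit. -/
def phiOm (n : ℕ) (q : Nat.Primes) (z : (Omega q)ˣ) : ZMod (p ^ n) := phiLoc p n q (descQ q z)

include hp2 in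
lemma phiOm_mul (n : ℕ) {z z' : (Omega q)ˣ} (hz : z ∈ fixedTop q) (hz' : z' ∈ fixedTop q) :
    phiOm p n q (z * z') = phiOm p n q z + phiOm p n q z' := by
  rw [phiOm, descQ_eq (b := descQ q z * descQ q z') (by
    rw [Units.val_mul, Units.val_mul, map_mul, map_descQ hz, map_descQ hz']), phiLoc_mul hp2]
  rfl

/-- The symbol as a homomorphism on invariant units. -/
def phiOmHom (n : ℕ) (q : Nat.Primes) : Additive ↥(fixedTop q) →+ ZMod (p ^ n) :=
  AddMonoidHom.mk' (fun z => phiOm p n q (z.toMul : (Omega q)ˣ))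
    fun z z' => phiOm_mul hp2 n z.toMul.2 z'.toMul.2

include hp2 in
lemma phiOm_one (n : ℕ) : phiOm p n q (1 : (Omega q)ˣ) = 0 :=
  map_zero (phiOmHom hp2 n q)

include hp2 in
lemma phiOm_prod (n : ℕ) {ι : Type*} (s : Finset ι) (z : ι → (Omega q)ˣ)
    (hz : ∀ i ∈ s, z i ∈ fixedTop q) :
    phiOm p n q (∏ i ∈ s, z i) = ∑ i ∈ s, phiOm p n q (z i) := by
  classical
  induction s using Finset.induction with
  | empty => simp [phiOm_one hp2]
  | @insert a s has ih =>
    have hs : ∀ i ∈ s, z i ∈ fixedTop q := fun i hi => hz i (Finset.mem_insert_of_mem hi)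
    rw [Finset.prod_insert has, Finset.sum_insert has, ← ih hs,
      phiOm_mul hp2 n (hz a (Finset.mem_insert_self _ _)) (Subgroup.prod_mem _ hs)]

include hp2 in
lemma phiOm_pow (n : ℕ) {z : (Omega q)ˣ} (hz : z ∈ fixedTop q) (k : ℕ) :
    phiOm p n q (z ^ k) = k * phiOm p n q z := by
  induction k with
  | zero => simp [phiOm_one hp2]
  | succ k ih => rw [pow_succ, phiOm_mul hp2 n (Subgroup.pow_mem _ hz k) hz, ih]; push_cast; ring

/-! ### Roots of unity in `Omega q` -/

lemma iota_galUnit' (τ : primeLocalGaloisGroup q) (a : (AlgebraicClosure ℚ)ˣ) :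
    locUnitAct τ (iota q a) = iota q (galUnit (primeLocalToGlobal q τ) a) :=
  Units.ext (iota_galUnit τ a).symm

lemma galUnit_muInc (g : GQ) (i : ZMod p) :
    galUnit g (muInc p i) = muInc p ((cycloChar p g : ZMod p) * i) := Units.ext (gal_muInc g i)

lemma muInc_mul (w i : ZMod p) : muInc p (w * i) = muInc p i ^ w.val := by
  conv_lhs => rw [← ZMod.natCast_zmod_val w, ← ZMod.natCast_zmod_val i, ← Nat.cast_mul,
    muInc_natCast, mul_comm, pow_mul]
  rfl

variable (p) in
/-- `μ_p → ℚ̄ˣ`, additively. -/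
def muIncHom : ZMod p →+ Additive (AlgebraicClosure ℚ)ˣ :=
  AddMonoidHom.mk' (fun i => Additive.ofMul (muInc p i)) fun i j => congrArg _ (muInc_add i j)

lemma muIncHom_equivariant (g : GQ) (m : muRep p) :
    muIncHom p ((muRep p).ρ g m) = galW.ρ g (muIncHom p m) :=
  congrArg Additive.ofMul (galUnit_muInc g m).symm

end Fermat.Agent.CFT.Sha
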