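import Fermat.Agent.CFT.Global.PlaceField
import Fermat.Agent.CFT.GlobalPerm.Unramified
import Fermat.Agent.CFT.MuInc
import Fermat.Agent.CFT.Cohomology.Basic
import Fermat.Agent.Galois.Cyclotomic

/-!
# Tools for `UnitsDescent`: class-number powers, units away from `S`, roots at `S`-levels
-/

set_option autoImplicit false

open groupCohomology ExtCitation NumberField IsDedekindDomain
open scoped Pointwise

noncomputable section

namespace Fermat.Agent.CFT.Sha

variable {p : ℕ} [Fact p.Prime] {S : Finset Nat.Primes} {U' U : Subgroup GQ}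

/-- An element whose absolute values are a fixed power `N` of prescribed ones on `T` and `1`
elsewhere: powers of ideals by the class number are principal. -/
theorem exists_fixed_prescribed_pow (hU : IsLevelSubgroup Levels.all (MonoidHom.id GQ) U)
    (T : Finset Nat.Primes) (f : ∀ q : Nat.Primes, GQ ⧸ U → (Omega q)ˣ)
    (hf : ∀ q ∈ T, f q ∈ placePts q U) :
    ∃ N : ℕ, N ≠ 0 ∧ ∃ a ∈ fixedUnits U,
      (∀ q ∈ T, ∀ x, ‖(diag q U a x : Omega q)‖ = ‖(f q x : Omega q)‖ ^ N) ∧
      ∀ q, q ∉ T → ∀ x, ‖(diag q U a x : Omega q)‖ = 1 := by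
  classical
  have := numberField_fxFld hU
  have := hU.finite_quotient
  set N := Fintype.card (ClassGroup (𝓞 (fxFld U)))
  have hgen : ∀ v : HeightOneSpectrum (𝓞 (fxFld U)), ∃ a : fixedUnits U,
      Multiplicative.toAdd (v.valuationOfNeZero (fixToField U a)) = -(N : ℤ) ∧
      ∀ w, w ≠ v → w.valuation (fxFld U) (fixToField U a : fxFld U) = 1 := by
    intro v
    have hv0 : v.asIdeal ∈ nonZeroDivisors (Ideal (𝓞 (fxFld U))) :=
      mem_nonZeroDivisors_of_ne_zero v.ne_bot
    have hprin : ClassGroup.mk0 (⟨v.asIdeal, hv0⟩ ^ N) = 1 := by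
      rw [map_pow]; exact pow_card_eq_one
    rw [ClassGroup.mk0_eq_one_iff] at hprin
    obtain ⟨x, hx⟩ := hprin
    change v.asIdeal ^ N = Ideal.span {x} at hx
    have hx0 : x ≠ 0 := by
      rintro rfl
      rw [Ideal.span_singleton_eq_bot.2 rfl] at hx
      exact pow_ne_zero N v.ne_bot hx
    have hxne : algebraMap (𝓞 (fxFld U)) (fxFld U) x ≠ 0 :=
      (map_ne_zero_iff _ (FaithfulSMul.algebraMap_injective _ _)).2 hx0
    obtain ⟨a, ha⟩ := (fixToField_bijective U).2 (Units.mk0 _ hxne)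
    refine ⟨a, ?_, fun w hw => ?_⟩
    · rw [ha]
      have hmult : multiplicity v.asIdeal (Ideal.span {x}) = N := by
        rw [← hx]
        exact multiplicity_pow_self v.ne_bot
          (by rw [Ideal.isUnit_iff]; exact v.isPrime.ne_top) N
      have h2 : ((v.valuationOfNeZero (Units.mk0 (algebraMap (𝓞 (fxFld U)) (fxFld U) x) hxne)) :
          WithZero (Multiplicative ℤ)) =
          (Multiplicative.ofAdd (-(N : ℤ)) : Multiplicative ℤ) := by
        rw [HeightOneSpectrum.valuationOfNeZero_eq, Units.val_mk0,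
          HeightOneSpectrum.valuation_of_algebraMap, v.intValuation_eq_exp_neg_multiplicity hx0,
          hmult]
        rfl
      rw [WithZero.coe_inj.1 h2, toAdd_ofAdd]
    · rw [ha, Units.val_mk0, w.valuation_eq_one_iff_notMem]
      intro hmem
      have hle : v.asIdeal ^ N ≤ w.asIdeal := by
        rw [hx, Ideal.span_singleton_le_iff_mem]; exact hmem
      exact hw (HeightOneSpectrum.ext
        (v.isMaximal.eq_of_le w.isPrime.ne_top (w.isPrime.le_of_pow_le hle)).symm)
  choose gen hg1 hg2 using hgen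
  have happ : ∀ q ∈ T, ∀ x : GQ ⧸ U, ∃ b : fixedUnits U,
      ‖(diag q U b x : Omega q)‖ = ‖(f q x : Omega q)‖ := fun q hq x => by
    obtain ⟨b, hb, -, h⟩ := exists_fixedUnits_approx hU x (placePts_apply_mem (hf q hq) x) one_pos
    exact ⟨⟨b, hb⟩, h⟩
  choose! b hb using happ
  have hrep : ∀ v ∈ placesAbove U T, ∃ z : Nat.Primes × (GQ ⧸ U),
      z.1 ∈ T ∧ placeOf U z.1 z.2 = v := fun v hv =>
    let ⟨q, hq, x, h⟩ := mem_placesAbove.1 hv
    ⟨(q, x), hq, h⟩
  choose! z hzT hz using hrep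
  set e : HeightOneSpectrum (𝓞 (fxFld U)) → ℤ := fun v =>
    - Multiplicative.toAdd (v.valuationOfNeZero (fixToField U (b (z v).1 (z v).2)))
  set A : fixedUnits U := ∏ v ∈ placesAbove U T, gen v ^ e v
  have hval : ∀ v w : HeightOneSpectrum (𝓞 (fxFld U)), w ≠ v →
      w.valuationOfNeZero (fixToField U (gen v)) = 1 := fun v w hw => by
    rw [← WithZero.coe_inj, HeightOneSpectrum.valuationOfNeZero_eq, hg2 v w hw]; rfl
  have hA0 : fixToField U A = ∏ w ∈ placesAbove U T, fixToField U (gen w) ^ e w := by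
    simp [A, map_prod, map_zpow]
  refine ⟨N, Fintype.card_ne_zero, A, A.2, fun q hq x => ?_, fun q hqT x => ?_⟩
  · set v := placeOf U q x
    have hv : v ∈ placesAbove U T := (placeOf_mem_placesAbove_iff hU).2 hq
    have hA : v.valuationOfNeZero (fixToField U A) =
        v.valuationOfNeZero (fixToField U (b (z v).1 (z v).2 ^ N)) := by
      apply Multiplicative.toAdd.injective
      rw [hA0, map_prod, toAdd_prod, Finset.sum_eq_single v]
      · rw [map_zpow, toAdd_zpow, hg1 v, map_pow, map_pow, toAdd_pow]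
        simp [e, mul_comm]
      · intro w _ hne
        rw [map_zpow, hval w v (Ne.symm hne), one_zpow, toAdd_one]
      · exact fun h => absurd hv h
    have hA' := congrArg (fun t : Multiplicative ℤ => (t : WithZero (Multiplicative ℤ))) hA
    simp only [HeightOneSpectrum.valuationOfNeZero_eq] at hA'
    rw [norm_diag_eq_of_valuation_eq A _ q x hA', Subgroup.coe_pow, map_pow, Pi.pow_apply,
      Units.val_pow_eq_pow_val, norm_pow]
    congr 1
    have key : ∀ (q' : Nat.Primes) (x' : GQ ⧸ U), q' ∈ T → placeOf U q' x' = v →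
        ‖(diag q U (b q' x') x : Omega q)‖ = ‖(f q x : Omega q)‖ := by
      intro q' x' hq' h
      obtain ⟨hqq, τ, hτ⟩ := (placeOf_eq_iff hU).1 h
      obtain rfl : q' = q := hqq
      rw [← hτ, placePts_apply (diag_mem_placePts (b q' x').2) τ x',
        placePts_apply (hf q' hq) τ x', norm_locUnitAct, norm_locUnitAct]
      exact hb q' hq x'
    exact key _ _ (hzT v hv) (hz v hv)
  · refine (valuation_placeOf_eq_one_iff A q x).1 ?_
    rw [← HeightOneSpectrum.valuationOfNeZero_eq, hA0, map_prod,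
      Finset.prod_eq_one fun w hw => by
        rw [map_zpow, hval w _ (fun h => hqT ((placeOf_mem_placesAbove_iff hU).1 (h ▸ hw))),
          one_zpow]]
    rfl

theorem galNorm_one (q : Nat.Primes) (g : GQ) : galNorm q g 1 = 1 := by simp [galNorm]

/-- Elements of absolute value `1` at every place outside `S`. -/
def unitsOff (S : Finset Nat.Primes) : Subgroup (AlgebraicClosure ℚ)ˣ where
  carrier := {a | ∀ q ∉ S, ∀ g, galNorm q g a = 1}
  one_mem' := fun q _ g => galNorm_one q g
  mul_mem' := fun {a b} ha hb q hq g => by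
    rw [Units.val_mul, galNorm_mul, ha q hq g, hb q hq g, one_mul]
  inv_mem' := fun {a} ha q hq g => by
    rw [Units.val_inv_eq_inv_val, galNorm_inv, ha q hq g, inv_one]

theorem galUnit_mem_unitsOff {a : (AlgebraicClosure ℚ)ˣ} (ha : a ∈ unitsOff S) (h : GQ) :
    galUnit h a ∈ unitsOff S := fun q hq g => by
  rw [galUnit_coe]
  exact ha q hq (g * h)

theorem norm_diag_mk_eq_galNorm {a : (AlgebraicClosure ℚ)ˣ} (ha : a ∈ fixedUnits U)
    (q : Nat.Primes) (g : GQ) :
    ‖(diag q U a (QuotientGroup.mk g) : Omega q)‖ = galNorm q g (a : AlgebraicClosure ℚ) := by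
  rw [norm_diag_eq_galNorm]
  obtain ⟨u, hu⟩ := QuotientGroup.mk_out_eq_mul U g
  rw [hu]
  exact congrArg (fun z => ‖padicEmbedding (q : ℕ) (g z)‖) (ha u u.2)

/-- Inertia fixes a root of a fixed element when the absolute values are powers of `q`. -/
theorem inertia_fix_root {q : Nat.Primes} {A : ValuationSubring (AlgebraicClosure ℚ)}
    (hA : A.LiesOverPrime (q : ℕ)) {n : ℕ} (hn : ¬ (q : ℕ) ∣ n) {α : AlgebraicClosure ℚ}
    (hα : α ≠ 0) (hk : ∀ g, ∃ k : ℤ, galNorm q g α = ((q : ℕ) : ℝ) ^ k) {s : GQ}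
    (hs : s ∈ A.inertiaSubgroupIn ℚ) (hfix : s (α ^ n) = α ^ n) : s α = α := by
  obtain ⟨σ, rfl⟩ := Fermat.Agent.Galois.exists_smul_eq
    (Fermat.Agent.Galois.padicPlace_liesOverPrime (q : ℕ)) hA q.2
  set g := σ⁻¹ with hg
  have hgσ : σ = g⁻¹ := by rw [hg, inv_inv]
  obtain ⟨k, hk⟩ := hk g
  set β := α * ((q : ℕ) : AlgebraicClosure ℚ) ^ k with hβ
  have hβ1 : galNorm q g β = 1 := by
    rw [hβ, galNorm_mul, galNorm_zpow, galNorm_natCast, hk, inv_zpow,
      mul_inv_cancel₀ (zpow_ne_zero _ (Nat.cast_ne_zero.2 q.2.ne_zero))]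
  have hβA : β ∈ σ • padicPlace (q : ℕ) := by
    rw [Fermat.Agent.Galois.mem_smul_iff_symm, mem_padicPlace_iff_norm]
    exact hβ1.le
  have hsub := Fermat.Agent.Galois.inertia_sub_mem_nonunits hs hβA
  set ζ := s α / α with hζ
  have hsα : s α = ζ * α := by rw [hζ, div_mul_cancel₀ _ hα]
  have hfixβ : s β = ζ * β := by rw [hβ, map_mul, map_zpow₀, map_natCast, hsα, mul_assoc]
  rw [hfixβ, hgσ, mem_nonunits_inv_smul_iff, ← sub_one_mul, galNorm_mul, hβ1, mul_one,
    ← mem_nonunits_inv_smul_iff] at hsub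
  have hζn : ζ ^ n = 1 := by
    rw [hζ, div_pow, ← map_pow, hfix, div_self (pow_ne_zero _ hα)]
  have := Fermat.Agent.Galois.rootOfUnity_eq_of_sub_mem_nonunits (hgσ ▸ hA) q.2 hn hζn
    (one_pow n) hsub
  rw [hsα, this, one_mul]

/-- Adjoining elements fixed by all inertia outside `S` stays unramified outside `S`. -/
theorem isUnramifiedOutside_adjoin {s : Set (AlgebraicClosure ℚ)} (hs : s.Finite)
    (h : ∀ x ∈ s, ∀ q ∉ S, ∀ A : ValuationSubring (AlgebraicClosure ℚ),
      A.LiesOverPrime ((q : Nat.Primes) : ℕ) → ∀ g ∈ A.inertiaSubgroupIn ℚ, g x = x) :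
    (IntermediateField.adjoin ℚ s).IsUnramifiedOutside S := by
  have := hs.to_subtype
  refine ⟨IntermediateField.finiteDimensional_adjoin fun x _ =>
    ((AlgebraicClosure.isAlgebraic ℚ).isAlgebraic x).isIntegral, fun q hq A hA g hg => ?_⟩
  suffices hle : Subgroup.zpowers g ≤ (IntermediateField.adjoin ℚ s).fixingSubgroup from
    hle (Subgroup.mem_zpowers g)
  rw [← IntermediateField.le_iff_le, IntermediateField.adjoin_le_iff]
  rintro x hx ⟨t, ht⟩
  have hst : Subgroup.zpowers g ≤ MulAction.stabilizer GQ x :=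
    Subgroup.zpowers_le.2 (h x hx q hq A hA g hg)
  exact hst ht

end Fermat.Agent.CFT.Sha
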