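import Fermat.Agent.CFT.Interface.Cohomology
import Fermat.Agent.CFT.Cohomology.Exact

/-!
# Subadditivity of the Euler characteristic on short exact sequences
-/

set_option autoImplicit false

open CategoryTheory groupCohomology Module

noncomputable section

namespace Fermat.Agent.CFT.Sha

variable {G : Type} [Group G] {L : Levels} {r : G →* GQ} {k : Type} [Field k]
variable {A B C : Rep.{0} k G} (φ : A →ₗ[k] B) (hφ : ∀ g a, φ (A.ρ g a) = B.ρ g (φ a))
  (ψ : B →ₗ[k] C) (hψ : ∀ g b, ψ (B.ρ g b) = C.ρ g (ψ b))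

/-- A linear equivariant map as a morphism. -/
def repHomOf {A B : Rep.{0} k G} (φ : A →ₗ[k] B) (hφ : ∀ g a, φ (A.ρ g a) = B.ρ g (φ a)) :
    Rep.res (MonoidHom.id G) A ⟶ B :=
  Rep.ofHom ⟨φ, fun g => LinearMap.ext fun a => hφ g a⟩

/-- The induced map on all of `H¹`. -/
def pushH1 {A B : Rep.{0} k G} (φ : A →ₗ[k] B) (hφ : ∀ g a, φ (A.ρ g a) = B.ρ g (φ a)) :
    H1 A →ₗ[k] H1 B :=
  (map (MonoidHom.id G) (repHomOf φ hφ) 1).hom

lemma pushH1_π {A B : Rep.{0} k G} (φ : A →ₗ[k] B) (hφ : ∀ g a, φ (A.ρ g a) = B.ρ g (φ a))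
    (c : cocycles₁ A) :
    pushH1 φ hφ ((H1π A).hom c) =
      (H1π B).hom ((mapCocycles₁ (MonoidHom.id G) (repHomOf φ hφ)).hom c) :=
  H1π_comp_map_apply (MonoidHom.id G) (repHomOf φ hφ) c

lemma pushH1_mem {A B : Rep.{0} k G} (φ : A →ₗ[k] B) (hφ : ∀ g a, φ (A.ρ g a) = B.ρ g (φ a))
    {x : H1 A} (hx : x ∈ H1c L r A) : pushH1 φ hφ x ∈ H1c L r B := by
  obtain ⟨c, hc, rfl⟩ := hx
  rw [pushH1_π]
  exact ⟨_, IsConst₁.comp hc φ, rfl⟩

/-- The induced map on continuous `H¹`. -/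
def pushH1c {A B : Rep.{0} k G} (φ : A →ₗ[k] B) (hφ : ∀ g a, φ (A.ρ g a) = B.ρ g (φ a)) :
    H1c L r A →ₗ[k] H1c L r B :=
  (pushH1 φ hφ).restrict fun _ hx => pushH1_mem φ hφ hx

section delta

variable (s : C →ₗ[k] B) (t : B →ₗ[k] A) (hs : ∀ c, ψ (s c) = c) (ht : ∀ a, t (φ a) = a)
  (he : Function.Exact φ ψ)

include ht he in
lemma phi_retraction {b : B} (hb : ψ b = 0) : φ (t b) = b := by
  obtain ⟨a, rfl⟩ := (he b).1 hb
  rw [ht]

include hψ hs in
lemma psi_d₀₁ {c : C} (hc : c ∈ C.ρ.invariants) (g : G) :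
    ψ (B.ρ g (s c) - s c) = 0 := by
  rw [map_sub, hψ, hs, hc g, sub_self]

include hψ hs in
lemma psi_d₁₂ {z : G → C} (hz : z ∈ cocycles₁ C) (g h : G) :
    ψ (B.ρ g (s (z h)) - s (z (g * h)) + s (z g)) = 0 := by
  rw [map_add, map_sub, hψ, hs, hs, hs]
  rw [(mem_cocycles₁_iff z).1 hz g h]
  abel

include hφ hψ hs ht he in
lemma delta0_mem {c : C} (hc : c ∈ C.ρ.invariants) :
    (fun g => t (B.ρ g (s c) - s c)) ∈ cocycles₁ A := by
  rw [mem_cocycles₁_iff]
  intro g h
  have hφi : Function.Injective φ := Function.LeftInverse.injective ht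
  apply hφi
  rw [map_add, hφ, phi_retraction φ ψ t ht he (psi_d₀₁ ψ hψ s hs hc _),
    phi_retraction φ ψ t ht he (psi_d₀₁ ψ hψ s hs hc _),
    phi_retraction φ ψ t ht he (psi_d₀₁ ψ hψ s hs hc _), map_mul, Module.End.mul_apply, map_sub]
  abel

variable (hL : L.HasNormal) (hB : IsSmoothRep L r B)

include hB in
lemma delta0_const (c : C) : IsConst₁ L r (fun g => t (B.ρ g (s c) - s c)) := by
  obtain ⟨F, hF, h⟩ := hB (s c)
  exact ⟨F, hF, fun g u hu => by simp [h u hu]⟩

/-- The connecting map in degree zero. -/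
def delta0 : C.ρ.invariants →ₗ[k] H1c L r A where
  toFun c := ⟨(H1π A).hom ⟨_, delta0_mem φ hφ ψ hψ s t hs ht he c.2⟩,
    ⟨_, delta0_const s t hB c.1, rfl⟩⟩
  map_add' c c' := Subtype.ext (by
    refine (congrArg (H1π A).hom (Subtype.ext (funext fun g => ?_))).trans (map_add _ _ _)
    change t _ = t _ + t _
    simp only [Submodule.coe_add, map_add, map_sub]
    abel)
  map_smul' a c := Subtype.ext (by
    refine (congrArg (H1π A).hom (Subtype.ext (funext fun g => ?_))).trans (map_smul _ _ _)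
    change t _ = a • t _
    simp only [Submodule.coe_smul, map_smul, map_sub, smul_sub])

include hψ hs ht he hφ in
lemma delta1_mem (hL : L.HasNormal) (hB : IsSmoothRep L r B) {z : G → C} (hz : z ∈ cocycles₁ C)
    (hzc : IsConst₁ L r z) :
    (fun g => t ((d₁₂ B).hom (s ∘ z) g)) ∈ Z2 L r A := by
  refine ⟨?_, (IsSmoothRep.isConst₂_d₁₂ hL hB (hzc.comp s)).comp t⟩
  rw [SetLike.mem_coe, mem_cocycles₂_iff]
  intro g h j
  have hφi : Function.Injective φ := Function.LeftInverse.injective ht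
  apply hφi
  have e : ∀ g h, φ (t ((d₁₂ B).hom (s ∘ z) (g, h))) = (d₁₂ B).hom (s ∘ z) (g, h) := fun g h =>
    phi_retraction φ ψ t ht he (by
      rw [d₁₂_hom_apply]
      exact psi_d₁₂ ψ hψ s hs hz g h)
  simp only [map_add, hφ, e]
  simp only [d₁₂_hom_apply, Function.comp_apply, map_add, map_sub, map_mul,
    Module.End.mul_apply, mul_assoc]
  abel

/-- The connecting map in degree one, on cocycles. -/
def delta1 : ↥(Z1 L r C) →ₗ[k] H2c L r A where
  toFun z := H2cπ L r A ⟨_, delta1_mem φ hφ ψ hψ s t hs ht he hL hB z.1.2 z.2⟩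
  map_add' z z' := by
    refine (congrArg (H2cπ L r A) (Subtype.ext (funext fun g => ?_))).trans (map_add _ _ _)
    change t _ = t _ + t _
    rw [← map_add, ← Pi.add_apply, ← map_add]
    exact congrArg t (congrFun (congrArg _ (funext fun x => s.map_add _ _)) g)
  map_smul' a z := by
    refine (congrArg (H2cπ L r A) (Subtype.ext (funext fun g => ?_))).trans (map_smul _ _ _)
    change t _ = a • t _
    rw [← map_smul, ← Pi.smul_apply, ← map_smul]
    exact congrArg t (congrFun (congrArg _ (funext fun x => s.map_smul _ _)) g)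

end delta

variable [FiniteDimensional k A] [FiniteDimensional k B] [FiniteDimensional k C]

include hφ hψ in
/-- `h0 - h1 + h2` is subadditive. -/
theorem euler_subadd (hL : L.HasNormal) (hB : IsSmoothRep L r B) (hi : Function.Injective φ)
    (hsur : Function.Surjective ψ) (he : Function.Exact φ ψ)
    [FiniteDimensional k (H1c L r A)] [FiniteDimensional k (H1c L r B)]
    [FiniteDimensional k (H1c L r C)] [FiniteDimensional k (H2c L r A)]
    [FiniteDimensional k (H2c L r B)] [FiniteDimensional k (H2c L r C)] :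
    finrank k B.ρ.invariants + finrank k (H2c L r B) +
        (finrank k (H1c L r A) + finrank k (H1c L r C)) ≤
      finrank k A.ρ.invariants + finrank k (H2c L r A) +
        (finrank k C.ρ.invariants + finrank k (H2c L r C)) + finrank k (H1c L r B) := by
  obtain ⟨s, hs'⟩ := ψ.exists_rightInverse_of_surjective (LinearMap.range_eq_top.2 hsur)
  obtain ⟨t, ht'⟩ := φ.exists_leftInverse_of_injective (LinearMap.ker_eq_bot.2 hi)
  have hs : ∀ c, ψ (s c) = c := LinearMap.congr_fun hs'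
  have ht : ∀ a, t (φ a) = a := LinearMap.congr_fun ht'
  -- degree zero
  let i0 : A.ρ.invariants →ₗ[k] B.ρ.invariants :=
    φ.restrict fun a ha g => by rw [← hφ, ha g]
  let j0 : B.ρ.invariants →ₗ[k] C.ρ.invariants :=
    ψ.restrict fun b hb g => by rw [← hψ, hb g]
  let i1 : H1c L r A →ₗ[k] H1c L r B := pushH1c φ hφ
  let j1 : H1c L r B →ₗ[k] H1c L r C := pushH1c ψ hψ
  let i2 := pushH2 (L := L) (r := r) φ hφ
  let j2 := pushH2 (L := L) (r := r) ψ hψ
  let d0 : C.ρ.invariants →ₗ[k] H1c L r A := delta0 φ hφ ψ hψ s t hs ht he hB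
  let d1 : ↥(Z1 L r C) →ₗ[k] H2c L r A := delta1 φ hφ ψ hψ s t hs ht he hL hB
  have hk0 : LinearMap.ker j0 ≤ LinearMap.range i0 := by
    intro b hb
    obtain ⟨a, ha⟩ := (he (b : B)).1 (congrArg Subtype.val (LinearMap.mem_ker.1 hb))
    refine ⟨⟨a, fun g => hi ?_⟩, Subtype.ext ha⟩
    rw [hφ, ha, b.2 g]
  have hj0 : LinearMap.range j0 ≤ LinearMap.ker d0 := by
    rintro _ ⟨b, rfl⟩
    refine Subtype.ext ((H1π_eq_zero_iff _).2 ⟨t (s (ψ b) - b), funext fun g => ?_⟩)
    apply hi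
    have h0 : ψ (s (ψ (b : B)) - (b : B)) = 0 := by rw [map_sub, hs, sub_self]
    have h1 : ψ (B.ρ g (s (ψ (b : B))) - s (ψ (b : B))) = 0 :=
      psi_d₀₁ ψ hψ s hs (j0 b).2 g
    change φ (A.ρ g (t _) - t _) = φ (t (B.ρ g (s (ψ (b : B))) - s (ψ (b : B))))
    rw [φ.map_sub, hφ, phi_retraction φ ψ t ht he h0, phi_retraction φ ψ t ht he h1, map_sub, b.2 g]
    abel
  have hk1 : LinearMap.ker i1 ≤ LinearMap.range d0 := by
    rintro ⟨_, a, ha, rfl⟩ hx
    have h0 : pushH1 φ hφ ((H1π A).hom a) = 0 := congrArg Subtype.val (LinearMap.mem_ker.1 hx)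
    rw [pushH1_π, H1π_eq_zero_iff] at h0
    obtain ⟨b, hb⟩ := h0
    have hb' : ∀ g, B.ρ g b - b = φ (a g) := fun g => congrFun hb g
    have hψb : ψ b ∈ C.ρ.invariants := fun g => by
      rw [← hψ, ← sub_eq_zero, ← map_sub, hb', he.apply_apply_eq_zero]
    refine ⟨⟨ψ b, hψb⟩, Subtype.ext ((H1π_eq_iff _ _).2 ⟨t (s (ψ b) - b), funext fun g => ?_⟩)⟩
    apply hi
    have h0 : ψ (s (ψ b) - b) = 0 := by rw [map_sub, hs, sub_self]
    change φ (A.ρ g (t _) - t _) = φ (t (B.ρ g (s (ψ b)) - s (ψ b)) - a g)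
    rw [φ.map_sub, φ.map_sub, hφ, phi_retraction φ ψ t ht he h0,
      phi_retraction φ ψ t ht he (psi_d₀₁ ψ hψ s hs hψb g), ← hb', map_sub]
    abel
  have hd1 : LinearMap.range d1 ≤ LinearMap.ker i2 := by
    rintro _ ⟨z, rfl⟩
    refine (H2cπ_eq_zero_iff _).2 ⟨s ∘ (z.1 : G → C), z.2.comp s, funext fun g => ?_⟩
    refine (phi_retraction φ ψ t ht he ?_).symm
    rw [d₁₂_hom_apply]
    exact psi_d₁₂ ψ hψ s hs z.1.2 g.1 g.2
  let q1 : ↥(Z1 L r C) →ₗ[k] H1c L r C :=
    LinearMap.codRestrict _ ((H1π C).hom.comp (Z1 L r C).subtype)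
      fun z => ⟨z.1, z.2, rfl⟩
  have hq1 : Function.Surjective q1 := fun x => by
    obtain ⟨_, z, hz, rfl⟩ := x
    exact ⟨⟨z, hz⟩, rfl⟩
  have hj1 : (LinearMap.ker d1).map q1 ≤ LinearMap.range j1 := by
    rintro _ ⟨z, hz, rfl⟩
    obtain ⟨y, hy, hyd⟩ := (H2cπ_eq_zero_iff _).1 (LinearMap.mem_ker.1 hz)
    let w : G → B := fun g => s (z.1 g) - φ (y g)
    have hw : w ∈ cocycles₁ B := by
      rw [mem_cocycles₁_iff]
      intro g h
      have e1 := congrFun hyd (g, h)
      have e2 := congrArg φ e1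
      change φ (A.ρ g (y h) - y (g * h) + y g) = φ (t ((d₁₂ B).hom (s ∘ (z.1 : G → C)) (g, h))) at e2
      rw [phi_retraction φ ψ t ht he (by
        rw [d₁₂_hom_apply]; exact psi_d₁₂ ψ hψ s hs z.1.2 g h)] at e2
      simp only [d₁₂_hom_apply, Function.comp_apply, map_add, map_sub, hφ] at e2
      simp only [w, map_sub]
      rw [← sub_eq_zero] at e2 ⊢
      rw [← e2]
      abel
    have hwc : IsConst₁ L r w :=
      (((z.2 : IsConst₁ L r (z.1 : G → C)).comp s).prodMk (hy.comp φ)).comp fun x => x.1 - x.2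
    refine ⟨⟨(H1π B).hom ⟨w, hw⟩, ⟨_, hwc, rfl⟩⟩, Subtype.ext ?_⟩
    change pushH1 ψ hψ ((H1π B).hom ⟨w, hw⟩) = (H1π C).hom z.1
    rw [pushH1_π]
    refine congrArg (H1π C).hom (Subtype.ext (funext fun g => ?_))
    change ψ (s (z.1 g) - φ (y g)) = z.1 g
    rw [map_sub, hs, he.apply_apply_eq_zero, sub_zero]
  have hk2 : LinearMap.ker j2 = LinearMap.range i2 :=
    LinearMap.exact_iff.1 (H2c_exact φ hφ ψ hψ hL hB hi hsur he)
  have hcomp : LinearMap.range i1 ≤ LinearMap.ker j1 := by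
    rintro _ ⟨⟨_, a, ha, rfl⟩, rfl⟩
    refine Subtype.ext ?_
    change pushH1 ψ hψ (pushH1 φ hφ ((H1π A).hom a)) = 0
    rw [pushH1_π, pushH1_π, H1π_eq_zero_iff]
    refine ⟨0, funext fun g => ?_⟩
    change C.ρ g 0 - 0 = ψ (φ (a g))
    simp [he.apply_apply_eq_zero]
  have e1 := LinearMap.finrank_range_add_finrank_ker j0
  have e2 := (Submodule.finrank_mono hk0).trans (LinearMap.finrank_range_le i0)
  have e3 := LinearMap.finrank_range_add_finrank_ker d0
  have e4 := Submodule.finrank_mono hj0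
  have e5 := Submodule.finrank_mono hk1
  have e6 := LinearMap.finrank_range_add_finrank_ker i1
  have e7 := LinearMap.finrank_range_add_finrank_ker j1
  have e8 := Submodule.finrank_mono hj1
  have e9 := Submodule.finrank_mono hd1
  have e10 := LinearMap.finrank_range_add_finrank_ker i2
  have e11 := LinearMap.finrank_range_add_finrank_ker j2
  have e12 := Submodule.finrank_le (LinearMap.range j2)
  have e13 := Submodule.finrank_mono hcomp
  rw [hk2] at e11
  have e14 : finrank k (H1c L r C) ≤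
      finrank k ((LinearMap.ker d1).map q1) + finrank k (LinearMap.range d1) := by
    obtain ⟨σ, hσ⟩ := q1.exists_rightInverse_of_surjective (LinearMap.range_eq_top.2 hq1)
    have h := LinearMap.finrank_range_add_finrank_ker (d1.comp σ)
    have h' : LinearMap.ker (d1.comp σ) ≤ (LinearMap.ker d1).map q1 := fun x hx =>
      ⟨σ x, hx, LinearMap.congr_fun hσ x⟩
    have h'' := Submodule.finrank_mono (LinearMap.range_comp_le_range σ d1)
    have h3 := Submodule.finrank_mono h'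
    omega
  omega

end Fermat.Agent.CFT.Sha
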