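import Fermat.Agent.CFT.Sha.LevelChoice
import Fermat.Agent.CFT.Interface.GlobalFields
import Fermat.Agent.CFT.Global.StepLocalIndex

/-!
# Global classes of a permutation module with prescribed local invariants

For two places `(q₁, x₁)`, `(q₂, x₂)` over `S` of the base of an inert step, the second inequality
gives an element of the base whose local symbols are `1` and `-1` there and `0` at the other
places; the carry class of this element yields a class of `funRep μ_p U` with these invariants.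
-/

set_option autoImplicit false
set_option linter.style.haveILetI false

open CategoryTheory groupCohomology ExtCitation

noncomputable section

namespace Fermat.Agent.CFT.Sha

/-- The local Galois group acting on the places of the fixed field of `U`. -/
@[reducible]
def placeMulAction (q : Nat.Primes) (U : Subgroup GQ) :
    MulAction (primeLocalGaloisGroup q) (GQ ⧸ U) :=
  MulAction.compHom (GQ ⧸ U) (primeLocalToGlobal q)

attribute [local instance] placeMulAction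

variable {p : ℕ} [Fact p.Prime] (hp2 : p ≠ 2) {S : Finset Nat.Primes} {U₀ : Subgroup GQ}
  (d : InertStep p S U₀)

lemma nsmul_pEmb {n : ℕ} (hn : 1 ≤ n) (i : ZMod p) : p • pEmb p n i = 0 := by
  rw [show pEmb p n i = pEmbHom (p := p) hn i from rfl, ← map_nsmul, nsmul_eq_mul,
    ZMod.natCast_self, zero_mul, map_zero]

lemma mem_of_fix {N : Subgroup GQ} (hN : N.Normal) {g : GQ} {y : GQ ⧸ N} (h : g • y = y) :
    g ∈ N := by
  induction y using QuotientGroup.induction_on with | H w => ?_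
  rw [MulAction.Quotient.smul_mk, eq_comm, QuotientGroup.eq, smul_eq_mul, ← mul_assoc] at h
  simpa [mul_assoc] using hN.conj_mem _ h w

lemma normFun_inv' {U' U : Subgroup GQ} (h : U' ≤ U) [Finite (GQ ⧸ U')] {X : Type*} [CommGroup X]
    (g : GQ ⧸ U' → X) : normFun h g⁻¹ = (normFun h g)⁻¹ := by
  refine eq_inv_of_mul_eq_one_left ?_
  rw [← normFun_mul, inv_mul_cancel, normFun_one]

include hp2 in
lemma phiOm_prodW_mul (n : ℕ) {q : Nat.Primes} {U : Subgroup GQ} [Fintype (GQ ⧸ U)]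
    {f g : GQ ⧸ U → (Omega q)ˣ} (hf : f ∈ placePts q U) (hg : g ∈ placePts q U)
    {w : GQ ⧸ U → ZMod p} (hw : ∀ (τ : primeLocalGaloisGroup q) x, w (τ • x) = w x) :
    phiOm p n q (prodW (f * g) w) = phiOm p n q (prodW f w) + phiOm p n q (prodW g w) := by
  rw [prodW_mul, phiOm_mul hp2 n (prodW_mem (fun τ x => placePts_apply hf τ x) hw)
    (prodW_mem (fun τ x => placePts_apply hg τ x) hw)]

include hp2 in
lemma phiOm_prodW_inv (n : ℕ) {q : Nat.Primes} {U : Subgroup GQ} [Fintype (GQ ⧸ U)]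
    {f : GQ ⧸ U → (Omega q)ˣ} (hf : f ∈ placePts q U)
    {w : GQ ⧸ U → ZMod p} (hw : ∀ (τ : primeLocalGaloisGroup q) x, w (τ • x) = w x) :
    phiOm p n q (prodW f⁻¹ w) = -phiOm p n q (prodW f w) := by
  rw [eq_neg_iff_add_eq_zero, ← phiOm_prodW_mul hp2 n (inv_mem hf) hf hw, inv_mul_cancel,
    prodW_one_fun, phiOm_one hp2]

include hp2 in
/-- Weighted products of norms from `U'` have trivial symbol. -/
lemma phiOm_prodW_norm {q : Nat.Primes} [Fintype (GQ ⧸ d.U)] {g : GQ ⧸ d.U' → (Omega q)ˣ}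
    (hg : g ∈ placePts q d.U') {w : GQ ⧸ d.U → ZMod p}
    (hw : ∀ (τ : primeLocalGaloisGroup q) x, w (τ • x) = w x) :
    phiOm p d.n q (prodW (normFun d.step.le g) w) = 0 := by
  classical
  haveI := finite_quot_of_isLevelSubgroup d.step.level
  letI := Fintype.ofFinite (GQ ⧸ d.U')
  have e : prodW (normFun d.step.le g) w = prodW g (fun y => w (quotProj d.step.le y)) := by
    rw [prodW, prodW, ← Finset.prod_fiberwise Finset.univ (quotProj d.step.le)]
    refine Finset.prod_congr rfl fun x _ => ?_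
    rw [normFun_eq_prod, ← Finset.prod_pow]
    exact Finset.prod_congr (Finset.ext fun y => by simp) fun y hy => by
      rw [(Finset.mem_filter.1 hy).2]
  rw [e]
  refine phiOm_prodW_eq_zero hp2 d.n (fun τ x => placePts_apply hg τ x) (fun τ y => ?_)
    (fun y => isLocLevel_placeStab d.step.level y) fun y τ hτ =>
      d.tower_zero _ (mem_of_fix d.normal' (show primeLocalToGlobal q τ • y = y from hτ))
  show w (quotProj d.step.le (primeLocalToGlobal q τ • y)) = w (quotProj d.step.le y)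
  rw [quotProj_smul]
  exact hw τ _

include hp2 in
/-- An element at one place of `U` with symbol `p ^ (n - 1)`. -/
lemma exists_place_target {q : Nat.Primes} (hq : q ∈ S) [Fintype (GQ ⧸ d.U)] (x₁ : GQ ⧸ d.U) :
    ∃ f ∈ placePts q d.U,
      (∀ y, y ∉ MulAction.orbit (primeLocalGaloisGroup q) x₁ → f y = 1) ∧
      phiOm p d.n q (∏ x, f x) = pEmb p d.n 1 := by
  classical
  haveI : Finite (GQ ⧸ d.U) := Finite.of_fintype _
  have hUlev : IsLevelSubgroup Levels.all (MonoidHom.id GQ) d.U := by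
    obtain ⟨F, hF, h⟩ := d.level
    exact ⟨F, hF.1, h⟩
  set V := placeStab q d.U x₁ with hVdef
  have hV : IsLocLevel q V := isLocLevel_placeStab hUlev x₁
  haveI : Finite (primeLocalGaloisGroup q ⧸ V) := hV.finite_quotient
  letI := Fintype.ofFinite (primeLocalGaloisGroup q ⧸ V)
  obtain ⟨f₁, hf₁, hφ⟩ := exists_local_target hp2 hV d.hn (fun τ hτ => by
      have h := d.tower_eq ⟨_, mem_of_fix d.normal
        (show primeLocalToGlobal q τ • x₁ = x₁ from hτ)⟩
      show p • tower p d.n (primeLocalToGlobal q τ) = 0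
      rw [show tower p d.n (primeLocalToGlobal q τ) = _ from h, nsmul_pEmb d.hn])
    (d.inert q hq x₁) 1
  have hz : f₁ (QuotientGroup.mk 1) ∈ locUnits q V := fun τ hτ => by
    have h := hf₁ τ (QuotientGroup.mk 1)
    rw [show τ • (QuotientGroup.mk 1 : primeLocalGaloisGroup q ⧸ V) = QuotientGroup.mk 1 by
      rw [MulAction.Quotient.smul_mk, eq_comm, QuotientGroup.eq, smul_eq_mul, inv_one, one_mul,
        mul_one]
      exact hτ] at h
    exact (congrArg Units.val h).symm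
  obtain ⟨f, hf, hfx, hsupp⟩ := exists_placePts_extend hz
  have hsupp' : ∀ y, y ∉ MulAction.orbit (primeLocalGaloisGroup q) x₁ → f y = 1 :=
    fun y hy => hsupp y fun ⟨τ, hτ⟩ => hy ⟨τ, hτ⟩
  refine ⟨f, hf, hsupp', ?_⟩
  suffices e : ∏ x, f x = ∏ z, f₁ z by rw [e, hφ]
  rw [← Finset.prod_subset (Finset.subset_univ (orbFin q x₁))
    fun y _ hy => hsupp' y fun h => hy (mem_orbFin.2 h)]
  symm
  refine Finset.prod_bij
    (fun z _ => primeLocalToGlobal q (Quotient.out z) • x₁)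
    (fun z _ => mem_orbFin.2 ⟨Quotient.out z, rfl⟩) (fun a _ b _ hab => ?_) (fun y hy => ?_)
    fun z _ => ?_
  · rw [← QuotientGroup.out_eq' a, ← QuotientGroup.out_eq' b, QuotientGroup.eq]
    show primeLocalToGlobal q ((Quotient.out a)⁻¹ * Quotient.out b) • x₁ = x₁
    rw [map_mul, map_inv, mul_smul, ← hab, inv_smul_smul]
  · obtain ⟨τ, rfl⟩ := mem_orbFin.1 hy
    refine ⟨QuotientGroup.mk τ, Finset.mem_univ _, ?_⟩
    obtain ⟨v, hv⟩ := QuotientGroup.mk_out_eq_mul V τ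
    show primeLocalToGlobal q _ • x₁ = primeLocalToGlobal q τ • x₁
    rw [hv, map_mul, mul_smul, show primeLocalToGlobal q (v : primeLocalGaloisGroup q) • x₁ = x₁
      from v.2]
  · show f₁ z = f (primeLocalToGlobal q (Quotient.out z) • x₁)
    rw [placePts_apply hf, hfx, ← hf₁, MulAction.Quotient.smul_mk, smul_eq_mul, mul_one,
      QuotientGroup.out_eq']

lemma exists_rat_of_fixed {z : (AlgebraicClosure ℚ)ˣ}
    (hz : ∀ g : GQ, g (z : AlgebraicClosure ℚ) = z) :
    ∃ b : ℚˣ, algebraMap ℚ (AlgebraicClosure ℚ) b = z := by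
  have h' : (z : AlgebraicClosure ℚ) ∈ (⊥ : IntermediateField ℚ (AlgebraicClosure ℚ)) := by
    rw [← InfiniteGalois.fixedField_fixingSubgroup (⊥ : IntermediateField ℚ (AlgebraicClosure ℚ)),
      IntermediateField.fixingSubgroup_bot, IntermediateField.mem_fixedField_iff]
    exact fun g _ => hz g
  obtain ⟨b, hb⟩ := IntermediateField.mem_bot.1 h'
  exact ⟨Units.mk0 b fun h0 => z.ne_zero (by rw [← hb, h0, map_zero]), hb⟩

include hp2 in
/-- The product formula for the symbol of an `S`-unit of the fixed field of `U`. -/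
lemma sum_phiOm_diag (n : ℕ) {U : Subgroup GQ} [Fintype (GQ ⧸ U)] {T : Finset Nat.Primes}
    (hpT : pPrime p ∈ T) {a : (AlgebraicClosure ℚ)ˣ} (ha : a ∈ sUnits T U) :
    ∑ q : ↥T, phiOm p n q.1 (∏ x, diag q.1 U a x) = 0 := by
  classical
  obtain ⟨b, hb⟩ := exists_rat_of_fixed (z := ∏ x, globFun U a x) fun g => by
    have h : galUnit g (∏ x, globFun U a x) = ∏ x, globFun U a x := by
      rw [map_prod]
      exact Fintype.prod_bijective (g • ·) (MulAction.bijective g) _ _ fun x =>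
        (globFun_smul ha.1 g x).symm
    exact congrArg Units.val h
  have hq : ∀ q : Nat.Primes,
      ((∏ x, diag q U a x : (Omega q)ˣ) : Omega q) =
        algebraMap ℚ_[(q : ℕ)] (Omega q) (Units.map (Rat.castHom ℚ_[(q : ℕ)]).toMonoidHom b :) := by
    intro q
    have e : ∏ x, diag q U a x = iota q (∏ x, globFun U a x) := (map_prod (iota q) _ _).symm
    rw [e]
    show padicEmbedding (q : ℕ) ((∏ x, globFun U a x : (AlgebraicClosure ℚ)ˣ) : AlgebraicClosure ℚ)
      = algebraMap ℚ_[(q : ℕ)] (Omega q) ((b : ℚ) : ℚ_[(q : ℕ)])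
    rw [← hb, AlgHom.commutes, map_ratCast, eq_ratCast]
  have hval : ∀ q ∉ T, padicValRat (q : ℕ) (b : ℚ) = 0 := by
    intro q hqT
    have h1 : ‖((∏ x, diag q U a x : (Omega q)ˣ) : Omega q)‖ = 1 := by
      rw [Units.coe_prod, norm_prod]
      exact Finset.prod_eq_one fun x _ => ha.2 q hqT x
    rw [hq q] at h1
    have h2 : ‖((b : ℚ) : ℚ_[(q : ℕ)])‖ = 1 := by
      rw [← PadicAlgCl.norm_extends (p := (q : ℕ))]
      exact h1
    rw [Padic.norm_eq_zpow_neg_valuation (Rat.cast_ne_zero.2 b.ne_zero),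
      zpow_eq_one_iff_right₀ (by positivity) (by exact_mod_cast q.2.ne_one),
      Padic.valuation_ratCast, neg_eq_zero] at h2
    exact h2
  rw [Finset.univ_eq_attach, Finset.sum_attach T fun q => phiOm p n q (∏ x, diag q U a x),
    ← phiLoc_product hp2 n b T hpT hval]
  exact Finset.sum_congr rfl fun q _ => congrArg (phiLoc p n q) (descQ_eq (hq q).symm)

lemma exists_of_mem_unitsNormS {T : Finset Nat.Primes} {U' U : Subgroup GQ} (h : U' ≤ U)
    [Finite (GQ ⧸ U')] {f : ∀ q : ↥T, GQ ⧸ U → (Omega q.1)ˣ} (hf : f ∈ unitsNormS T h) :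
    ∃ a ∈ sUnits T U, ∃ g ∈ placeS T U',
      ∀ q : ↥T, f q = diag q.1 U a * normFun h (g q) := by
  induction hf using Subgroup.closure_induction with
  | mem f hf =>
    rcases hf with ⟨a, ha, e⟩ | ⟨g, hg, e⟩
    · exact ⟨a, ha, 1, one_mem _, fun q => by
        rw [Pi.one_apply, normFun_one, mul_one, e]⟩
    · exact ⟨1, one_mem _, g, hg, fun q => by rw [map_one, one_mul, e]⟩
  | one => exact ⟨1, one_mem _, 1, one_mem _, fun q => by
      rw [Pi.one_apply, Pi.one_apply, map_one, normFun_one, mul_one]⟩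
  | mul f f' _ _ ih ih' =>
    obtain ⟨a, ha, g, hg, e⟩ := ih
    obtain ⟨a', ha', g', hg', e'⟩ := ih'
    exact ⟨a * a', mul_mem ha ha', g * g', mul_mem hg hg', fun q => by
      rw [Pi.mul_apply, Pi.mul_apply, map_mul, normFun_mul, e, e', mul_mul_mul_comm]⟩
  | inv f _ ih =>
    obtain ⟨a, ha, g, hg, e⟩ := ih
    exact ⟨a⁻¹, inv_mem ha, g⁻¹, inv_mem hg, fun q => by
      rw [Pi.inv_apply, Pi.inv_apply, map_inv, normFun_inv', e, mul_inv]⟩

lemma single_mem {T : Finset Nat.Primes} {U : Subgroup GQ} (q₀ : ↥T)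
    {f : GQ ⧸ U → (Omega q₀.1)ˣ} (hf : f ∈ placePts q₀.1 U) :
    (Pi.mulSingle q₀ f : ∀ q : ↥T, GQ ⧸ U → (Omega q.1)ˣ) ∈ placeS T U := by
  classical
  intro q _
  show _ ∈ placePts q.1 U
  by_cases h : q = q₀
  · subst h; rw [Pi.mulSingle_eq_same]; exact hf
  · rw [Pi.mulSingle_eq_of_ne h]; exact one_mem _

include hp2 in
lemma phiOm_prodW_single {T : Finset Nat.Primes} [Fintype (GQ ⧸ d.U)] (q₀ : ↥T)
    {f : GQ ⧸ d.U → (Omega q₀.1)ˣ} {x₀ : GQ ⧸ d.U} (hf : f ∈ placePts q₀.1 d.U)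
    (hs : ∀ y, y ∉ MulAction.orbit (primeLocalGaloisGroup q₀.1) x₀ → f y = 1)
    (hφ : phiOm p d.n q₀.1 (∏ x, f x) = pEmb p d.n 1) (q : ↥T) {w : GQ ⧸ d.U → ZMod p}
    (hw : ∀ (τ : primeLocalGaloisGroup q.1) x, w (τ • x) = w x) :
    phiOm p d.n q.1
      (prodW ((Pi.mulSingle q₀ f : ∀ q : ↥T, GQ ⧸ d.U → (Omega q.1)ˣ) q) w) =
      pEmb p d.n (if q = q₀ then w x₀ else 0) := by
  classical
  by_cases h : q = q₀
  · subst h
    rw [Pi.mulSingle_eq_same, if_pos rfl, phiOm_prodW_supported hp2 d.hn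
      (fun τ x => placePts_apply hf τ x) hw x₀ hs 1 hφ, mul_one]
  · rw [Pi.mulSingle_eq_of_ne h, if_neg h, prodW_one_fun, phiOm_one hp2]
    exact (map_zero (pEmbHom (p := p) d.hn)).symm

/-- The product of a family at one place, with weights one. -/
def wProd (U : Subgroup GQ) [Fintype (GQ ⧸ U)] (p : ℕ) (q : Nat.Primes)
    (f : GQ ⧸ U → (Omega q)ˣ) : (Omega q)ˣ :=
  prodW f (fun _ => (1 : ZMod p))

lemma wProd_eq {U : Subgroup GQ} [Fintype (GQ ⧸ U)] {q : Nat.Primes}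
    (f : GQ ⧸ U → (Omega q)ˣ) : wProd U p q f = ∏ x, f x := by
  simp [wProd, prodW, ZMod.val_one]

include hp2 in
/-- The elements of vanishing total symbol. -/
def symKer (n : ℕ) (T : Finset Nat.Primes) (U : Subgroup GQ) [Fintype (GQ ⧸ U)] :
    Subgroup (∀ q : ↥T, GQ ⧸ U → (Omega q.1)ˣ) where
  carrier := {f | f ∈ placeS T U ∧ ∑ q : ↥T, phiOm p n q.1 (wProd U p q.1 (f q)) = 0}
  one_mem' := ⟨one_mem _, Finset.sum_eq_zero fun q _ => by
    rw [wProd, Pi.one_apply, prodW_one_fun, phiOm_one hp2]⟩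
  mul_mem' := fun {a b} ha hb => ⟨mul_mem ha.1 hb.1, by
    refine (Finset.sum_congr rfl fun q _ => phiOm_prodW_mul hp2 n (f := a q) (g := b q)
      (ha.1 q (Set.mem_univ q)) (hb.1 q (Set.mem_univ q)) (fun _ _ => rfl)).trans ?_
    rw [Finset.sum_add_distrib]
    exact (congrArg₂ (· + ·) ha.2 hb.2).trans (add_zero 0)⟩
  inv_mem' := fun {a} ha => ⟨inv_mem ha.1, by
    refine (Finset.sum_congr rfl fun q _ => phiOm_prodW_inv hp2 n (f := a q)
      (ha.1 q (Set.mem_univ q)) (fun _ _ => rfl)).trans ?_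
    rw [Finset.sum_neg_distrib]
    exact (congrArg Neg.neg ha.2).trans neg_zero⟩

include hp2 in
/-- With the second inequality, the kernel of the total symbol consists of units and norms. -/
theorem symKer_le {T : Finset Nat.Primes} (hpT : pPrime p ∈ T) [Fintype (GQ ⧸ d.U)]
    (hidx : (unitsNormS T d.step.le).relIndex (placeS T d.U) = p)
    {t : ∀ q : ↥T, GQ ⧸ d.U → (Omega q.1)ˣ} (ht : t ∈ placeS T d.U)
    (htne : ∑ q : ↥T, phiOm p d.n q.1 (wProd d.U p q.1 (t q)) ≠ 0) :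
    symKer hp2 d.n T d.U ≤ unitsNormS T d.step.le := by
  haveI := finite_quot_of_isLevelSubgroup d.step.level
  have hNK : unitsNormS T d.step.le ≤ symKer hp2 d.n T d.U := by
    rw [unitsNormS, Subgroup.closure_le]
    rintro f (⟨a, ha, e⟩ | ⟨g, hg, e⟩)
    · refine ⟨fun q _ => e q ▸ diag_mem_placePts ha.1, ?_⟩
      simp only [e, wProd_eq]
      exact sum_phiOm_diag hp2 d.n hpT ha
    · refine ⟨fun q _ => e q ▸ normFun_mem_placePts d.step.le (hg q (Set.mem_univ _)),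
        Finset.sum_eq_zero fun q _ => ?_⟩
      rw [e]
      exact phiOm_prodW_norm hp2 d (hg q (Set.mem_univ _)) fun _ _ => rfl
  have hKne : (symKer hp2 d.n T d.U).relIndex (placeS T d.U) ≠ 1 := fun h =>
    htne (Subgroup.relIndex_eq_one.1 h ht).2
  have hmul := Subgroup.relIndex_mul_relIndex _ _ (placeS T d.U) hNK fun f hf => hf.1
  rw [hidx] at hmul
  rcases (Fact.out : p.Prime).eq_one_or_self_of_dvd _ ⟨_, hmul.symm.trans (mul_comm _ _)⟩ with
    h | h
  · exact absurd h hKne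
  · refine Subgroup.relIndex_eq_one.1 ?_
    rw [h] at hmul
    exact Nat.eq_of_mul_eq_mul_right (Fact.out : p.Prime).pos (hmul.trans (one_mul p).symm)

include hp2 in
/-- An element of the base with prescribed symbols over `S` and local norms elsewhere. -/
theorem exists_element (hpS : pPrime p ∈ S) [Fintype (GQ ⧸ d.U)] (q₁ q₂ : ↥S)
    (x₁ x₂ : GQ ⧸ d.U) :
    ∃ T : Finset Nat.Primes, ∃ a ∈ fixedUnits d.U,
      (∀ q ∈ T, q ∉ S → ∃ g ∈ placePts q d.U', normFun d.step.le g = diag q d.U a) ∧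
      (∀ q ∉ S, q ∉ T → ∀ x, ‖(diag q d.U a x : Omega q)‖ = 1) ∧
      ∀ (q : ↥S) (w : GQ ⧸ d.U → ZMod p),
        (∀ (τ : primeLocalGaloisGroup q.1) x, w (primeLocalToGlobal q.1 τ • x) = w x) →
        phiOm p d.n q.1 (prodW (diag q.1 d.U a) w) =
          pEmb p d.n ((if q = q₁ then w x₁ else 0) - if q = q₂ then w x₂ else 0) := by
  classical
  haveI := finite_quot_of_isLevelSubgroup d.step.level
  obtain ⟨S₀, hS₀⟩ := second_inequality hp2 d.step
  obtain ⟨T, hST, hT₀⟩ : ∃ T : Finset Nat.Primes, S ⊆ T ∧ S₀ ⊆ T :=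
    ⟨S ∪ S₀, Finset.subset_union_left, Finset.subset_union_right⟩
  obtain ⟨f₁, hf₁, hs₁, hφ₁⟩ := exists_place_target hp2 d q₁.2 x₁
  obtain ⟨f₂, hf₂, hs₂, hφ₂⟩ := exists_place_target hp2 d q₂.2 x₂
  let inT : ↥S → ↥T := fun q => ⟨q.1, hST q.2⟩
  have hinj : Function.Injective inT := fun a b h =>
    Subtype.ext (congrArg (fun t : ↥T => t.1) h :)
  let t₁ : ∀ q : ↥T, GQ ⧸ d.U → (Omega q.1)ˣ := Pi.mulSingle (inT q₁) f₁
  let t₂ : ∀ q : ↥T, GQ ⧸ d.U → (Omega q.1)ˣ := Pi.mulSingle (inT q₂) f₂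
  have ht₁ : t₁ ∈ placeS T d.U := single_mem (inT q₁) hf₁
  have ht₂ : t₂ ∈ placeS T d.U := single_mem (inT q₂) hf₂
  have htgt : ∀ (q : ↥T) (w : GQ ⧸ d.U → ZMod p),
      (∀ (τ : primeLocalGaloisGroup q.1) x, w (τ • x) = w x) →
      phiOm p d.n q.1 (prodW (t₁ q * (t₂ q)⁻¹) w) =
        pEmb p d.n ((if q = inT q₁ then w x₁ else 0) - if q = inT q₂ then w x₂ else 0) := by
    intro q w hw
    rw [phiOm_prodW_mul hp2 _ (ht₁ q (Set.mem_univ q)) (inv_mem (ht₂ q (Set.mem_univ q))) hw,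
      phiOm_prodW_inv hp2 _ (ht₂ q (Set.mem_univ q)) hw,
      phiOm_prodW_single hp2 d (inT q₁) hf₁ hs₁ hφ₁ q hw,
      phiOm_prodW_single hp2 d (inT q₂) hf₂ hs₂ hφ₂ q hw, ← sub_eq_add_neg]
    exact (map_sub (pEmbHom (p := p) d.hn) _ _).symm
  have hne : ∑ q : ↥T, phiOm p d.n q.1 (wProd d.U p q.1 (t₁ q)) ≠ 0 := by
    refine (Eq.trans_ne (Finset.sum_congr rfl fun q _ => phiOm_prodW_single hp2 d (inT q₁) hf₁
      hs₁ hφ₁ q (w := fun _ => (1 : ZMod p)) (fun _ _ => rfl)) ?_)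
    change ∑ q : ↥T, pEmbHom (p := p) d.hn (if q = inT q₁ then 1 else 0) ≠ 0
    rw [← map_sum, Finset.sum_ite_eq', if_pos (Finset.mem_univ _), ne_eq,
      map_eq_zero_iff _ (pEmb_injective (p := p) d.hn)]
    exact one_ne_zero
  have hmemK : t₁ * t₂⁻¹ ∈ symKer hp2 d.n T d.U := ⟨mul_mem ht₁ (inv_mem ht₂), by
    refine (Finset.sum_congr rfl fun q _ => htgt q (fun _ => (1 : ZMod p)) (fun _ _ => rfl)).trans ?_
    change ∑ q : ↥T, pEmbHom (p := p) d.hn
      ((if q = inT q₁ then 1 else 0) - if q = inT q₂ then 1 else 0) = 0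
    rw [← map_sum, Finset.sum_sub_distrib, Finset.sum_ite_eq', Finset.sum_ite_eq',
      if_pos (Finset.mem_univ _), if_pos (Finset.mem_univ _), sub_self, map_zero]⟩
  obtain ⟨a, ha, g, hg, e⟩ := exists_of_mem_unitsNormS d.step.le
    (symKer_le hp2 d (hST hpS) (hS₀ T hT₀) ht₁ hne hmemK)
  have he : ∀ q : ↥T, diag q.1 d.U a = (t₁ q * (t₂ q)⁻¹) * normFun d.step.le (g q)⁻¹ := fun q => by
    rw [normFun_inv', eq_mul_inv_iff_mul_eq]
    exact (e q).symm
  have hgp : ∀ q : ↥T, g q ∈ placePts q.1 d.U' := fun q => hg q (Set.mem_univ q)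
  have hfix : a ∈ fixedUnits d.U := ha.1
  have hout : ∀ q ∉ T, ∀ x : GQ ⧸ d.U, ‖(diag q d.U a x : Omega q)‖ = 1 := ha.2
  refine ⟨T, a, hfix, fun q hqT hqS =>
    ⟨((g ⟨q, hqT⟩)⁻¹ : GQ ⧸ d.U' → (Omega q)ˣ), inv_mem (hgp ⟨q, hqT⟩), ?_⟩,
    fun q _ hqT x => hout q hqT x, fun q w hw => ?_⟩
  · have hne' : ∀ q₀ : ↥S, (⟨q, hqT⟩ : ↥T) ≠ inT q₀ := fun q₀ h =>
      hqS (by rw [show q = q₀.1 from congrArg Subtype.val h]; exact q₀.2)
    have e1 : t₁ ⟨q, hqT⟩ * (t₂ ⟨q, hqT⟩)⁻¹ = 1 := by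
      have h₁ : t₁ ⟨q, hqT⟩ = 1 :=
        Pi.mulSingle_eq_of_ne (M := fun r : ↥T => GQ ⧸ d.U → (Omega r.1)ˣ) (hne' q₁) f₁
      have h₂ : t₂ ⟨q, hqT⟩ = 1 :=
        Pi.mulSingle_eq_of_ne (M := fun r : ↥T => GQ ⧸ d.U → (Omega r.1)ˣ) (hne' q₂) f₂
      rw [h₁, h₂, inv_one, mul_one]
    exact (he ⟨q, hqT⟩ |>.trans (by rw [e1, one_mul])).symm
  · show phiOm p d.n (inT q).1 (prodW (diag (inT q).1 d.U a) w) = _
    rw [he (inT q), phiOm_prodW_mul hp2 _
      (mul_mem (ht₁ _ (Set.mem_univ _)) (inv_mem (ht₂ _ (Set.mem_univ _))))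
      (normFun_mem_placePts _ (inv_mem (hgp (inT q)))) hw, htgt (inT q) w hw,
      phiOm_prodW_norm hp2 d (inv_mem (hgp (inT q))) hw, add_zero]
    simp only [hinj.eq_iff]

include hp2 in
/-- A class of `funRep μ_p U` with invariants `1` and `-1`, up to a factor prime to `p`. -/
theorem exists_global_class (hpS : pPrime p ∈ S) [Fintype (GQ ⧸ d.U)] (q₁ q₂ : ↥S)
    (x₁ x₂ : GQ ⧸ d.U) :
    ∃ m : ℕ, ¬ p ∣ m ∧
      ∃ C : ↥(Z2 (Levels.unr S) (MonoidHom.id GQ) (funRep (muRep p) d.U)),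
      ∀ (q : ↥S) (w : GQ ⧸ d.U → ZMod p)
        (c : ↥(Z2 Levels.all (primeLocalToGlobal q.1) (muLoc p q.1))),
        (∀ (τ : primeLocalGaloisGroup q.1) x, w (primeLocalToGlobal q.1 τ • x) = w x) →
        (∀ g, (c.1 g : ZMod p) =
          ∑ x, w x * C.1 (primeLocalToGlobal q.1 g.1, primeLocalToGlobal q.1 g.2) x) →
        invLoc p q.1 (H2cπ _ _ _ c) =
          m * ((if q = q₁ then w x₁ else 0) - if q = q₂ then w x₂ else 0) := by
  obtain ⟨T, a, ha, hT, hout, hsym⟩ := exists_element hp2 d hpS q₁ q₂ x₁ x₂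
  obtain ⟨m, hm, c, f, hf, hcf⟩ := exists_unr_carry_class hp2 hpS d.step d.level' d.i d.char_mul
    d.char_ker a ha T hT hout
  have hUlev : IsLevelSubgroup Levels.all (MonoidHom.id GQ) d.U := by
    obtain ⟨F, hF, h⟩ := d.level
    exact ⟨F, hF.1, h⟩
  let C : ↥(Z2 (Levels.unr S) (MonoidHom.id GQ) (funRep (muRep p) d.U)) :=
    ⟨shapiroInv₂ c.1, shapiroInv₂_mem_cocycles₂ c.2.1,
      shapiroInv₂_isConst₂ (Levels.normalBasis_unr S) d.level c.2.2⟩
  have hCc : IsConst₂ Levels.all (MonoidHom.id GQ) C.1 := by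
    obtain ⟨F, hF, h⟩ := C.2.2
    exact ⟨F, hF.1, h⟩
  have ha1 : globFun d.U a (QuotientGroup.mk 1) = a := by
    rw [globFun_mk ha]
    exact Units.ext rfl
  obtain ⟨F, hFc, hF⟩ := exists_lift_carry (r := MonoidHom.id GQ) hUlev (M := muRep p) (W := galW)
    (muIncHom p) muIncHom_equivariant C.2.1 hCc (fun g => m * carry p d.n g)
    (fun g h j => by rw [← mul_add, ← mul_add, carry_cocycle hp2])
    ((carry_isConst hp2 (MonoidHom.id GQ) d.n).comp (m * ·))
    (fun x => Additive.ofMul (globFun d.U a x))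
    (fun g x => by rw [galW_apply, ← globFun_smul ha, smul_inv_smul]; rfl)
    (y := fun s => Additive.ofMul (f s)) (hf.comp Additive.ofMul) (fun s t => by
      have hk : carry p d.n ((s : GQ), (t : GQ)) = stepCarry d.i (s, t) :=
        carry_of_pEmb d.hn (d.tower_eq s) (d.tower_eq t)
      have e1 : C.1 ((s : GQ), (t : GQ)) (QuotientGroup.mk 1) = c.1 (s, t) :=
        shapiro₂_cochain (M := muRep p) (U := d.U) c.1 s t
      rw [e1]
      refine Additive.toMul.injective (Units.ext ?_)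
      show (muInc p (c.1 (s, t)) : AlgebraicClosure ℚ) =
        ((galUnit (s : GQ) (f t) / f (s * t) * f s *
          globFun d.U a (QuotientGroup.mk 1) ^ (m * carry p d.n ((s : GQ), (t : GQ))) :
            (AlgebraicClosure ℚ)ˣ) : AlgebraicClosure ℚ)
      rw [ha1, hk, hcf, Units.val_mul, Units.val_mul, Units.val_div_eq_div_val,
        Units.val_pow_eq_pow_val, galUnit_coe])
  refine ⟨m, hm, C, fun q w cq hw hcq => ?_⟩
  refine invLoc_sumW (X := GQ ⧸ d.U) hp2 d.hn cq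
    (fun g x => C.1 (primeLocalToGlobal q.1 g.1, primeLocalToGlobal q.1 g.2) x) hw hcq
    (fun s x => iota q.1 (F (primeLocalToGlobal q.1 s) x).toMul) ?_ (α := diag q.1 d.U a)
    (fun τ x => placePts_apply (diag_mem_placePts ha) τ x) m (fun s t x => ?_) ?_
  · obtain ⟨F₀, hF₀, h₀⟩ := hFc
    exact ⟨F₀, hF₀, fun g s hs => by
      funext x
      show iota q.1 (F (primeLocalToGlobal q.1 (g * s)) x).toMul =
        iota q.1 (F (primeLocalToGlobal q.1 g) x).toMul
      rw [map_mul, show F (primeLocalToGlobal q.1 g * primeLocalToGlobal q.1 s) =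
        F (primeLocalToGlobal q.1 g) from h₀ _ _ hs]⟩
  · have e := congrArg (fun z : Additive (AlgebraicClosure ℚ)ˣ => iota q.1 z.toMul)
      (hF (primeLocalToGlobal q.1 s) (primeLocalToGlobal q.1 t) x)
    change iota q.1 (muInc p _) = iota q.1 (galUnit (primeLocalToGlobal q.1 s) _ / _ * _ * _) at e
    refine e.trans ?_
    rw [map_mul, map_mul, map_div, ← iota_galUnit', map_mul (primeLocalToGlobal q.1) s t]
    congr 1
    · congr 2
      congr 2
      show (F (primeLocalToGlobal q.1 t) ((primeLocalToGlobal q.1 s)⁻¹ • x)).toMul =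
        (F (primeLocalToGlobal q.1 t) (primeLocalToGlobal q.1 s⁻¹ • x)).toMul
      rw [map_inv]
    · exact map_pow (iota q.1) _ _
  · rw [hsym q w hw, pEmb_mul_natCast d.hn]
where
  pEmb_mul_natCast {n : ℕ} (hn : 1 ≤ n) {k : ℕ} {i : ZMod p} :
      pEmb p n ((k : ZMod p) * i) = (k : ZMod (p ^ n)) * pEmb p n i := by
    rw [← nsmul_eq_mul, ← nsmul_eq_mul]
    exact map_nsmul (pEmbHom (p := p) hn) k i

end Fermat.Agent.CFT.Sha
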