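import Fermat.Agent.CFT.Sha.Defs
import Fermat.Agent.CFT.Sha.GlobalTarget
import Fermat.Agent.CFT.GlobalPerm.Kummer

/-!
# The image of `H²(G_S, M)` in the local groups is the orthogonal of the global invariants

For `m : M` the map `f ↦ ∑ χ(g)⁻¹ f(g) g m` carries the classes of `exists_global_class` to classes
of `M`; orthogonality to these makes all the local invariants equal to one global invariant.
-/

set_option autoImplicit false
set_option linter.style.haveILetI false

open CategoryTheory groupCohomology ExtCitation Module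

noncomputable section

namespace Fermat.Agent.CFT.Sha

variable {p : ℕ} [Fact p.Prime] {S : Finset Nat.Primes} {A M : Rep.{0} (ZMod p) GQ}

variable (M) in
/-- `f ↦ ∑ χ(g)⁻¹ f(g U) g m`. -/
def evalSum (U : Subgroup GQ) [Fintype (GQ ⧸ U)] (m : M) : funRep (muRep p) U →ₗ[ZMod p] M :=
  ∑ x : GQ ⧸ U, (LinearMap.toSpanSingleton (ZMod p) M
    (((cycloChar p (Quotient.out x))⁻¹ : (ZMod p)ˣ) • M.ρ (Quotient.out x) m)).comp
      (LinearMap.proj (φ := fun _ : GQ ⧸ U => ZMod p) x)

lemma evalSum_apply (U : Subgroup GQ) [Fintype (GQ ⧸ U)] (m : M) (f : funRep (muRep p) U) :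
    evalSum M U m f = ∑ x : GQ ⧸ U, (f x * ((cycloChar p (Quotient.out x))⁻¹ : (ZMod p)ˣ) : ZMod p) •
      M.ρ (Quotient.out x) m := by
  simp only [evalSum, LinearMap.coe_sum, Finset.sum_apply, LinearMap.comp_apply,
    LinearMap.proj_apply, LinearMap.toSpanSingleton_apply, Units.smul_def, smul_smul]

lemma evalSum_equivariant {U : Subgroup GQ} [Fintype (GQ ⧸ U)] (hM : ∀ u ∈ U, ∀ m : M, M.ρ u m = m)
    (hχ : ∀ u ∈ U, cycloChar p u = 1) (m : M) (g : GQ) (f : funRep (muRep p) U) :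
    evalSum M U m ((funRep (muRep p) U).ρ g f) = M.ρ g (evalSum M U m f) := by
  rw [evalSum_apply, evalSum_apply, map_sum]
  refine (Fintype.sum_bijective (g • ·) (MulAction.bijective g) _ _ fun x => ?_).symm
  obtain ⟨u, hu⟩ : ∃ u ∈ U, Quotient.out (g • x) = g * Quotient.out x * u := by
    refine ⟨(g * Quotient.out x)⁻¹ * Quotient.out (g • x), QuotientGroup.eq.1 ?_,
      (mul_inv_cancel_left _ _).symm⟩
    conv_rhs => rw [QuotientGroup.out_eq', ← QuotientGroup.out_eq' x]
    rfl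
  rw [map_smul, funRep_ρ_apply, inv_smul_smul, muRep_apply, hu.2, map_mul, map_mul,
    hχ u hu.1, mul_one, map_mul, map_mul, Module.End.mul_apply, Module.End.mul_apply, hM u hu.1,
    mul_inv_rev]
  congr 1
  rw [Units.val_mul]
  linear_combination (-(f x * (((cycloChar p (Quotient.out x))⁻¹ : (ZMod p)ˣ) : ZMod p))) *
    Units.mul_inv (cycloChar p g)

/-- The weights of an invariant against `m`. -/
def pairW (P : DualPair p (cycloChar p) A M) (U : Subgroup GQ) (a : A) (m : M) (x : GQ ⧸ U) :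
    ZMod p :=
  ((cycloChar p (Quotient.out x))⁻¹ : (ZMod p)ˣ) * P.β a (M.ρ (Quotient.out x) m)

lemma pairW_mk (P : DualPair p (cycloChar p) A M) {U : Subgroup GQ}
    (hM : ∀ u ∈ U, ∀ m : M, M.ρ u m = m) (hχ : ∀ u ∈ U, cycloChar p u = 1) (a : A) (m : M)
    (g : GQ) :
    pairW P U a m (QuotientGroup.mk g) =
      ((cycloChar p g)⁻¹ : (ZMod p)ˣ) * P.β a (M.ρ g m) := by
  obtain ⟨u, hu⟩ := QuotientGroup.mk_out_eq_mul U g
  rw [pairW, hu, map_mul, hχ _ u.2, mul_one, map_mul, Module.End.mul_apply, hM _ u.2]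

lemma pairW_smul (P : DualPair p (cycloChar p) A M) {U : Subgroup GQ}
    (hM : ∀ u ∈ U, ∀ m : M, M.ρ u m = m) (hχ : ∀ u ∈ U, cycloChar p u = 1) {a : A} (m : M)
    {g : GQ} (hg : A.ρ g a = a) (x : GQ ⧸ U) : pairW P U a m (g • x) = pairW P U a m x := by
  induction x using QuotientGroup.induction_on with | H k => ?_
  rw [MulAction.Quotient.smul_mk, smul_eq_mul, pairW_mk P hM hχ, pairW_mk P hM hχ, map_mul,
    map_mul, Module.End.mul_apply]
  conv_lhs => rw [← hg, P.equivariant, mul_inv_rev, Units.val_mul]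
  linear_combination ((((cycloChar p k)⁻¹ : (ZMod p)ˣ) : ZMod p) * P.β a (M.ρ k m)) *
    Units.inv_mul (cycloChar p g)

lemma beta_evalSum (P : DualPair p (cycloChar p) A M) (U : Subgroup GQ) [Fintype (GQ ⧸ U)]
    (a : A) (m : M) (f : funRep (muRep p) U) :
    P.β a (evalSum M U m f) = ∑ x, pairW P U a m x * (f x : ZMod p) := by
  rw [evalSum_apply, map_sum]
  refine Finset.sum_congr rfl fun x _ => ?_
  rw [map_smul, smul_eq_mul, pairW]
  ring

theorem exact_H2 (hp2 : p ≠ 2) (hpS : pPrime p ∈ S) {A M : Rep.{0} (ZMod p) GQ}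
    [FiniteDimensional (ZMod p) A] [FiniteDimensional (ZMod p) M]
    (hA : IsSmoothRep (Levels.unr S) (MonoidHom.id GQ) A)
    (hM : IsSmoothRep (Levels.unr S) (MonoidHom.id GQ) M)
    (P : DualPair p (cycloChar p) A M) (a : Inv0 S A)
    (ha : ∀ x : G2 S M, thetaTot P x a = 0) : a ∈ LinearMap.range (diag0 S A) := by
  classical
  clear hA
  -- a normal level on which `M` and `μ_p` are trivial
  let U₀ : Subgroup GQ := MonoidHom.ker M.ρ ⊓ (cycloChar p).ker
  haveI : U₀.Normal := Subgroup.normal_inf_normal _ _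
  have hU₀ : IsLevelSubgroup (Levels.unr S) (MonoidHom.id GQ) U₀ := by
    let b := Module.finBasis (ZMod p) M
    choose F hF hfix using fun i => hM (b i)
    obtain ⟨F₁, hF₁, hfix₁⟩ := isSmoothRep_muRep_of_unr hpS (1 : ZMod p)
    obtain ⟨F', hF', hle⟩ := Levels.exists_ge (L := Levels.unr S) F hF
    refine ⟨F' ⊔ F₁, (Levels.unr S).sup _ _ hF' hF₁, fun s hs => ⟨?_, ?_⟩⟩
    · exact MonoidHom.mem_ker.2 (b.ext fun i => hfix i s
        (IntermediateField.fixingSubgroup_antitone ((hle i).trans le_sup_left) hs))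
    · refine MonoidHom.mem_ker.2 (Units.ext ?_)
      have := hfix₁ s (IntermediateField.fixingSubgroup_antitone le_sup_right hs)
      rwa [muRep_apply, mul_one] at this
  obtain ⟨d⟩ := exists_inertStep hp2 hpS U₀ hU₀ fun g hg => hg.2
  have hMU : ∀ u ∈ d.U, ∀ m : M, M.ρ u m = m := fun u hu m => by
    rw [MonoidHom.mem_ker.1 (d.le₀ hu).1]
    rfl
  have hχU : ∀ u ∈ d.U, cycloChar p u = 1 := fun u hu => (d.le₀ hu).2
  haveI : Finite (GQ ⧸ d.U) := d.level.finite_quotient
  letI := Fintype.ofFinite (GQ ⧸ d.U)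
  have hinv : ∀ (q : ↥S) (m : M) (τ : primeLocalGaloisGroup q.1) (x : GQ ⧸ d.U),
      pairW P d.U (a q).1 m (primeLocalToGlobal q.1 τ • x) = pairW P d.U (a q).1 m x :=
    fun q m τ x => pairW_smul P hMU hχU m ((a q).2 τ) x
  have heq : ∀ (q₁ q₂ : ↥S) (x₁ x₂ : GQ ⧸ d.U) (m : M),
      pairW P d.U (a q₁).1 m x₁ = pairW P d.U (a q₂).1 m x₂ := by
    intro q₁ q₂ x₁ x₂ m
    obtain ⟨k, hk, C, hC⟩ := exists_global_class hp2 d hpS q₁ q₂ x₁ x₂
    have hev := evalSum_equivariant hMU hχU m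
    have h := ha (pushH2 (evalSum M d.U m) hev (H2cπ _ _ _ C))
    rw [thetaTot_apply] at h
    have hterm : ∀ q : ↥S,
        thetaLoc (P.res (primeLocalToGlobal q.1))
            (loc2 S q.1 M (pushH2 (evalSum M d.U m) hev (H2cπ _ _ _ C))) (a q) =
          k * ((if q = q₁ then pairW P d.U (a q).1 m x₁ else 0) -
            if q = q₂ then pairW P d.U (a q).1 m x₂ else 0) := by
      intro q
      refine Eq.trans ?_ (hC q (pairW P d.U (a q).1 m)
        ((mapZ2 (M := MLoc q.1 M) (N := muLoc p q.1) (MonoidHom.id _)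
          (isLevelHom_of_eq _ fun _ => rfl) (P.β (a q).1) (fun g y => by
            have h := P.equivariant (primeLocalToGlobal q.1 g) (a q).1 y
            rw [show A.ρ (primeLocalToGlobal q.1 g) (a q).1 = (a q).1 from (a q).2 g] at h
            exact h))
        (mapZ2 (L := Levels.unr S) (r := MonoidHom.id GQ) (M := M) (N := MLoc q.1 M)
          (primeLocalToGlobal q.1) (fun F hF => ⟨F, hF.1, fun _ h => h⟩) LinearMap.id (fun _ _ => rfl)
          ⟨evalSum M d.U m ∘ C.1, push_mem_Z2 (evalSum M d.U m) hev C⟩))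
        (hinv q m) (fun g => ?_))
      · rfl
      · exact beta_evalSum P d.U (a q).1 m _
    rw [Finset.sum_congr rfl fun q _ => hterm q, ← Finset.mul_sum, Finset.sum_sub_distrib,
      Finset.sum_ite_eq', Finset.sum_ite_eq', if_pos (Finset.mem_univ _),
      if_pos (Finset.mem_univ _), mul_eq_zero, sub_eq_zero] at h
    exact h.resolve_left fun h0 => hk ((CharP.cast_eq_zero_iff (ZMod p) p k).1 h0)
  let q₀ : ↥S := ⟨pPrime p, hpS⟩
  have hall : ∀ q, (a q).1 = (a q₀).1 := fun q => by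
    refine sub_eq_zero.1 (P.left _ fun m => ?_)
    have h := heq q q₀ (QuotientGroup.mk 1) (QuotientGroup.mk 1) m
    rw [pairW_mk P hMU hχU, pairW_mk P hMU hχU] at h
    simp only [map_one, inv_one, Units.val_one, one_mul, Module.End.one_apply] at h
    rw [map_sub, LinearMap.sub_apply, h, sub_self]
  have hfix : (a q₀).1 ∈ A.ρ.invariants := fun g => by
    refine sub_eq_zero.1 (P.left _ fun m => ?_)
    obtain ⟨m', rfl⟩ : ∃ m', M.ρ g m' = m := ⟨M.ρ g⁻¹ m, by
      rw [← Module.End.mul_apply, ← map_mul, mul_inv_cancel, map_one]; rfl⟩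
    have h := heq q₀ q₀ (QuotientGroup.mk g) (QuotientGroup.mk 1) m'
    rw [pairW_mk P hMU hχU, pairW_mk P hMU hχU] at h
    simp only [map_one, inv_one, Units.val_one, one_mul, Module.End.one_apply] at h
    rw [map_sub, LinearMap.sub_apply, P.equivariant]
    linear_combination (P.β (a q₀).1 (M.ρ g m')) * Units.mul_inv (cycloChar p g) -
      (cycloChar p g : ZMod p) * h
  refine ⟨⟨(a q₀).1, hfix⟩, funext fun q => Subtype.ext ?_⟩
  exact (hall q).symm

end Fermat.Agent.CFT.Sha
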