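import Fermat.Agent.CFT.Sha.CarryClass

/-!
# Weighted products over local orbits and their invariants

For a finite `G_q`-set `X`, an equivariant `f : X → (Omega q)ˣ` and invariant weights `w`, the
weighted product is invariant, its symbol only sees the orbit norms, and it computes the local
invariant of the weighted sum of a carry class.
-/

set_option autoImplicit false
set_option linter.style.haveILetI false

open CategoryTheory groupCohomology ExtCitation

noncomputable section

namespace Fermat.Agent.CFT.Sha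

variable {p : ℕ} [Fact p.Prime] (hp2 : p ≠ 2) {q : Nat.Primes}
variable {X : Type} [Fintype X] [MulAction (primeLocalGaloisGroup q) X]

/-- `∏ f ^ w`. -/
def prodW (f : X → (Omega q)ˣ) (w : X → ZMod p) : (Omega q)ˣ := ∏ x, f x ^ (w x).val

lemma prodW_mem {f : X → (Omega q)ˣ} (hf : ∀ τ x, f (τ • x) = locUnitAct τ (f x))
    {w : X → ZMod p} (hw : ∀ (τ : primeLocalGaloisGroup q) x, w (τ • x) = w x) :
    prodW f w ∈ fixedTop q := by
  rw [mem_fixedTop]
  intro τ
  rw [prodW, map_prod]
  refine Fintype.prod_bijective (τ • ·) (MulAction.bijective τ) _ _ fun x => ?_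
  rw [map_pow, hf, hw]

lemma prodW_mul (f g : X → (Omega q)ˣ) (w : X → ZMod p) :
    prodW (f * g) w = prodW f w * prodW g w := by
  simp only [prodW, Pi.mul_apply, mul_pow, Finset.prod_mul_distrib]

lemma prodW_one_fun (w : X → ZMod p) : prodW (1 : X → (Omega q)ˣ) w = 1 := by simp [prodW]

open Classical in
/-- The orbit of `x` as a finset. -/
def orbFin (q : Nat.Primes) {X : Type} [Fintype X] [MulAction (primeLocalGaloisGroup q) X]
    (x : X) : Finset X :=
  Finset.univ.filter fun y => y ∈ MulAction.orbit (primeLocalGaloisGroup q) x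

lemma mem_orbFin {x y : X} :
    y ∈ orbFin q x ↔ y ∈ MulAction.orbit (primeLocalGaloisGroup q) x := by
  simp [orbFin]

lemma prod_orbFin_eq_finprod {f : X → (Omega q)ˣ}
    (hf : ∀ τ x, f (τ • x) = locUnitAct τ (f x)) (x : X) :
    ((∏ y ∈ orbFin q x, f y : (Omega q)ˣ) : Omega q) =
      ∏ᶠ z : primeLocalGaloisGroup q ⧸ MulAction.stabilizer (primeLocalGaloisGroup q) x,
        locAct q (Quotient.out z) (f x : Omega q) := by
  classical
  let e := (MulAction.orbitEquivQuotientStabilizer (primeLocalGaloisGroup q) x).symm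
  haveI : Finite (primeLocalGaloisGroup q ⧸ MulAction.stabilizer (primeLocalGaloisGroup q) x) :=
    Finite.of_equiv _ e.symm
  haveI := Fintype.ofFinite
    (primeLocalGaloisGroup q ⧸ MulAction.stabilizer (primeLocalGaloisGroup q) x)
  rw [finprod_eq_prod_of_fintype, Units.coe_prod]
  symm
  refine Finset.prod_bij (fun z _ => ((e z : MulAction.orbit (primeLocalGaloisGroup q) x) : X))
    (fun z _ => mem_orbFin.2 (e z).2) (fun a _ b _ hab => e.injective (Subtype.ext hab))
    (fun y hy => ⟨e.symm ⟨y, mem_orbFin.1 hy⟩, Finset.mem_univ _, by simp⟩) fun z _ => ?_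
  show _ = (f (e z : X) : Omega q)
  have he : (e z : X) = (Quotient.out z : primeLocalGaloisGroup q) • x := by
    conv_lhs => rw [← QuotientGroup.out_eq' z]
    exact MulAction.orbitEquivQuotientStabilizer_symm_apply _ x (Quotient.out z)
  rw [he, hf]
  rfl

lemma prod_orbFin_mem {f : X → (Omega q)ˣ} (hf : ∀ τ x, f (τ • x) = locUnitAct τ (f x)) (x : X) :
    (∏ y ∈ orbFin q x, f y) ∈ fixedTop q := by
  rw [mem_fixedTop]
  intro τ
  rw [map_prod]
  refine Finset.prod_bij (fun y _ => τ • y) (fun y hy => ?_)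
    (fun a _ b _ h => MulAction.injective τ h) (fun y hy => ⟨τ⁻¹ • y, ?_, smul_inv_smul _ _⟩)
    fun y _ => (hf τ y).symm
  · rw [mem_orbFin] at hy ⊢
    obtain ⟨σ, rfl⟩ := hy
    exact ⟨τ * σ, mul_smul _ _ _⟩
  · rw [mem_orbFin] at hy ⊢
    obtain ⟨σ, rfl⟩ := hy
    exact ⟨τ⁻¹ * σ, mul_smul _ _ _⟩

include hp2 in
/-- The symbol of a weighted product vanishes when the tower is trivial on all stabilisers. -/
theorem phiOm_prodW_eq_zero (n : ℕ) {f : X → (Omega q)ˣ}
    (hf : ∀ τ x, f (τ • x) = locUnitAct τ (f x))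
    {w : X → ZMod p} (hw : ∀ (τ : primeLocalGaloisGroup q) x, w (τ • x) = w x)
    (hlev : ∀ x : X, IsLevelSubgroup Levels.all (primeLocalToGlobal q)
      (MulAction.stabilizer (primeLocalGaloisGroup q) x))
    (htower : ∀ (x : X) (τ : primeLocalGaloisGroup q), τ • x = x →
      tower p n (primeLocalToGlobal q τ) = 0) :
    phiOm p n q (prodW f w) = 0 := by
  classical
  let π : X → Quotient (MulAction.orbitRel (primeLocalGaloisGroup q) X) := Quotient.mk''
  have hπ : ∀ (x : X) (o : Quotient (MulAction.orbitRel (primeLocalGaloisGroup q) X)),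
      π x = o ↔ x ∈ orbFin q o.out := fun x o => by
    rw [mem_orbFin]
    conv_lhs => rw [← Quotient.out_eq' o]
    exact Quotient.eq''
  have hsplit : prodW f w =
      ∏ o : Quotient (MulAction.orbitRel (primeLocalGaloisGroup q) X),
        (∏ x ∈ orbFin q o.out, f x) ^ (w o.out).val := by
    rw [prodW, ← Finset.prod_fiberwise Finset.univ π]
    refine Finset.prod_congr rfl fun o _ => ?_
    rw [← Finset.prod_pow]
    refine Finset.prod_congr (Finset.ext fun x => by simp [hπ x o]) fun x hx => ?_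
    obtain ⟨σ, rfl⟩ := mem_orbFin.1 hx
    simp only [hw]
  rw [hsplit, phiOm_prod hp2 n _ _ fun o _ => Subgroup.pow_mem _ (prod_orbFin_mem hf _) _]
  refine Finset.sum_eq_zero fun o _ => ?_
  rw [phiOm_pow hp2 n (prod_orbFin_mem hf _)]
  refine mul_eq_zero_of_right _ ?_
  refine phiLoc_norm_eq_zero hp2 n q (hlev o.out) (fun τ hτ => htower o.out τ hτ) (f o.out)
    (fun τ hτ => ?_) _ ?_
  · have h := hf τ o.out
    rw [show τ • o.out = o.out from hτ] at h
    exact (congrArg Units.val h).symm
  · rw [map_descQ (prod_orbFin_mem hf _), prod_orbFin_eq_finprod hf]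

include hp2 in
/-- The symbol of a product supported on one orbit. -/
theorem phiOm_prodW_supported {n : ℕ} (hn : 1 ≤ n) {f : X → (Omega q)ˣ}
    (hf : ∀ τ x, f (τ • x) = locUnitAct τ (f x))
    {w : X → ZMod p} (hw : ∀ (τ : primeLocalGaloisGroup q) x, w (τ • x) = w x) (x₁ : X)
    (hsupp : ∀ y, y ∉ MulAction.orbit (primeLocalGaloisGroup q) x₁ → f y = 1) (k : ZMod p)
    (hk : phiOm p n q (∏ x, f x) = pEmb p n k) :
    phiOm p n q (prodW f w) = pEmb p n (w x₁ * k) := by
  have h1 : prodW f w = (∏ x, f x) ^ (w x₁).val := by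
    rw [prodW, ← Finset.prod_pow]
    refine Finset.prod_congr rfl fun x _ => ?_
    by_cases hx : x ∈ MulAction.orbit (primeLocalGaloisGroup q) x₁
    · obtain ⟨σ, rfl⟩ := hx
      simp only [hw]
    · rw [hsupp x hx, one_pow, one_pow]
  have hmem : (∏ x, f x) ∈ fixedTop q := by
    rw [mem_fixedTop]
    intro τ
    rw [map_prod]
    exact Fintype.prod_bijective (τ • ·) (MulAction.bijective τ) _ _ fun x => (hf τ x).symm
  rw [h1, phiOm_pow hp2 n hmem, hk, pEmb_mul hn]

include hp2 in
/-- The invariant of a weighted sum of carry classes. -/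
theorem isInvariant_sumW {n : ℕ} (hn : 1 ≤ n)
    (c : ↥(Z2 Levels.all (primeLocalToGlobal q) (muLoc p q)))
    (C : primeLocalGaloisGroup q × primeLocalGaloisGroup q → X → ZMod p) {w : X → ZMod p}
    (hw : ∀ (τ : primeLocalGaloisGroup q) x, w (τ • x) = w x)
    (hc : ∀ g, (c.1 g : ZMod p) = ∑ x, w x * C g x)
    (F : primeLocalGaloisGroup q → X → (Omega q)ˣ)
    (hF : IsConst₁ Levels.all (primeLocalToGlobal q) F) {α : X → (Omega q)ˣ}
    (hα : ∀ τ x, α (τ • x) = locUnitAct τ (α x)) (m : ℕ)
    (hid : ∀ s t x, iota q (muInc p (C (s, t) x)) =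
      locUnitAct s (F t (s⁻¹ • x)) / F (s * t) x * F s x *
        α x ^ (m * carry p n (primeLocalToGlobal q s, primeLocalToGlobal q t)))
    {i : ZMod p} (hi : pEmb p n i = m * phiOm p n q (prodW α w)) : IsInvariant p q c i := by
  refine ⟨n, hn, descQ q (prodW α w) ^ m, fun s => prodW (F s) w, hF.comp fun φ => prodW φ w,
    ?_, fun s t => ?_⟩
  · change _ = pEmb p n i
    rw [hi, ← phiOm_pow hp2 n (prodW_mem hα hw), phiOm]
    refine congrArg (phiLoc p n q) (descQ_eq ?_).symm
    rw [Units.val_pow_eq_pow_val, Units.val_pow_eq_pow_val, map_pow, map_descQ (prodW_mem hα hw)]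
  · set K := carry p n (primeLocalToGlobal q s, primeLocalToGlobal q t)
    have e1 : iota q (muInc p (c.1 (s, t))) = ∏ x, iota q (muInc p (C (s, t) x)) ^ (w x).val := by
      have hmu : muInc p (∑ x, w x * C (s, t) x) = ∏ x, muInc p (w x * C (s, t) x) := by
        classical
        have key : ∀ T : Finset X,
            muInc p (∑ x ∈ T, w x * C (s, t) x) = ∏ x ∈ T, muInc p (w x * C (s, t) x) := by
          intro T
          induction T using Finset.induction with
          | empty => simp [muInc_zero]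
          | @insert a T ha ih => rw [Finset.sum_insert ha, Finset.prod_insert ha, muInc_add, ih]
        exact key _
      rw [hc, hmu, map_prod]
      exact Finset.prod_congr rfl fun x _ => by rw [muInc_mul, map_pow]
    have e2 : locUnitAct s (prodW (F t) w) = ∏ x, locUnitAct s (F t (s⁻¹ • x)) ^ (w x).val := by
      rw [prodW, map_prod]
      refine Fintype.prod_bijective (s • ·) (MulAction.bijective s) _ _ fun x => ?_
      rw [map_pow, inv_smul_smul, hw]
    have e3 : iota q (muInc p (c.1 (s, t))) =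
        locUnitAct s (prodW (F t) w) / prodW (F (s * t)) w * prodW (F s) w *
          (prodW α w ^ m) ^ K := by
      rw [e1, e2]
      simp only [hid, prodW, mul_pow, div_pow, Finset.prod_mul_distrib, Finset.prod_div_distrib]
      congr 1
      rw [← pow_mul, ← Finset.prod_pow]
      exact Finset.prod_congr rfl fun x _ => by rw [← pow_mul, ← pow_mul, mul_comm]
    rw [e3, Units.val_mul, Units.val_mul, Units.val_div_eq_div_val, Units.val_pow_eq_pow_val,
      Units.val_pow_eq_pow_val, locUnitAct_coe, Units.val_pow_eq_pow_val, map_pow,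
      map_descQ (prodW_mem hα hw)]

include hp2 in
/-- The invariant of a weighted sum, as an equation. -/
theorem invLoc_sumW {n : ℕ} (hn : 1 ≤ n)
    (c : ↥(Z2 Levels.all (primeLocalToGlobal q) (muLoc p q)))
    (C : primeLocalGaloisGroup q × primeLocalGaloisGroup q → X → ZMod p) {w : X → ZMod p}
    (hw : ∀ (τ : primeLocalGaloisGroup q) x, w (τ • x) = w x)
    (hc : ∀ g, (c.1 g : ZMod p) = ∑ x, w x * C g x)
    (F : primeLocalGaloisGroup q → X → (Omega q)ˣ)
    (hF : IsConst₁ Levels.all (primeLocalToGlobal q) F) {α : X → (Omega q)ˣ}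
    (hα : ∀ τ x, α (τ • x) = locUnitAct τ (α x)) (m : ℕ)
    (hid : ∀ s t x, iota q (muInc p (C (s, t) x)) =
      locUnitAct s (F t (s⁻¹ • x)) / F (s * t) x * F s x *
        α x ^ (m * carry p n (primeLocalToGlobal q s, primeLocalToGlobal q t)))
    {i : ZMod p} (hi : pEmb p n i = m * phiOm p n q (prodW α w)) :
    invLoc p q (H2cπ _ _ _ c) = i :=
  isInvariant_unique hp2 q c (invLoc_spec hp2 q c)
    (isInvariant_sumW hp2 hn c C hw hc F hF hα m hid hi)

end Fermat.Agent.CFT.Sha
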