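import Fermat.Agent.CFT.Setup

/-!
# Layers of coinduced modules

If `M` has a `U`-stable flag with trivial graded pieces and `χ` is trivial on `U`, then
`funRep M U` has a `G`-stable flag with graded pieces `funRep k(χ) U`.
-/

set_option autoImplicit false

open CategoryTheory groupCohomology

noncomputable section

namespace Fermat.Agent.CFT

variable {k : Type} [Field k] {G : Type} [Group G] (M : Rep.{0} k G) (U : Subgroup G)

/-- The functions with values in the translates of a submodule `W`. -/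
def coind (W : Submodule k M) : Submodule k (funRep M U) where
  carrier := {f | ∀ g : G, M.ρ g⁻¹ (f (QuotientGroup.mk g)) ∈ W}
  add_mem' := fun {a b} ha hb g => by
    change M.ρ g⁻¹ (a _ + b _) ∈ W
    rw [map_add]
    exact add_mem (ha g) (hb g)
  zero_mem' := fun g => by
    change M.ρ g⁻¹ 0 ∈ W
    rw [map_zero]
    exact zero_mem W
  smul_mem' := fun c {a} ha g => by
    change M.ρ g⁻¹ (c • a _) ∈ W
    rw [map_smul]
    exact W.smul_mem c (ha g)

variable {M U}

lemma mem_coind {W : Submodule k M} {f : funRep M U} :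
    f ∈ coind M U W ↔ ∀ g : G, M.ρ g⁻¹ (f (QuotientGroup.mk g)) ∈ W := Iff.rfl

lemma coind_stable (W : Submodule k M) (g : G) :
    ∀ f ∈ coind M U W, (funRep M U).ρ g f ∈ coind M U W := by
  intro f hf h
  change M.ρ h⁻¹ (M.ρ g (f (g⁻¹ • (QuotientGroup.mk h : G ⧸ U)))) ∈ W
  rw [MulAction.Quotient.smul_mk, smul_eq_mul, ← Module.End.mul_apply, ← map_mul]
  simpa using hf (g⁻¹ * h)

lemma coind_top : coind M U (⊤ : Submodule k M) = ⊤ :=
  eq_top_iff.2 fun _ _ _ => Submodule.mem_top

lemma coind_bot : coind M U (⊥ : Submodule k M) = ⊥ := by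
  refine eq_bot_iff.2 fun f hf => ?_
  rw [Submodule.mem_bot]
  funext x
  obtain ⟨g, rfl⟩ := QuotientGroup.mk_surjective x
  have h := (Submodule.mem_bot k).1 (hf g)
  have h2 := congrArg (M.ρ g) h
  rw [map_zero, ← Module.End.mul_apply, ← map_mul, mul_inv_cancel, map_one] at h2
  exact h2

lemma coind_mono {W W' : Submodule k M} (h : W ≤ W') : coind M U W ≤ coind M U W' :=
  fun _ hf g => h (hf g)

variable (M U) in
/-- The coinduced submodule as a representation. -/
abbrev coindRep (W : Submodule k M) : Rep.{0} k G :=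
  Rep.of (Subrepresentation.toRepresentation (ρ := (funRep M U).ρ)
    ⟨coind M U W, fun g _ hf => coind_stable W g _ hf⟩)

lemma coe_coindRep_ρ (W : Submodule k M) (g : G) (f : coindRep M U W) :
    ((coindRep M U W).ρ g f).1 = (funRep M U).ρ g f.1 := rfl

/-- One step of the flag: the graded piece is `funRep k(χ) U`. -/
theorem exists_layer (χ : G →* kˣ) (hχ : ∀ u ∈ U, χ u = 1) (W : Submodule k M)
    (hW : ∀ u ∈ U, ∀ w ∈ W, M.ρ u w ∈ W) {m : M} (hm : m ∉ W)
    (hmU : ∀ u ∈ U, M.ρ u m - m ∈ W) :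
    ∃ ψ : coindRep M U (W ⊔ Submodule.span k {m}) →ₗ[k] funRep (ofChar χ) U,
      (∀ g f, ψ ((coindRep M U _).ρ g f) = (funRep (ofChar χ) U).ρ g (ψ f)) ∧
      Function.Surjective ψ ∧ ∀ f, ψ f = 0 ↔ f.1 ∈ coind M U W := by
  classical
  obtain ⟨l₀, hl₀m, hlW₀⟩ := Submodule.exists_dual_map_eq_bot_of_notMem hm inferInstance
  let l : M →ₗ[k] k := (l₀ m)⁻¹ • l₀
  have hlm : l m = 1 := by simp [l, hl₀m]
  have hl0 : ∀ w ∈ W, l w = 0 := fun w hw => by
    have := Submodule.mem_map_of_mem (f := l₀) hw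
    rw [hlW₀, Submodule.mem_bot] at this
    simp [l, this]
  have key : ∀ u ∈ U, ∀ w ∈ W ⊔ Submodule.span k {m}, l (M.ρ u w) = l w := by
    intro u hu w hw
    obtain ⟨a, ha, b, hb, rfl⟩ := Submodule.mem_sup.1 hw
    obtain ⟨c, rfl⟩ := Submodule.mem_span_singleton.1 hb
    have h1 : l (M.ρ u m) = l m := by
      have := hl0 _ (hmU u hu)
      rwa [map_sub, sub_eq_zero] at this
    simp [map_add, map_smul, hl0 a ha, hl0 _ (hW u hu a ha), h1]
  have out_rel : ∀ g : G, ∃ u ∈ U, Quotient.out (QuotientGroup.mk g : G ⧸ U) = g * u := by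
    intro g
    obtain ⟨u, hu⟩ := QuotientGroup.mk_out_eq_mul U g
    exact ⟨u, u.2, hu⟩
  let ψ : coindRep M U (W ⊔ Submodule.span k {m}) →ₗ[k] funRep (ofChar χ) U :=
    { toFun := fun f x =>
        (χ (Quotient.out x) : k) * l (M.ρ (Quotient.out x)⁻¹ (f.1 x))
      map_add' := fun f f' => funext fun x => by
        change _ * l (M.ρ _ (f.1 x + f'.1 x)) = _ + _
        rw [map_add, map_add, mul_add]
      map_smul' := fun c f => funext fun x => by
        change _ * l (M.ρ _ (c • f.1 x)) = c * _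
        rw [map_smul, map_smul, smul_eq_mul, mul_left_comm] }
  have hval : ∀ (f : coindRep M U (W ⊔ Submodule.span k {m})) (g : G),
      ψ f (QuotientGroup.mk g) = (χ g : k) * l (M.ρ g⁻¹ (f.1 (QuotientGroup.mk g))) := by
    intro f g
    obtain ⟨u, hu, e⟩ := out_rel g
    change (χ _ : k) * l (M.ρ _ _) = _
    rw [e, map_mul, hχ u hu, mul_one, mul_inv_rev, map_mul, Module.End.mul_apply,
      key u⁻¹ (U.inv_mem hu) _ (f.2 g)]
  refine ⟨ψ, fun g f => funext fun x => ?_, fun h => ?_, fun f => ?_⟩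
  · obtain ⟨a, rfl⟩ := QuotientGroup.mk_surjective x
    rw [hval]
    change (χ a : k) * l (M.ρ a⁻¹ (M.ρ g (f.1 (g⁻¹ • (QuotientGroup.mk a : G ⧸ U))))) =
      (χ g : k) * ψ f (g⁻¹ • (QuotientGroup.mk a : G ⧸ U))
    rw [MulAction.Quotient.smul_mk, smul_eq_mul, hval, ← mul_assoc, ← Units.val_mul, ← map_mul,
      mul_inv_cancel_left, ← Module.End.mul_apply, ← map_mul, mul_inv_rev, inv_inv]
  · let f : funRep M U := fun x =>
      ((((χ (Quotient.out x))⁻¹ : kˣ) : k) * (h x : k)) • M.ρ (Quotient.out x) m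
    refine ⟨⟨f, fun g => ?_⟩, funext fun x => ?_⟩
    · obtain ⟨u, hu, e⟩ := out_rel g
      change M.ρ g⁻¹ (_ • M.ρ _ m) ∈ _
      rw [map_smul, ← Module.End.mul_apply, ← map_mul, e, inv_mul_cancel_left]
      refine Submodule.smul_mem _ _ (Submodule.mem_sup.2
        ⟨M.ρ u m - m, hmU u hu, m, Submodule.mem_span_singleton_self m, sub_add_cancel _ _⟩)
    · change (χ (Quotient.out x) : k) * l (M.ρ (Quotient.out x)⁻¹ (_ • M.ρ (Quotient.out x) m)) = h x
      rw [map_smul, ← Module.End.mul_apply, ← map_mul, inv_mul_cancel, map_one,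
        Module.End.one_apply, map_smul, hlm, smul_eq_mul, mul_one, Units.mul_inv_cancel_left]
  · constructor
    · intro hf g
      obtain ⟨a, ha, b, hb, e⟩ := Submodule.mem_sup.1 (f.2 g)
      obtain ⟨c, rfl⟩ := Submodule.mem_span_singleton.1 hb
      have h0 : ψ f (QuotientGroup.mk g) = 0 := congrFun hf _
      rw [hval, ← e, map_add, hl0 a ha, map_smul, hlm, zero_add, smul_eq_mul, mul_one,
        mul_eq_zero] at h0
      rw [← e, h0.resolve_left (χ g).ne_zero, zero_smul, add_zero]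
      exact ha
    · intro hf
      funext x
      obtain ⟨g, rfl⟩ := QuotientGroup.mk_surjective x
      rw [hval, hl0 _ (hf g), mul_zero]
      rfl

end Fermat.Agent.CFT
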