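import Fermat.Agent.CFT.Sha.Exactness
import Fermat.Agent.CFT.Interface.Reciprocity
import Fermat.Agent.CFT.Interface.LocalDuality
import Fermat.Agent.CFT.Interface.GlobalPerm
import Fermat.Agent.CFT.Interface.Cohomology
import Fermat.Agent.Galois.Cyclotomic

/-!
# `Ш¹(A) ≤ Ш²(M)`
-/

set_option autoImplicit false

open CategoryTheory groupCohomology ExtCitation Module

noncomputable section

namespace Fermat.Agent.CFT.Sha

variable {p : ℕ} [Fact p.Prime] {S : Finset Nat.Primes}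

/-- The cyclotomic character is trivial at an `S`-unramified level. -/
theorem exists_level_cycloChar (hpS : pPrime p ∈ S) :
    ∃ F : IntermediateField ℚ (AlgebraicClosure ℚ), F.IsUnramifiedOutside S ∧
      ∀ s ∈ F.fixingSubgroup, cycloChar p s = 1 := by
  haveI : NeZero p := ⟨(Fact.out : p.Prime).ne_zero⟩
  obtain ⟨ζ, hζ⟩ := HasEnoughRootsOfUnity.exists_primitiveRoot (AlgebraicClosure ℚ) p
  refine ⟨IntermediateField.adjoin ℚ {ζ}, ⟨IntermediateField.adjoin.finiteDimensional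
      (IsIntegral.of_pow (Fact.out : p.Prime).pos (by rw [hζ.pow_eq_one]; exact isIntegral_one)),
    fun q hq A hA σ hσ => ?_⟩, fun s hs => ?_⟩
  · rw [IntermediateField.mem_fixingSubgroup_iff]
    intro x hx
    have hle : IntermediateField.adjoin ℚ {ζ} ≤
        IntermediateField.fixedField (Subgroup.zpowers σ) := by
      rw [IntermediateField.adjoin_simple_le_iff]
      intro g
      obtain ⟨g, n, rfl⟩ := g
      have h1 : σ ζ = ζ := Galois.inertia_apply_rootOfUnity hA q.2 hσ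
        (fun h => hq ((Subtype.ext ((Nat.prime_dvd_prime_iff_eq q.2 Fact.out).1 h) :
          q = pPrime p) ▸ hpS)) hζ.pow_eq_one
      have h2 : σ ∈ MulAction.stabilizer GQ ζ := h1
      exact (MulAction.stabilizer GQ ζ).zpow_mem h2 n
    exact hle hx ⟨σ, Subgroup.mem_zpowers σ⟩
  · have hs1 : s ζ = ζ :=
      (IntermediateField.mem_fixingSubgroup_iff _ _).1 hs ζ
        (IntermediateField.mem_adjoin_simple_self ℚ ζ)
    refine Units.ext (modularCyclotomicCharacter.unique (AlgebraicClosure ℚ)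
      (card_rootsOfUnity_eq_self p) _ (c := 1) fun t ht => ?_).symm
    have ht1 := (mem_rootsOfUnity' p t).mp ht
    obtain ⟨i, -, hi⟩ := hζ.eq_pow_of_pow_eq_one ht1
    rw [AlgEquiv.coe_ringEquiv, ← hi, map_pow, hs1, hi, ZMod.val_one_eq_one_mod,
      Nat.one_mod_eq_one.2 (Fact.out : p.Prime).ne_one, pow_one]

/-- Lifting through a map to a dual space. -/
lemma exists_lift_dual {k X U W : Type} [Field k] [AddCommGroup X] [Module k X] [AddCommGroup U]
    [Module k U] [AddCommGroup W] [Module k W] [FiniteDimensional k W]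
    (Θ : X →ₗ[k] W →ₗ[k] k) (φ : U →ₗ[k] Dual k W)
    (h : ∀ t, (∀ x, Θ x t = 0) → ∀ ξ, φ ξ t = 0) : ∃ s : U →ₗ[k] X, ∀ ξ, Θ (s ξ) = φ ξ := by
  let Θ' : X →ₗ[k] Dual k W := Θ
  have hφ : ∀ ξ, φ ξ ∈ LinearMap.range Θ' := fun ξ => by
    rw [← Subspace.dualCoannihilator_dualAnnihilator_eq (W := LinearMap.range Θ'),
      Submodule.mem_dualAnnihilator]
    intro t ht
    rw [Submodule.mem_dualCoannihilator] at ht
    exact h t (fun x => ht _ ⟨x, rfl⟩) ξ
  let e := Module.Basis.ofVectorSpace k U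
  choose x hx using fun i => hφ (e i)
  refine ⟨e.constr k x, fun ξ => LinearMap.congr_fun (f := Θ' ∘ₗ e.constr k x) ?_ ξ⟩
  exact e.ext fun i => by simp [hx]

section naturality

variable {A M A' M' : Rep.{0} (ZMod p) GQ} (P : DualPair p (cycloChar p) A M)
  (P' : DualPair p (cycloChar p) A' M')

/-- Naturality of `thetaLoc` along a map of modules. -/
lemma thetaLoc_loc2_push (pr : M' →ₗ[ZMod p] M) (hpr : ∀ g y, pr (M'.ρ g y) = M.ρ g (pr y))
    (q : Nat.Primes) (a : (MLoc q A).ρ.invariants) (a' : (MLoc q A').ρ.invariants)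
    (hβ : ∀ m, P.β a.1 (pr m) = P'.β a'.1 m) (x : G2 S M') :
    thetaLoc (P.res (primeLocalToGlobal q)) (loc2 S q M (pushH2 pr hpr x)) a =
      thetaLoc (P'.res (primeLocalToGlobal q)) (loc2 S q M' x) a' := by
  obtain ⟨c, rfl⟩ := Submodule.mkQ_surjective _ x
  exact congrArg (invLoc p q) (congrArg (H2cπ _ _ _) (Subtype.ext (funext fun g => hβ _)))

/-- `thetaTot` when the local invariants push a cocycle to one global cocycle. -/
lemma thetaTot_eq_sum_invLoc (c : ↥(Z2 (Levels.unr S) (MonoidHom.id GQ) M)) (t : Inv0 S A)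
    (η : ↥(Z2 (Levels.unr S) (MonoidHom.id GQ) (muRep p)))
    (h : ∀ q g, P.β (t q).1 (c.1 g) = η.1 g) :
    thetaTot P (H2cπ _ _ _ c) t =
      ∑ q : ↥S, invLoc p q.1 (locS q.1 (muRep p) (H2cπ _ _ _ η)) := by
  rw [thetaTot_apply]
  exact Finset.sum_congr rfl fun q _ =>
    congrArg (invLoc p q.1) (congrArg (H2cπ _ _ _) (Subtype.ext (funext fun g => h q _)))

end naturality

section ext

variable {A M : Rep.{0} (ZMod p) GQ} {V : Type} [AddCommGroup V] [Module (ZMod p) V]
  (b : V →ₗ[ZMod p] (GQ → A)) (hb : ∀ v, b v ∈ cocycles₁ A)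

include hb in
lemma extCocycle_one (v : V) : b v 1 = 0 := cocycles₁_map_one (⟨b v, hb v⟩ : cocycles₁ A)

/-- The extension of `V` by `A` given by `b`. -/
def extRho : Representation (ZMod p) GQ (A × V) where
  toFun g := LinearMap.prod
    ((A.ρ g).coprod ((LinearMap.proj g).comp b)) (LinearMap.snd (ZMod p) A V)
  map_one' := LinearMap.ext fun x => by simp [extCocycle_one b hb]
  map_mul' g h := LinearMap.ext fun x => by
    simp [(mem_cocycles₁_iff (b x.2)).1 (hb x.2) g h, map_add, add_assoc]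

variable (P : DualPair p (cycloChar p) A M)

/-- `m ↦ (v ↦ β (b v g) (g m))`. -/
def extTwist (g : GQ) : M →ₗ[ZMod p] Dual (ZMod p) V :=
  (P.β ∘ₗ ((LinearMap.proj g).comp b)).flip ∘ₗ M.ρ g

lemma extTwist_apply (g : GQ) (m : M) (v : V) :
    extTwist b P g m v = P.β (b v g) (M.ρ g m) := rfl

/-- The dual extension. -/
def extDualRho : Representation (ZMod p) GQ (Dual (ZMod p) V × M) where
  toFun g := LinearMap.prod
    (((cycloChar p g : ZMod p) • LinearMap.id).coprod (-extTwist b P g))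
    (M.ρ g ∘ₗ LinearMap.snd (ZMod p) (Dual (ZMod p) V) M)
  map_one' := LinearMap.ext fun x => Prod.ext (LinearMap.ext fun v => by
    simp [extTwist_apply, extCocycle_one b hb]) (by simp)
  map_mul' g h := LinearMap.ext fun x => Prod.ext (LinearMap.ext fun v => by
    simp [extTwist_apply, (mem_cocycles₁_iff (b v)).1 (hb v) g h, map_add, P.equivariant,
      mul_assoc]
    ring) (by simp)

/-- The module `A × V`. -/
abbrev extMod : Rep.{0} (ZMod p) GQ := Rep.of (extRho b hb)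

/-- The module `V^∨ × M`. -/
abbrev extDual : Rep.{0} (ZMod p) GQ := Rep.of (extDualRho b hb P)

lemma extRho_apply (g : GQ) (x : A × V) : extRho b hb g x = (A.ρ g x.1 + b x.2 g, x.2) := rfl

lemma extDualRho_apply (g : GQ) (x : Dual (ZMod p) V × M) :
    extDualRho b hb P g x =
      ((cycloChar p g : ZMod p) • x.1 + -extTwist b P g x.2, M.ρ g x.2) := rfl

/-- The pairing of the two extensions. -/
def extPair : DualPair p (cycloChar p) (extMod b hb) (extDual b hb P) where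
  β :=
    LinearMap.mk₂ (ZMod p) (fun (x : A × V) (y : Dual (ZMod p) V × M) => y.1 x.2 + P.β x.1 y.2)
      (fun x x' y => by simp; abel) (fun c x y => by simp [mul_add])
      (fun x y y' => by simp; abel) (fun c x y => by simp [mul_add])
  equivariant g x y := by
    show ((cycloChar p g : ZMod p) • y.1 + -extTwist b P g y.2) x.2 +
        P.β (A.ρ g x.1 + b x.2 g) (M.ρ g y.2) = _ * (y.1 x.2 + P.β x.1 y.2)
    simp [extTwist_apply, P.equivariant]
    ring
  left x h := by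
    have h2 : x.2 = 0 := (Module.forall_dual_apply_eq_zero_iff (ZMod p) x.2).1 fun ξ => by
      have := h (ξ, 0)
      change ξ x.2 + P.β x.1 0 = 0 at this
      simpa using this
    refine Prod.ext (P.left _ fun m => ?_) h2
    have := h (0, m)
    change (0 : Dual (ZMod p) V) x.2 + P.β x.1 m = 0 at this
    simpa using this
  right y h := by
    refine Prod.ext (LinearMap.ext fun v => ?_) (P.right _ fun a => ?_)
    · have := h (0, v)
      change y.1 v + P.β 0 y.2 = 0 at this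
      simpa using this
    · have := h (a, 0)
      change y.1 0 + P.β a y.2 = 0 at this
      simpa using this

variable {b hb} [FiniteDimensional (ZMod p) V]

lemma exists_level_ext (hbc : ∀ v, IsConst₁ (Levels.unr S) (MonoidHom.id GQ) (b v)) :
    ∃ F : IntermediateField ℚ (AlgebraicClosure ℚ), (Levels.unr S).ok F ∧
      ∀ v, ∀ s ∈ F.fixingSubgroup, b v s = b v 1 := by
  let e := Module.finBasis (ZMod p) V
  choose F hF hFc using fun i => hbc (e i)
  obtain ⟨F', hF', hle⟩ := Levels.exists_ge (L := Levels.unr S) F hF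
  refine ⟨F', hF', fun v s hs => ?_⟩
  have : (LinearMap.proj s).comp b = (LinearMap.proj 1).comp b := e.ext fun i => by
    simpa using hFc i 1 s (IntermediateField.fixingSubgroup_antitone (hle i) hs)
  exact LinearMap.congr_fun this v

lemma isSmoothRep_extMod (hA : IsSmoothRep (Levels.unr S) (MonoidHom.id GQ) A)
    (hbc : ∀ v, IsConst₁ (Levels.unr S) (MonoidHom.id GQ) (b v)) :
    IsSmoothRep (Levels.unr S) (MonoidHom.id GQ) (extMod b hb) := fun x => by
  obtain ⟨F₀, hF₀, h₀⟩ := exists_level_ext (S := S) hbc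
  obtain ⟨F₁, hF₁, h₁⟩ := hA x.1
  refine ⟨F₀ ⊔ F₁, (Levels.unr S).sup _ _ hF₀ hF₁, fun s hs => ?_⟩
  show extRho b hb s x = x
  rw [extRho_apply, h₁ s (IntermediateField.fixingSubgroup_antitone le_sup_right hs),
    h₀ _ s (IntermediateField.fixingSubgroup_antitone le_sup_left hs), extCocycle_one b hb,
    add_zero]

lemma isSmoothRep_extDual (hpS : pPrime p ∈ S)
    (hM : IsSmoothRep (Levels.unr S) (MonoidHom.id GQ) M)
    (hbc : ∀ v, IsConst₁ (Levels.unr S) (MonoidHom.id GQ) (b v)) :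
    IsSmoothRep (Levels.unr S) (MonoidHom.id GQ) (extDual b hb P) := fun x => by
  obtain ⟨F₀, hF₀, h₀⟩ := exists_level_ext (S := S) hbc
  obtain ⟨F₁, hF₁, h₁⟩ := hM x.2
  obtain ⟨F₂, hF₂, h₂⟩ := exists_level_cycloChar hpS
  refine ⟨F₀ ⊔ F₁ ⊔ F₂, (Levels.unr S).sup _ _ ((Levels.unr S).sup _ _ hF₀ hF₁) hF₂,
    fun s hs => ?_⟩
  show extDualRho b hb P s x = x
  have hs₁ := h₁ s (IntermediateField.fixingSubgroup_antitone (le_sup_right.trans le_sup_left) hs)
  have hs₀ : extTwist b P s x.2 = 0 := LinearMap.ext fun v => by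
    rw [extTwist_apply, h₀ v s (IntermediateField.fixingSubgroup_antitone
      (le_sup_left.trans le_sup_left) hs), extCocycle_one b hb]
    simp
  rw [extDualRho_apply, h₂ s (IntermediateField.fixingSubgroup_antitone le_sup_right hs), hs₀,
    hs₁]
  simp

variable (b hb) [FiniteDimensional (ZMod p) A] [FiniteDimensional (ZMod p) M]

/-- The `V`-coordinate at a place. -/
def extTarget (q₀ : ↥S) : Dual (ZMod p) V →ₗ[ZMod p] Dual (ZMod p) (Inv0 S (extMod b hb)) :=
  LinearMap.lcomp (ZMod p) (ZMod p) ((LinearMap.snd (ZMod p) A V).comp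
    ((Submodule.subtype _).comp
      (LinearMap.proj (φ := fun q : ↥S => (MLoc q.1 (extMod b hb)).ρ.invariants) q₀)))

lemma extTarget_apply (q₀ : ↥S) (ξ : Dual (ZMod p) V) (t : Inv0 S (extMod b hb)) :
    extTarget b hb q₀ ξ t = ξ ((t q₀).1 : A × V).2 := rfl

omit [FiniteDimensional (ZMod p) A] [FiniteDimensional (ZMod p) M] [FiniteDimensional (ZMod p) V] in
/-- A global invariant of the extension has no `V`-component when `b` is injective on classes. -/
lemma ext_invariant_snd (hcls : ∀ v, (H1π A).hom ⟨b v, hb v⟩ = 0 → v = 0)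
    (x : (extMod b hb).ρ.invariants) : (x.1 : A × V).2 = 0 := by
  obtain ⟨⟨a, v⟩, hav⟩ := x
  refine hcls v ((H1π_eq_zero_iff _).2 ⟨-a, funext fun g => ?_⟩)
  have h : A.ρ g a + b v g = a := congrArg Prod.fst (hav g)
  simp only [d₀₁_hom_apply, map_neg, cocycles₁.coe_mk]
  rw [eq_sub_of_add_eq' h]
  abel

/-- Global classes of the dual extension with prescribed localisations. -/
lemma exists_ext_classes (hp2 : p ≠ 2) (hpS : pPrime p ∈ S)
    (hA : IsSmoothRep (Levels.unr S) (MonoidHom.id GQ) A)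
    (hM : IsSmoothRep (Levels.unr S) (MonoidHom.id GQ) M)
    (hbc : ∀ v, IsConst₁ (Levels.unr S) (MonoidHom.id GQ) (b v))
    (hcls : ∀ v, (H1π A).hom ⟨b v, hb v⟩ = 0 → v = 0) (q₀ : ↥S) :
    ∃ sx : Dual (ZMod p) V →ₗ[ZMod p] G2 S (extDual b hb P),
      ∀ ξ t, thetaTot (extPair b hb P) (sx ξ) t = ξ ((t q₀).1 : A × V).2 := by
  haveI : FiniteDimensional (ZMod p) (extMod b hb) :=
    inferInstanceAs (FiniteDimensional (ZMod p) (A × V))
  haveI : FiniteDimensional (ZMod p) (extDual b hb P) :=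
    inferInstanceAs (FiniteDimensional (ZMod p) (Dual (ZMod p) V × M))
  haveI : FiniteDimensional (ZMod p) (Inv0 S (extMod b hb)) := Module.Finite.pi
  obtain ⟨sx, hsx⟩ := exists_lift_dual (thetaTot (extPair b hb P) (S := S)) (extTarget b hb q₀)
    fun t ht ξ => by
      obtain ⟨x, rfl⟩ := exact_H2 hp2 hpS (isSmoothRep_extMod hA hbc)
        (isSmoothRep_extDual P hpS hM hbc) (extPair b hb P) t ht
      rw [extTarget_apply]
      show ξ ((x.1 : A × V).2) = 0
      rw [ext_invariant_snd b hb hcls x, map_zero]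
  exact ⟨sx, fun ξ t => (LinearMap.congr_fun (hsx ξ) t).trans (extTarget_apply b hb q₀ ξ t)⟩

/-- The projection `V^∨ × M → M`. -/
def extPr : extDual b hb P →ₗ[ZMod p] M := LinearMap.snd (ZMod p) (Dual (ZMod p) V) M

omit [FiniteDimensional (ZMod p) A] [FiniteDimensional (ZMod p) M] [FiniteDimensional (ZMod p) V] in
lemma extPr_rho (g : GQ) (y : extDual b hb P) :
    extPr b hb P ((extDual b hb P).ρ g y) = M.ρ g (extPr b hb P y) := rfl

variable {b hb} (hp2 : p ≠ 2) (hA : IsSmoothRep (Levels.unr S) (MonoidHom.id GQ) A)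
  (hM : IsSmoothRep (Levels.unr S) (MonoidHom.id GQ) M) {q₀ : ↥S}
  {x : G2 S (extDual b hb P)} {ξ : Dual (ZMod p) V}
  (hx : ∀ t, thetaTot (extPair b hb P) x t = ξ ((t q₀).1 : A × V).2)

include hp2 hA hM hx in
omit [FiniteDimensional (ZMod p) A] [FiniteDimensional (ZMod p) V] in
lemma push_mem_Sha2 : pushH2 (extPr b hb P) (extPr_rho b hb P) x ∈ Sha2 S M := by
  classical
  simp only [Sha2, LinearMap.mem_ker, loc2T, funext_iff, LinearMap.pi_apply, Pi.zero_apply]
  intro q
  haveI : FiniteDimensional (ZMod p) (MLoc q.1 M) := ‹FiniteDimensional (ZMod p) M›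
  refine (thetaLoc_bijective hp2 q.1 (P.res (primeLocalToGlobal q.1)) (isSmoothRep_loc hM q.1)
    (isSmoothRep_loc hA q.1)).1 ?_
  rw [map_zero]
  ext a
  have hinv : ((a.1, 0) : A × V) ∈ (MLoc q.1 (extMod b hb)).ρ.invariants := fun g =>
    Prod.ext (by
      show A.ρ _ a.1 + b 0 _ = a.1
      rw [map_zero, Pi.zero_apply, add_zero]
      exact a.2 g) rfl
  have h := hx (Pi.single q ⟨(a.1, 0), hinv⟩)
  rw [thetaTot_apply, Finset.sum_eq_single q (fun q' _ hne => by
    rw [Pi.single_eq_of_ne hne, map_zero]) (fun h => absurd (Finset.mem_univ q) h),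
    Pi.single_eq_same] at h
  have hR : (((Pi.single q ⟨(a.1, 0), hinv⟩ : Inv0 S (extMod b hb)) q₀).1 : A × V).2 = 0 := by
    by_cases hq : q = q₀
    · subst hq; rw [Pi.single_eq_same]
    · rw [Pi.single_eq_of_ne (Ne.symm hq)]; rfl
  rw [hR, map_zero] at h
  refine Eq.trans ?_ h
  refine thetaLoc_loc2_push P (extPair b hb P) _ _ q.1 a ⟨(a.1, 0), hinv⟩ (fun m => ?_) x
  show P.β a.1 (m : Dual (ZMod p) V × M).2 =
    (m : Dual (ZMod p) V × M).1 0 + P.β a.1 (m : Dual (ZMod p) V × M).2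
  rw [map_zero, zero_add]

include hp2 hM hx in
omit [FiniteDimensional (ZMod p) A] [FiniteDimensional (ZMod p) M] in
lemma eq_zero_of_push_eq_zero (hpS : pPrime p ∈ S)
    (hbc : ∀ v, IsConst₁ (Levels.unr S) (MonoidHom.id GQ) (b v))
    (h0 : pushH2 (extPr b hb P) (extPr_rho b hb P) x = 0) (v : V)
    (hv : ∀ q : ↥S, locH1 q.1 A ((H1π A).hom ⟨b v, hb v⟩) = 0) : ξ v = 0 := by
  obtain ⟨c, rfl⟩ := Submodule.mkQ_surjective _ x
  rw [pushH2_mk _ _ c (push_mem_Z2 _ (extPr_rho b hb P) c), H2cπ_eq_zero_iff] at h0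
  obtain ⟨y, hy, hy'⟩ := h0
  let Y : GQ → extDual b hb P := fun g => ((0, y g) : Dual (ZMod p) V × M)
  have hY : IsConst₁ (Levels.unr S) (MonoidHom.id GQ) Y := hy.comp fun m => (0, m)
  have hdY := (isSmoothRep_extDual P hpS hM hbc).isConst₂_d₁₂ (Levels.normalBasis_unr S) hY
  let c' : GQ × GQ → extDual b hb P := c.1 - (d₁₂ (extDual b hb P)).hom Y
  have hc' : c' ∈ Z2 (Levels.unr S) (MonoidHom.id GQ) (extDual b hb P) :=
    ⟨sub_mem c.2.1 (d₁₂_apply_mem_cocycles₂ (A := extDual b hb P) Y),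
      (c.2.2.prodMk hdY).comp fun z => z.1 - z.2⟩
  have hcc : H2cπ _ _ (extDual b hb P) c = H2cπ _ _ (extDual b hb P) ⟨c', hc'⟩ := by
    rw [← sub_eq_zero, ← map_sub, H2cπ_eq_zero_iff]
    refine ⟨Y, hY, ?_⟩
    simp only [Submodule.coe_sub, c']
    abel
  have hc'2 : ∀ g, (c' g : Dual (ZMod p) V × M).2 = 0 := fun ⟨g, h⟩ => by
    have := congrFun hy' (g, h)
    simp only [d₁₂_hom_apply, Function.comp_apply] at this
    show extPr b hb P (c.1 (g, h) - (d₁₂ (extDual b hb P)).hom Y (g, h)) = 0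
    simp only [d₁₂_hom_apply, map_sub, map_add, extPr_rho]
    rw [sub_eq_zero, ← this]
    rfl
  let η : GQ × GQ → muRep p := fun g => (c' g : Dual (ZMod p) V × M).1 v
  have hη : η ∈ Z2 (Levels.unr S) (MonoidHom.id GQ) (muRep p) := by
    refine ⟨(mem_cocycles₂_iff η).2 fun g h j => ?_,
      hc'.2.comp fun z : extDual b hb P => ((z : Dual (ZMod p) V × M).1 v : muRep p)⟩
    have := congrArg (fun z : extDual b hb P => (z : Dual (ZMod p) V × M).1 v)
      ((mem_cocycles₂_iff c').1 hc'.1 g h j)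
    rw [muRep_apply]
    refine this.trans ?_
    show ((cycloChar p g : ZMod p) • (c' (h, j) : Dual (ZMod p) V × M).1 +
        -extTwist b P g (c' (h, j) : Dual (ZMod p) V × M).2) v + η (g, h * j) = _
    rw [hc'2, map_zero, neg_zero, add_zero, LinearMap.smul_apply, smul_eq_mul]
  have hloc : ∀ q : ↥S,
      ∃ t : (MLoc q.1 (extMod b hb)).ρ.invariants, (t.1 : A × V).2 = v := fun q => by
    have h0 := hv q
    rw [locH1_π, H1π_eq_zero_iff] at h0
    obtain ⟨a, ha⟩ := h0
    refine ⟨⟨((-a, v) : A × V), fun g => Prod.ext ?_ rfl⟩, rfl⟩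
    have e : A.ρ (primeLocalToGlobal q.1 g) a - a = b v (primeLocalToGlobal q.1 g) := congrFun ha g
    show A.ρ (primeLocalToGlobal q.1 g) (-a) + b v (primeLocalToGlobal q.1 g) = -a
    rw [← e, map_neg]
    abel
  choose t ht using hloc
  have hsum := sum_invLoc_eq_zero hp2 S hpS (H2cπ _ _ _ ⟨η, hη⟩)
  rw [← Finset.sum_coe_sort] at hsum
  have e2 := thetaTot_eq_sum_invLoc (extPair b hb P) ⟨c', hc'⟩ t ⟨η, hη⟩ fun q g => by
    show (c' g : Dual (ZMod p) V × M).1 ((t q).1 : A × V).2 +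
      P.β ((t q).1 : A × V).1 (c' g : Dual (ZMod p) V × M).2 = η g
    rw [hc'2, map_zero, add_zero, ht]
  have h := hx t
  rw [ht] at h
  rw [← h, ← hsum, ← e2, ← hcc]

end ext

/-- The universal locally split extension of `A` by `Ш¹(A)` shows `dim Ш¹(A) ≤ dim Ш²(M)`. -/
theorem finrank_sha1_le (hp2 : p ≠ 2) (hpS : pPrime p ∈ S) {A M : Rep.{0} (ZMod p) GQ}
    [FiniteDimensional (ZMod p) A] [FiniteDimensional (ZMod p) M]
    (hA : IsSmoothRep (Levels.unr S) (MonoidHom.id GQ) A)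
    (hM : IsSmoothRep (Levels.unr S) (MonoidHom.id GQ) M)
    (P : DualPair p (cycloChar p) A M) :
    finrank (ZMod p) (Sha1 S A) ≤ finrank (ZMod p) (Sha2 S M) := by
  haveI : FiniteDimensional (ZMod p) (G1 S A) := finite_H1c_unr S hpS A hA
  haveI : FiniteDimensional (ZMod p) (G2 S M) := finite_H2c_unr hp2 S hpS M hM
  let π : ↥(Z1 (Levels.unr S) (MonoidHom.id GQ) A) →ₗ[ZMod p] G1 S A :=
    LinearMap.codRestrict _ ((H1π A).hom ∘ₗ (Z1 (Levels.unr S) (MonoidHom.id GQ) A).subtype)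
      fun c => ⟨c.1, c.2, rfl⟩
  have hπ : Function.Surjective π := by
    rintro ⟨_, c, hc, rfl⟩
    exact ⟨⟨c, hc⟩, rfl⟩
  obtain ⟨lift, hlift⟩ := π.exists_rightInverse_of_surjective (LinearMap.range_eq_top.2 hπ)
  let b : Sha1 S A →ₗ[ZMod p] (GQ → A) :=
    ((cocycles₁ A).subtype ∘ₗ (Z1 (Levels.unr S) (MonoidHom.id GQ) A).subtype) ∘ₗ
      lift ∘ₗ (Sha1 S A).subtype
  have hb : ∀ v, b v ∈ cocycles₁ A := fun v => (lift v.1).1.2
  have hbc : ∀ v, IsConst₁ (Levels.unr S) (MonoidHom.id GQ) (b v) := fun v => (lift v.1).2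
  have hbcls : ∀ v : Sha1 S A, (H1π A).hom ⟨b v, hb v⟩ = (v.1 : H1 A) := fun v =>
    congrArg Subtype.val (LinearMap.congr_fun hlift v.1)
  have hcls : ∀ v, (H1π A).hom ⟨b v, hb v⟩ = 0 → v = 0 := fun v h => by
    rw [hbcls] at h
    exact Subtype.ext (Subtype.ext h)
  obtain ⟨sx, hsx⟩ := exists_ext_classes b hb P hp2 hpS hA hM hbc hcls ⟨pPrime p, hpS⟩
  let Ψ : Dual (ZMod p) (Sha1 S A) →ₗ[ZMod p] G2 S M :=
    pushH2 (extPr b hb P) (extPr_rho b hb P) ∘ₗ sx
  have hΨ : ∀ ξ, Ψ ξ ∈ Sha2 S M := fun ξ => push_mem_Sha2 P hp2 hA hM (hsx ξ)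
  have hinj : Function.Injective Ψ := (injective_iff_map_eq_zero _).2 fun ξ hξ =>
    LinearMap.ext fun v => eq_zero_of_push_eq_zero P hp2 hM (hsx ξ) hpS hbc hξ v fun q => by
      rw [hbcls v]
      exact congrArg Subtype.val (congrFun (LinearMap.mem_ker.1 v.2) q)
  rw [← Subspace.dual_finrank_eq (V := Sha1 S A)]
  exact LinearMap.finrank_le_finrank_of_injective (f := Ψ.codRestrict _ hΨ)
    fun x y h => hinj (congrArg Subtype.val h)

end Fermat.Agent.CFT.Sha
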