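import Fermat.Agent.CFT.Sha.Pairs
import Fermat.Agent.CFT.Sha.Layers
import Fermat.Agent.CFT.Sha.Counting
import Fermat.Agent.CFT.Sha.UniversalExt
import Fermat.Agent.CFT.Interface.GlobalPerm

/-!
# Poitou–Tate for coinduced unipotent modules
-/

set_option autoImplicit false
set_option linter.style.haveILetI false

open CategoryTheory groupCohomology ExtCitation Module

noncomputable section

namespace Fermat.Agent.CFT.Sha

variable {p : ℕ} [Fact p.Prime] {S : Finset Nat.Primes}

lemma isSmoothRep_muRep (hpS : pPrime p ∈ S) :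
    IsSmoothRep (Levels.unr S) (MonoidHom.id GQ) (muRep p) := by
  obtain ⟨F, hF, h⟩ := exists_level_cycloChar (p := p) hpS
  intro m
  refine ⟨F, hF, fun s hs => ?_⟩
  rw [muRep_apply, h s hs, Units.val_one, one_mul]

lemma finrank_invariants_perm_le {G : Type} [Group G] {k : Type} [Field k] (χ : G →* kˣ)
    (U : Subgroup G) : finrank k (funRep (ofChar χ) U).ρ.invariants ≤ 1 := by
  let ev : (funRep (ofChar χ) U).ρ.invariants →ₗ[k] k :=
    { toFun := fun f => (f.1 (QuotientGroup.mk 1) : k)
      map_add' := fun _ _ => rfl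
      map_smul' := fun _ _ => rfl }
  refine (LinearMap.finrank_le_finrank_of_injective (f := ev) ?_).trans
    (Module.finrank_self k).le
  refine (injective_iff_map_eq_zero ev).2 fun f hf => Subtype.ext (funext fun x => ?_)
  obtain ⟨g, rfl⟩ := QuotientGroup.mk_surjective x
  have h := congrFun (f.2 g) (QuotientGroup.mk g)
  rw [funRep_ρ_apply, MulAction.Quotient.smul_mk, smul_eq_mul, inv_mul_cancel] at h
  rw [← h]
  change (ofChar χ).ρ g (f.1 (QuotientGroup.mk 1)) = 0
  rw [show f.1 (QuotientGroup.mk 1) = 0 from hf, map_zero]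

variable (hp2 : p ≠ 2) (hpS : pPrime p ∈ S)

include hp2 hpS in
/-- `h0 + h2 + [L:ℚ] d / 2 ≤ h1` for a coinduced unipotent module. -/
theorem layered_euler_le {M : Rep.{0} (ZMod p) GQ} [FiniteDimensional (ZMod p) M]
    (hM : IsSmoothRep (Levels.unr S) (MonoidHom.id GQ) M) {U : Subgroup GQ}
    (hU : IsLevelSubgroup (Levels.unr S) (MonoidHom.id GQ) U)
    (hχ : ∀ g ∈ U, cycloChar p g = 1)
    (hfilt : ∀ (W : Submodule (ZMod p) M), (∀ g ∈ U, ∀ w ∈ W, M.ρ g w ∈ W) → W ≠ ⊤ →
      ∃ m ∉ W, ∀ g ∈ U, M.ρ g m - m ∈ W) :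
    2 * (finrank (ZMod p) (funRep M U).ρ.invariants +
        finrank (ZMod p) (G2 S (funRep M U))) + U.index * finrank (ZMod p) M ≤
      2 * finrank (ZMod p) (G1 S (funRep M U)) := by
  haveI : Finite (GQ ⧸ U) := hU.finite_quotient
  haveI hfd := finiteDimensional_funRep M U
  have hL := Levels.hasNormal_unr S
  have hN := isSmoothRep_funRep hL hU hM
  have hμ := isSmoothRep_muRep (p := p) hpS
  haveI := finiteDimensional_funRep (muRep p) U
  have hsm : ∀ W : Submodule (ZMod p) M,
      IsSmoothRep (Levels.unr S) (MonoidHom.id GQ) (coindRep M U W) := fun W f => by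
    obtain ⟨F, hF, h⟩ := hN f.1
    exact ⟨F, hF, fun s hs => Subtype.ext (h s hs)⟩
  haveI : ∀ W : Submodule (ZMod p) M, FiniteDimensional (ZMod p) (coindRep M U W) := fun W =>
    inferInstanceAs (FiniteDimensional (ZMod p) (coind M U W))
  haveI : ∀ W : Submodule (ZMod p) M,
      FiniteDimensional (ZMod p) (G1 S (coindRep M U W)) := fun W => finite_H1c_unr S hpS _ (hsm W)
  haveI : ∀ W : Submodule (ZMod p) M,
      FiniteDimensional (ZMod p) (G2 S (coindRep M U W)) := fun W =>
    finite_H2c_unr hp2 S hpS _ (hsm W)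
  let Good : Submodule (ZMod p) M → Prop := fun W =>
    2 * (finrank (ZMod p) (coindRep M U W).ρ.invariants +
        finrank (ZMod p) (G2 S (coindRep M U W))) + U.index * finrank (ZMod p) W ≤
      2 * finrank (ZMod p) (G1 S (coindRep M U W))
  have step : ∀ (n : ℕ) (W : Submodule (ZMod p) M), finrank (ZMod p) M ≤ finrank (ZMod p) W + n →
      (∀ g ∈ U, ∀ w ∈ W, M.ρ g w ∈ W) → Good W → Good ⊤ := by
    intro n
    induction n with
    | zero =>
      intro W hn _ hW
      have : W = ⊤ := Submodule.eq_top_of_finrank_eq (le_antisymm (Submodule.finrank_le W) hn)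
      exact this ▸ hW
    | succ n ih =>
      intro W hn hstab hW
      by_cases htop : W = ⊤
      · exact htop ▸ hW
      obtain ⟨m, hm, hmU⟩ := hfilt W hstab htop
      have hdim : finrank (ZMod p) (W ⊔ Submodule.span (ZMod p) {m} : Submodule (ZMod p) M) =
          finrank (ZMod p) W + 1 := Submodule.finrank_sup_span_singleton hm
      refine ih (W ⊔ Submodule.span (ZMod p) {m}) (by omega) (fun g hg w hw => ?_) ?_
      · obtain ⟨a, ha, b, hb, rfl⟩ := Submodule.mem_sup.1 hw
        obtain ⟨c, rfl⟩ := Submodule.mem_span_singleton.1 hb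
        rw [map_add, map_smul, show M.ρ g m = (M.ρ g m - m) + m from (sub_add_cancel _ _).symm,
          smul_add, ← add_assoc]
        exact add_mem (Submodule.mem_sup_left (add_mem (hstab g hg a ha) (W.smul_mem c (hmU g hg))))
          (Submodule.smul_mem _ c (Submodule.mem_sup_right (Submodule.mem_span_singleton_self m)))
      · obtain ⟨ψ, hψ, hψs, hψk⟩ := exists_layer (cycloChar p) hχ W hstab hm hmU
        let φ : coindRep M U W →ₗ[ZMod p] coindRep M U (W ⊔ Submodule.span (ZMod p) {m}) :=
          Submodule.inclusion (coind_mono le_sup_left)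
        obtain ⟨hC1, hC2, hC⟩ := perm_euler_le hp2 S hpS hU hχ
        haveI : FiniteDimensional (ZMod p) (funRep (muRep p) U) := finiteDimensional_funRep _ U
        haveI : FiniteDimensional (ZMod p)
            (H1c (Levels.unr S) (MonoidHom.id GQ) (funRep (muRep p) U)) := hC1
        haveI : FiniteDimensional (ZMod p)
            (H2c (Levels.unr S) (MonoidHom.id GQ) (funRep (muRep p) U)) := hC2
        have he : Function.Exact φ ψ := fun f => by
          rw [hψk]
          exact ⟨fun h => ⟨⟨f.1, h⟩, Subtype.ext rfl⟩, fun ⟨f₀, h⟩ => h ▸ f₀.2⟩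
        have hE := euler_subadd φ (fun g f => Subtype.ext rfl) ψ hψ hL (hsm _)
          (Submodule.inclusion_injective _) hψs he
        have h0 : finrank (ZMod p) (funRep (muRep p) U).ρ.invariants ≤ 1 :=
          finrank_invariants_perm_le (cycloChar p) U
        have hE' : finrank (ZMod p) (coindRep M U (W ⊔ Submodule.span (ZMod p) {m})).ρ.invariants +
            finrank (ZMod p) (G2 S (coindRep M U (W ⊔ Submodule.span (ZMod p) {m}))) +
            (finrank (ZMod p) (G1 S (coindRep M U W)) +
              finrank (ZMod p) (G1 S (funRep (muRep p) U))) ≤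
          finrank (ZMod p) (coindRep M U W).ρ.invariants +
            finrank (ZMod p) (G2 S (coindRep M U W)) +
            (finrank (ZMod p) (funRep (muRep p) U).ρ.invariants +
              finrank (ZMod p) (G2 S (funRep (muRep p) U))) +
            finrank (ZMod p) (G1 S (coindRep M U (W ⊔ Submodule.span (ZMod p) {m}))) := hE
        have hC' : 2 * (1 + finrank (ZMod p) (G2 S (funRep (muRep p) U))) + U.index ≤
            2 * finrank (ZMod p) (G1 S (funRep (muRep p) U)) := hC
        change _ ≤ _ at hW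
        change _ ≤ _
        rw [hdim, Nat.mul_succ]
        omega
  have hbot : Good ⊥ := by
    haveI : Subsingleton (coindRep M U (⊥ : Submodule (ZMod p) M)) := ⟨fun a b => by
      have := (coind_bot (M := M) (U := U)).le
      exact Subtype.ext (((Submodule.mem_bot _).1 (this a.2)).trans
        ((Submodule.mem_bot _).1 (this b.2)).symm)⟩
    obtain ⟨h0, h1, h2⟩ := finrank_of_subsingleton (L := Levels.unr S) (r := MonoidHom.id GQ)
      (A := coindRep M U (⊥ : Submodule (ZMod p) M))
    change 2 * (_ + finrank (ZMod p) (H2c _ _ _)) + _ ≤ 2 * finrank (ZMod p) (H1c _ _ _)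
    rw [h0, h1, h2, finrank_bot]
    simp
  have htop := step (finrank (ZMod p) M) ⊥ (by omega) (fun g _ w hw => by
    rw [Submodule.mem_bot] at hw ⊢
    rw [hw, map_zero]) hbot
  let e : coindRep M U (⊤ : Submodule (ZMod p) M) ≃ₗ[ZMod p] funRep M U :=
    (LinearEquiv.ofEq _ _ coind_top).trans Submodule.topEquiv
  have he : ∀ g f, e ((coindRep M U ⊤).ρ g f) = (funRep M U).ρ g (e f) := fun g f => rfl
  have t0 := finrank_invariants_congr e he
  have t1 : finrank (ZMod p) (G1 S (coindRep M U (⊤ : Submodule (ZMod p) M))) =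
      finrank (ZMod p) (G1 S (funRep M U)) :=
    finrank_H1c_congr (L := Levels.unr S) (r := MonoidHom.id GQ) e he
  have t2 : finrank (ZMod p) (G2 S (coindRep M U (⊤ : Submodule (ZMod p) M))) =
      finrank (ZMod p) (G2 S (funRep M U)) :=
    finrank_H2c_congr (L := Levels.unr S) (r := MonoidHom.id GQ) e he
  have t0' : finrank (ZMod p) (coindRep M U (⊤ : Submodule (ZMod p) M)).ρ.invariants =
      finrank (ZMod p) (funRep M U).ρ.invariants := t0
  change 2 * (finrank (ZMod p) (coindRep M U (⊤ : Submodule (ZMod p) M)).ρ.invariants +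
      finrank (ZMod p) (G2 S (coindRep M U (⊤ : Submodule (ZMod p) M)))) +
        U.index * finrank (ZMod p) (⊤ : Submodule (ZMod p) M) ≤
      2 * finrank (ZMod p) (G1 S (coindRep M U (⊤ : Submodule (ZMod p) M))) at htop
  rw [finrank_top] at htop
  omega

include hp2 hpS in
/-- Upper bound for the product of the local `H¹`. -/
theorem sum_finrank_Lo1_le {A M : Rep.{0} (ZMod p) GQ} [FiniteDimensional (ZMod p) A]
    [FiniteDimensional (ZMod p) M]
    (hM : IsSmoothRep (Levels.unr S) (MonoidHom.id GQ) M)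
    (hA : IsSmoothRep (Levels.unr S) (MonoidHom.id GQ) A)
    (P : DualPair p (cycloChar p) A M) {U : Subgroup GQ}
    (hU : IsLevelSubgroup (Levels.unr S) (MonoidHom.id GQ) U)
    (hχ : ∀ g ∈ U, cycloChar p g = 1)
    (hfilt : ∀ (W : Submodule (ZMod p) M), (∀ g ∈ U, ∀ w ∈ W, M.ρ g w ∈ W) → W ≠ ⊤ →
      ∃ m ∉ W, ∀ g ∈ U, M.ρ g m - m ∈ W) :
    ∑ q : ↥S, finrank (ZMod p) (Lo1 q.1 (funRep M U)) ≤
      ∑ q : ↥S, finrank (ZMod p) (MLoc q.1 (funRep M U)).ρ.invariants +
        ∑ q : ↥S, finrank (ZMod p) (MLoc q.1 (funRep A U)).ρ.invariants +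
        U.index * finrank (ZMod p) M := by
  classical
  haveI : Finite (GQ ⧸ U) := hU.finite_quotient
  have hL := Levels.hasNormal_unr S
  have hU' : IsLevelSubgroup Levels.all (MonoidHom.id GQ) U := by
    obtain ⟨F, hF, h⟩ := hU
    exact ⟨F, hF.1, h⟩
  have hMall : IsSmoothRep Levels.all (MonoidHom.id GQ) M := fun m => by
    obtain ⟨F, hF, h⟩ := hM m
    exact ⟨F, hF.1, h⟩
  have hq : ∀ q : Nat.Primes, finrank (ZMod p) (Lo1 q (funRep M U)) ≤
      finrank (ZMod p) (MLoc q (funRep M U)).ρ.invariants +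
        finrank (ZMod p) (MLoc q (funRep A U)).ρ.invariants +
        (if (q : ℕ) = p then U.index * finrank (ZMod p) M else 0) := fun q => by
    haveI := finiteDimensional_funRep A U
    haveI := finiteDimensional_funRep M U
    haveI : FiniteDimensional (ZMod p) (MLoc q (funRep M U)) := finiteDimensional_funRep M U
    haveI : FiniteDimensional (ZMod p) (MLoc q (funRep A U)) := finiteDimensional_funRep A U
    have hb := thetaLoc_bijective hp2 q ((funPair P U).res (primeLocalToGlobal q))
      (isSmoothRep_loc (isSmoothRep_funRep hL hU hM) q)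
      (isSmoothRep_loc (isSmoothRep_funRep hL hU hA) q)
    have h2 : finrank (ZMod p) (Lo2 q (funRep M U)) =
        finrank (ZMod p) (MLoc q (funRep A U)).ρ.invariants :=
      (LinearEquiv.ofBijective _ hb).finrank_eq.trans Subspace.dual_finrank_eq
    have h := finrank_H1c_funRep_le hp2 q hU' hχ M hMall hfilt
    exact h.trans (by rw [← h2])
  refine (Finset.sum_le_sum fun q _ => hq q.1).trans ?_
  rw [Finset.sum_add_distrib, Finset.sum_add_distrib]
  refine Nat.add_le_add_left ?_ _
  refine (Finset.sum_eq_single (⟨pPrime p, hpS⟩ : ↥S) (fun q _ hne => if_neg fun h =>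
    hne (Subtype.ext (Subtype.ext h))) (fun h => absurd (Finset.mem_univ _) h)).le.trans ?_
  simp

include hp2 hpS in
/-- `Ш¹(N^*)` and `Ш²(N)` have the same dimension for coinduced unipotent modules. -/
theorem layered_sha_eq {A M : Rep.{0} (ZMod p) GQ} [FiniteDimensional (ZMod p) A]
    [FiniteDimensional (ZMod p) M]
    (hM : IsSmoothRep (Levels.unr S) (MonoidHom.id GQ) M)
    (hA : IsSmoothRep (Levels.unr S) (MonoidHom.id GQ) A)
    (P : DualPair p (cycloChar p) A M) {U : Subgroup GQ}
    (hU : IsLevelSubgroup (Levels.unr S) (MonoidHom.id GQ) U)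
    (hχ : ∀ g ∈ U, cycloChar p g = 1)
    (hfM : ∀ (W : Submodule (ZMod p) M), (∀ g ∈ U, ∀ w ∈ W, M.ρ g w ∈ W) → W ≠ ⊤ →
      ∃ m ∉ W, ∀ g ∈ U, M.ρ g m - m ∈ W)
    (hfA : ∀ (W : Submodule (ZMod p) A), (∀ g ∈ U, ∀ w ∈ W, A.ρ g w ∈ W) → W ≠ ⊤ →
      ∃ m ∉ W, ∀ g ∈ U, A.ρ g m - m ∈ W) :
    finrank (ZMod p) (Sha2 S (funRep M U)) = finrank (ZMod p) (Sha1 S (funRep A U)) := by
  haveI : Finite (GQ ⧸ U) := hU.finite_quotient
  have hL := Levels.hasNormal_unr S
  have hNM := isSmoothRep_funRep hL hU hM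
  have hNA := isSmoothRep_funRep hL hU hA
  haveI := finiteDimensional_funRep M U
  haveI := finiteDimensional_funRep A U
  haveI := finite_H1c_unr S hpS _ hNM
  haveI := finite_H1c_unr S hpS _ hNA
  haveI := finite_H2c_unr hp2 S hpS _ hNM
  haveI := finite_H2c_unr hp2 S hpS _ hNA
  let Q := funPair P U
  have hdim : finrank (ZMod p) A = finrank (ZMod p) M := by
    refine le_antisymm ?_ ?_
    · exact (LinearMap.finrank_le_finrank_of_injective (f := P.β)
        ((injective_iff_map_eq_zero P.β).2 fun a h => P.left a fun m => by rw [h]; rfl)).trans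
        Subspace.dual_finrank_eq.le
    · exact (LinearMap.finrank_le_finrank_of_injective (f := P.β.flip)
        ((injective_iff_map_eq_zero P.β.flip).2 fun m h => P.right m fun a => by
          rw [← LinearMap.flip_apply P.β, h]; rfl)).trans Subspace.dual_finrank_eq.le
  have g1 := finrank_G2_add hp2 hpS hNA hNM Q (exact_H2 hp2 hpS hNA hNM Q)
  have g2 := finrank_G2_add hp2 hpS hNM hNA Q.swap (exact_H2 hp2 hpS hNM hNA Q.swap)
  have i := finrank_images_le hp2 hpS hNA hNM Q
  have e1 := layered_euler_le hp2 hpS hM hU hχ hfM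
  have e2 := layered_euler_le hp2 hpS hA hU hχ hfA
  have l := sum_finrank_Lo1_le hp2 hpS hM hA P hU hχ hfM
  have t1 := finrank_sha1_le hp2 hpS hNA hNM Q
  have t2 := finrank_sha1_le hp2 hpS hNM hNA Q.swap
  have s1 := Submodule.finrank_le (Sha1 S (funRep A U))
  have s2 := Submodule.finrank_le (Sha1 S (funRep M U))
  rw [hdim] at e2
  omega

end Fermat.Agent.CFT.Sha
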