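import Fermat.Agent.CFT.Setup
import Fermat.Agent.CFT.Global.Defs
import Fermat.Agent.CFT.Sha.DescentTools

/-!
# Realising a carry class by an `S`-level class with values in `μ_p`

Write `U = ⋃ σ^j U'`. A power prime to `p` of `a` is, modulo elements which are units at every
place outside `S`, the norm of a `p ^ k`-th root `γ` of an element of the fixed field of `U'`.
This gives a `1`-cochain `x` of an `S`-level with `x ^ p` explicit, and `dx` removes the carry
cocycle up to `μ_p`.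
-/

set_option autoImplicit false

open CategoryTheory groupCohomology ExtCitation

noncomputable section

namespace Fermat.Agent.CFT.Sha

variable {p : ℕ} [Fact p.Prime] {S : Finset Nat.Primes} {U' U : Subgroup GQ}

/-- The carry cocycle of a character with values in `ℤ/p`. -/
def stepCarry (i : U → ZMod p) (g : U × U) : ℕ :=
  if p ≤ (i g.1).val + (i g.2).val then 1 else 0

/-- Carries count the failure of the least residues to add up. -/
theorem stepCarry_spec {i : U → ZMod p} (hi : ∀ s t, i (s * t) = i s + i t) (s t : U) :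
    (i (s * t)).val + p * stepCarry i (s, t) = (i s).val + (i t).val := by
  rw [hi]
  unfold stepCarry
  split_ifs with h
  · rw [mul_one, ZMod.val_add_val_of_le h, add_comm]
  · rw [mul_zero, add_zero, ZMod.val_add_of_lt (not_le.1 h)]

/-- The carries form a `2`-cocycle. -/
theorem stepCarry_cocycle {i : U → ZMod p} (hi : ∀ s t, i (s * t) = i s + i t) (s t r : U) :
    stepCarry i (s * t, r) + stepCarry i (s, t) =
      stepCarry i (t, r) + stepCarry i (s, t * r) := by
  have h1 := stepCarry_spec hi (s * t) r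
  have h2 := stepCarry_spec hi s t
  have h3 := stepCarry_spec hi t r
  have h4 := stepCarry_spec hi s (t * r)
  rw [mul_assoc] at h1
  refine Nat.eq_of_mul_eq_mul_left (Fact.out : p.Prime).pos ?_
  rw [mul_add, mul_add]
  omega

/-- Shifting the weights of a periodic sequence. -/
theorem prod_shift_pow {M : Type*} [CommGroup M] (n : ℕ) (e : ℕ → M) (he : ∀ j, e (j + n) = e j)
    (I : ℕ) :
    (∏ j ∈ Finset.range n, e (j + I) ^ j) * (∏ j ∈ Finset.range n, e j) ^ I =
      (∏ j ∈ Finset.range n, e j ^ j) * (∏ j ∈ Finset.range I, e j) ^ n := by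
  have hE : ∀ k, ∏ j ∈ Finset.range n, e (j + k) = ∏ j ∈ Finset.range n, e j := by
    intro k
    induction k with
    | zero => simp
    | succ k ih =>
      have h1 := Finset.prod_range_succ (fun j => e (j + k)) n
      rw [Finset.prod_range_succ' (fun j => e (j + k)) n, add_comm n k, he, zero_add] at h1
      rw [← ih]
      refine (Finset.prod_congr rfl fun j _ => ?_).trans (mul_right_cancel h1)
      rw [add_right_comm, ← add_assoc]
  induction I with
  | zero => simp
  | succ I ih =>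
    have h1 := Finset.prod_range_succ (fun j => e (j + I) ^ j) n
    rw [Finset.prod_range_succ' (fun j => e (j + I) ^ j) n, pow_zero, mul_one, add_comm n I,
      he] at h1
    simp only [pow_succ (e (_ + _ + _)), Finset.prod_mul_distrib] at h1
    have h2 : ∀ j, e (j + 1 + I) = e (j + (I + 1)) := fun j => by
      rw [add_assoc, add_comm 1 I]
    simp only [h2] at h1
    rw [hE] at h1
    rw [pow_succ (∏ j ∈ Finset.range n, e j), Finset.prod_range_succ, mul_pow, ← mul_assoc,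
      mul_right_comm _ ((∏ j ∈ Finset.range n, e j) ^ I), h1, mul_right_comm, ih, mul_assoc]

theorem galNorm_finset_prod {ι : Type*} (q : Nat.Primes) (g : GQ) (s : Finset ι)
    (f : ι → AlgebraicClosure ℚ) : galNorm q g (∏ j ∈ s, f j) = ∏ j ∈ s, galNorm q g (f j) := by
  simp [galNorm, map_prod, norm_prod]

/-- Elements with the same absolute values outside `S` agree modulo `unitsOff S`. -/
theorem mk_unitsOff_eq {a b : (AlgebraicClosure ℚ)ˣ}
    (h : ∀ q ∉ S, ∀ g, galNorm q g (a : AlgebraicClosure ℚ) =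
      galNorm q g (b : AlgebraicClosure ℚ)) :
    (a : (AlgebraicClosure ℚ)ˣ ⧸ unitsOff S) = b := by
  refine QuotientGroup.eq.2 fun q hq g => ?_
  rw [Units.val_mul, Units.val_inv_eq_inv_val, galNorm_mul, galNorm_inv, h q hq g,
    inv_mul_cancel₀ (galNorm_pos q g b.ne_zero).ne']

section Char

variable {i : U → ZMod p}

theorem char_one (hi : ∀ s t, i (s * t) = i s + i t) : i 1 = 0 := by
  simpa using hi 1 1

theorem char_pow (hi : ∀ s t, i (s * t) = i s + i t) (s : U) (n : ℕ) :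
    i (s ^ n) = n * i s := by
  induction n with
  | zero => simp [char_one hi]
  | succ n ih => rw [pow_succ, hi, ih, Nat.cast_succ, add_mul, one_mul]

theorem char_inv (hi : ∀ s t, i (s * t) = i s + i t) (s : U) : i s⁻¹ = -i s := by
  rw [eq_neg_iff_add_eq_zero, ← hi, inv_mul_cancel, char_one hi]

theorem exists_char_eq_one (h : KummerStep p U' U) (hi : ∀ s t, i (s * t) = i s + i t)
    (hker : ∀ s : U, i s = 0 ↔ (s : GQ) ∈ U') : ∃ σ : U, i σ = 1 := by
  obtain ⟨u, hu⟩ : ∃ u : U, i u ≠ 0 := by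
    by_contra hc
    simp only [not_exists, not_not] at hc
    have h1 : U'.relIndex U = 1 :=
      Subgroup.relIndex_eq_one.2 fun u hu => (hker ⟨u, hu⟩).1 (hc ⟨u, hu⟩)
    exact (Fact.out : p.Prime).one_lt.ne (h1.symm.trans h.index)
  refine ⟨u ^ ((i u)⁻¹).val, ?_⟩
  rw [char_pow hi, ZMod.natCast_zmod_val, inv_mul_cancel₀ hu]

/-- The fibres of `GQ ⧸ U' → GQ ⧸ U` are orbits of a lift of a generator. -/
theorem normFun_mk_eq_prod {X : Type*} [CommGroup X] (h : KummerStep p U' U)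
    (hi : ∀ s t, i (s * t) = i s + i t) (hker : ∀ s : U, i s = 0 ↔ (s : GQ) ∈ U')
    {σ : U} (hσ : i σ = 1) (f : GQ ⧸ U' → X) (g : GQ) :
    normFun h.le f (QuotientGroup.mk g) =
      ∏ j ∈ Finset.range p, f (QuotientGroup.mk (g * (σ : GQ) ^ j)) := by
  have := finite_quot_of_isLevelSubgroup h.level
  rw [normFun_eq_prod]
  refine (Finset.prod_bij (fun j _ => (QuotientGroup.mk (g * (σ : GQ) ^ j) : GQ ⧸ U'))
    (fun j _ => ?_) (fun a ha b hb hab => ?_) (fun y hy => ?_) (fun _ _ => rfl)).symm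
  · rw [mem_projFibre, quotProj_mk, QuotientGroup.eq]
    simpa using U.pow_mem σ.2 j
  · rw [QuotientGroup.eq] at hab
    have h1 : (((σ ^ a)⁻¹ * σ ^ b : U) : GQ) ∈ U' := by
      simpa [mul_assoc] using hab
    rw [← hker, hi, char_inv hi, char_pow hi, char_pow hi, hσ, mul_one, mul_one,
      neg_add_eq_zero, ZMod.natCast_eq_natCast_iff', Nat.mod_eq_of_lt (Finset.mem_range.1 ha),
      Nat.mod_eq_of_lt (Finset.mem_range.1 hb)] at h1
    exact h1
  · obtain ⟨k, rfl⟩ := QuotientGroup.mk_surjective y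
    rw [mem_projFibre, quotProj_mk, QuotientGroup.eq] at hy
    have hu : g⁻¹ * k ∈ U := by simpa using U.inv_mem hy
    refine ⟨(i ⟨_, hu⟩).val, Finset.mem_range.2 (ZMod.val_lt _), QuotientGroup.eq.2 ?_⟩
    have h1 := (hker ((σ ^ (i ⟨_, hu⟩).val)⁻¹ * ⟨_, hu⟩)).1 (by
      rw [hi, char_inv hi, char_pow hi, hσ, mul_one, ZMod.natCast_zmod_val, neg_add_cancel])
    simpa [mul_assoc] using h1

end Char

/-- The element `γ`. -/
theorem exists_descent_root (hpS : pPrime p ∈ S) (h : KummerStep p U' U)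
    (hU' : IsLevelSubgroup (Levels.unr S) (MonoidHom.id GQ) U') (i : U → ZMod p)
    (hi : ∀ s t, i (s * t) = i s + i t) (hker : ∀ s : U, i s = 0 ↔ (s : GQ) ∈ U')
    (a : (AlgebraicClosure ℚ)ˣ) (ha : a ∈ fixedUnits U) (T : Finset Nat.Primes)
    (hT : ∀ q ∈ T, q ∉ S → ∃ g ∈ placePts q U', normFun h.le g = diag q U a)
    (hout : ∀ q ∉ S, q ∉ T → ∀ x, ‖(diag q U a x : Omega q)‖ = 1) {σ : U} (hσ : i σ = 1) :
    ∃ m : ℕ, ¬ p ∣ m ∧ ∃ γ : (AlgebraicClosure ℚ)ˣ,
      (∀ q ∉ S, ∀ A : ValuationSubring (AlgebraicClosure ℚ),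
        A.LiesOverPrime ((q : Nat.Primes) : ℕ) →
        ∀ s ∈ A.inertiaSubgroupIn ℚ, galUnit s γ = γ) ∧
      (∀ w u : GQ, u ∈ U' →
        (galUnit (w * u) γ : (AlgebraicClosure ℚ)ˣ ⧸ unitsOff S) = galUnit w γ) ∧
      ((∏ j ∈ Finset.range p, galUnit ((σ : GQ) ^ j) γ : (AlgebraicClosure ℚ)ˣ) :
          (AlgebraicClosure ℚ)ˣ ⧸ unitsOff S) = (a ^ m : (AlgebraicClosure ℚ)ˣ) := by
  classical
  obtain ⟨F₀, hF₀, hle₀⟩ := hU'
  have : FiniteDimensional ℚ F₀ := hF₀.1
  have hp := (Fact.out : p.Prime)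
  set T' := T.filter (· ∉ S)
  have hT' : ∀ q, q ∈ T' ↔ q ∈ T ∧ q ∉ S := fun q => Finset.mem_filter
  have hg0 : ∀ q : Nat.Primes, ∃ g ∈ placePts q U', q ∈ T' → normFun h.le g = diag q U a := by
    intro q
    by_cases hq : q ∈ T'
    · obtain ⟨g, hg, e⟩ := hT q ((hT' q).1 hq).1 ((hT' q).1 hq).2
      exact ⟨g, hg, fun _ => e⟩
    · exact ⟨1, one_mem _, fun h' => absurd h' hq⟩
  choose gl hgl hnorm using hg0
  obtain ⟨N, hN, β, hβU, hβT, hβ1⟩ :=
    exists_fixed_prescribed_pow h.level T' gl (fun q _ => hgl q)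
  obtain ⟨k, m, hm, hNm⟩ := Nat.exists_eq_pow_mul_and_not_dvd hN p hp.ne_one
  obtain ⟨γ, hγ⟩ := IsAlgClosed.exists_pow_nat_eq (β : AlgebraicClosure ℚ) (pow_pos hp.pos k)
  have hγ0 : γ ≠ 0 := by
    rintro rfl
    rw [zero_pow (pow_ne_zero k hp.ne_zero)] at hγ
    exact β.ne_zero hγ.symm
  have hn1 : ∀ q ∈ T', ∀ g : GQ,
      galNorm q g γ = ‖(gl q (QuotientGroup.mk g) : Omega q)‖ ^ m := by
    intro q hq g
    refine (pow_left_inj₀ (galNorm_pos q g hγ0).le (pow_nonneg (norm_nonneg _) _)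
      (pow_ne_zero k hp.ne_zero)).1 ?_
    rw [← galNorm_pow, hγ, ← norm_diag_mk_eq_galNorm hβU, hβT q hq, ← pow_mul, mul_comm m,
      ← hNm]
  have hn0 : ∀ q, q ∉ T' → ∀ g : GQ, galNorm q g γ = 1 := by
    intro q hq g
    refine (pow_eq_one_iff_of_nonneg (galNorm_pos q g hγ0).le (pow_ne_zero k hp.ne_zero)).1 ?_
    rw [← galNorm_pow, hγ, ← norm_diag_mk_eq_galNorm hβU, hβ1 q hq]
  refine ⟨m, hm, Units.mk0 γ hγ0, fun q hq A hA s hs => ?_, fun w u hu => ?_, ?_⟩
  · refine Units.ext ?_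
    rw [galUnit_coe, Units.val_mk0]
    have hsU : s ∈ U' := hle₀ s (hF₀.2 q hq A hA hs)
    refine inertia_fix_root hA (n := p ^ k) (fun hd => ?_) hγ0 (fun g => ?_) hs
      (by rw [hγ]; exact hβU s hsU)
    · exact hq ((Subtype.ext ((Nat.prime_dvd_prime_iff_eq q.2 hp).1 (q.2.dvd_of_dvd_pow hd)) :
        q = pPrime p) ▸ hpS)
    · by_cases hqT : q ∈ T'
      · obtain ⟨b, hb, -, hbn⟩ := exists_fixedUnits_approx h.level (QuotientGroup.mk g)
          (placePts_apply_mem (hgl q) (QuotientGroup.mk g)) one_pos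
        have hbF : (b : AlgebraicClosure ℚ) ∈ F₀ := by
          rw [← InfiniteGalois.fixedField_fixingSubgroup F₀]
          exact fun t => hb t (hle₀ t t.2)
        obtain ⟨j, hj⟩ := exists_galNorm_eq_zpow (F := F₀)
          (fun A hA s hs => hF₀.2 q hq A hA hs) g hbF b.ne_zero
        refine ⟨j * m, ?_⟩
        rw [hn1 q hqT, ← hbn, norm_diag_mk_eq_galNorm hb, hj, zpow_mul, zpow_natCast]
      · exact ⟨0, by rw [hn0 q hqT, zpow_zero]⟩
  · refine mk_unitsOff_eq fun q hq g => ?_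
    rw [galUnit_coe, galUnit_coe, Units.val_mk0]
    show galNorm q (g * (w * u)) γ = galNorm q (g * w) γ
    by_cases hqT : q ∈ T'
    · rw [hn1 q hqT, hn1 q hqT, show (QuotientGroup.mk (g * (w * u)) : GQ ⧸ U') =
        QuotientGroup.mk (g * w) from QuotientGroup.eq.2 (by simpa [mul_assoc] using hu)]
    · rw [hn0 q hqT, hn0 q hqT]
  · refine mk_unitsOff_eq fun q hq g => ?_
    rw [Units.coe_prod, galNorm_finset_prod, Units.val_pow_eq_pow_val, galNorm_pow,
      ← norm_diag_mk_eq_galNorm ha]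
    have e : ∀ j, galNorm q g (galUnit ((σ : GQ) ^ j) (Units.mk0 γ hγ0) : AlgebraicClosure ℚ) =
        galNorm q (g * (σ : GQ) ^ j) γ := fun j => rfl
    simp only [e]
    by_cases hqT : q ∈ T'
    · simp only [hn1 q hqT]
      rw [Finset.prod_pow, ← hnorm q hqT, normFun_mk_eq_prod h hi hker hσ, Units.coe_prod,
        norm_prod]
    · rw [Finset.prod_eq_one fun j _ => hn0 q hqT _,
        hout q hq fun hqT0 => hqT ((hT' q).2 ⟨hqT0, hq⟩), one_pow]

/-- The `1`-cochain `x`. -/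
theorem exists_descent_cochain (hpS : pPrime p ∈ S) (h : KummerStep p U' U)
    (hU' : IsLevelSubgroup (Levels.unr S) (MonoidHom.id GQ) U') {i : U → ZMod p}
    (hi : ∀ s t, i (s * t) = i s + i t) (hker : ∀ s : U, i s = 0 ↔ (s : GQ) ∈ U')
    {a : (AlgebraicClosure ℚ)ˣ} (ha : a ∈ fixedUnits U) {σ : U} (hσ : i σ = 1) {m : ℕ}
    {γ : (AlgebraicClosure ℚ)ˣ}
    (hfix : ∀ q ∉ S, ∀ A : ValuationSubring (AlgebraicClosure ℚ),
        A.LiesOverPrime ((q : Nat.Primes) : ℕ) →
        ∀ s ∈ A.inertiaSubgroupIn ℚ, galUnit s γ = γ)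
    (hP : ∀ w u : GQ, u ∈ U' →
        (galUnit (w * u) γ : (AlgebraicClosure ℚ)ˣ ⧸ unitsOff S) = galUnit w γ)
    (hN : ((∏ j ∈ Finset.range p, galUnit ((σ : GQ) ^ j) γ : (AlgebraicClosure ℚ)ˣ) :
          (AlgebraicClosure ℚ)ˣ ⧸ unitsOff S) = (a ^ m : (AlgebraicClosure ℚ)ˣ)) :
    ∃ (δ : (AlgebraicClosure ℚ)ˣ) (x : U → (AlgebraicClosure ℚ)ˣ),
      (∀ s, x s ^ p = a ^ (m * (i s).val) * (galUnit s δ / δ)) ∧
      ∃ E : IntermediateField ℚ (AlgebraicClosure ℚ), E.IsUnramifiedOutside S ∧ Normal ℚ E ∧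
        (∀ g s : U, (s : GQ) ∈ E.fixingSubgroup →
          x (g * s) = x g ∧ i (g * s) = i g ∧ galUnit (s : GQ) (x g) = x g) := by
  classical
  have hp := (Fact.out : p.Prime)
  obtain ⟨F₀, hF₀, hle₀⟩ := hU'
  have hγF : (IntermediateField.adjoin ℚ {(γ : AlgebraicClosure ℚ)}).IsUnramifiedOutside S :=
    isUnramifiedOutside_adjoin (Set.finite_singleton _) fun x hx q hq A hA s hs => by
      rw [Set.mem_singleton_iff.1 hx]
      exact congrArg Units.val (hfix q hq A hA s hs)
  obtain ⟨F, hF, hFn, hF0, hFγ⟩ :=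
    Levels.exists_normal₂ (Levels.normalBasis_unr S) (L := Levels.unr S) hF₀ hγF
  have hFU' : ∀ s : GQ, s ∈ F.fixingSubgroup → s ∈ U' := fun s hs =>
    hle₀ s (IntermediateField.fixingSubgroup_antitone hF0 hs)
  -- conjugates of `γ` lie in `F`
  have hconj : ∀ s g : GQ, s ∈ F.fixingSubgroup → galUnit s (galUnit g γ) = galUnit g γ := by
    intro s g hs
    have h1 := (IntermediateField.mem_fixingSubgroup_iff _ _).1
      (conj_mem_level (r := MonoidHom.id GQ) hFn hs g) _
      (hFγ (IntermediateField.mem_adjoin_simple_self ℚ (γ : AlgebraicClosure ℚ)))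
    refine Units.ext ?_
    simp only [MonoidHom.id_apply, AlgEquiv.mul_apply] at h1
    rw [galUnit_coe, galUnit_coe]
    exact (g.apply_symm_apply _).symm.trans (congrArg g h1)
  set δ : (AlgebraicClosure ℚ)ˣ := ∏ j ∈ Finset.range p, galUnit ((σ : GQ) ^ j) γ ^ j
  set f : ℕ → (AlgebraicClosure ℚ)ˣ := fun I => ∏ j ∈ Finset.range I, galUnit ((σ : GQ) ^ j) γ
  set h' : U → (AlgebraicClosure ℚ)ˣ := fun s =>
    a ^ (m * (i s).val) * (galUnit s δ / δ) / f (i s).val ^ p
  -- `h'` takes values in the units away from `S`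
  set e : ℕ → (AlgebraicClosure ℚ)ˣ ⧸ unitsOff S := fun j => (galUnit ((σ : GQ) ^ j) γ)
  have hmove : ∀ (s t : U), i s = i t →
      (galUnit s γ : (AlgebraicClosure ℚ)ˣ ⧸ unitsOff S) = galUnit t γ := by
    intro s t hst
    have hu : ((t⁻¹ * s : U) : GQ) ∈ U' := (hker _).1 (by
      rw [hi, char_inv hi, hst, neg_add_cancel])
    have := hP t _ hu
    rwa [← Subgroup.coe_mul, mul_inv_cancel_left] at this
  have he : ∀ j, e (j + p) = e j := fun j => by
    have := hmove (σ ^ (j + p)) (σ ^ j) (by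
      rw [char_pow hi, char_pow hi, Nat.cast_add, ZMod.natCast_self, add_zero])
    simpa [e] using this
  have hh : ∀ s, h' s ∈ unitsOff S := by
    intro s
    set I := (i s).val
    rw [← QuotientGroup.eq_one_iff]
    have h1 : ∀ j, (galUnit (s : GQ) (galUnit ((σ : GQ) ^ j) γ) :
        (AlgebraicClosure ℚ)ˣ ⧸ unitsOff S) = e (j + I) := fun j => by
      rw [← galUnit_mul]
      have := hmove (s * σ ^ j) (σ ^ (j + I)) (by
        rw [hi, char_pow hi, char_pow hi, hσ, mul_one, mul_one, Nat.cast_add,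
          ZMod.natCast_zmod_val, add_comm])
      simpa [e] using this
    have h2 : ((galUnit (s : GQ) δ : (AlgebraicClosure ℚ)ˣ) :
        (AlgebraicClosure ℚ)ˣ ⧸ unitsOff S) = ∏ j ∈ Finset.range p, e (j + I) ^ j := by
      simp only [δ, map_prod, map_pow, QuotientGroup.mk_prod, QuotientGroup.mk_pow, h1]
    have h3 : ((a ^ (m * I) : (AlgebraicClosure ℚ)ˣ) : (AlgebraicClosure ℚ)ˣ ⧸ unitsOff S) =
        (∏ j ∈ Finset.range p, e j) ^ I := by
      rw [pow_mul, QuotientGroup.mk_pow, ← hN, QuotientGroup.mk_prod]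
    have h4 := prod_shift_pow p e he I
    have h5 : (δ : (AlgebraicClosure ℚ)ˣ ⧸ unitsOff S) = ∏ j ∈ Finset.range p, e j ^ j := by
      simp only [δ, e, QuotientGroup.mk_prod, QuotientGroup.mk_pow]
    have h6 : (f I : (AlgebraicClosure ℚ)ˣ ⧸ unitsOff S) = ∏ j ∈ Finset.range I, e j := by
      simp only [f, e, QuotientGroup.mk_prod]
    change ((a ^ (m * I) * (galUnit (s : GQ) δ / δ) / f I ^ p : (AlgebraicClosure ℚ)ˣ) :
      (AlgebraicClosure ℚ)ˣ ⧸ unitsOff S) = 1
    rw [QuotientGroup.mk_div, QuotientGroup.mk_mul, QuotientGroup.mk_div, h2, h3, h5,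
      QuotientGroup.mk_pow, h6, div_eq_one, ← mul_div_assoc, div_eq_iff_eq_mul,
      mul_comm ((∏ j ∈ Finset.range p, e j) ^ I), h4]
    exact mul_comm (∏ j ∈ Finset.range p, e j ^ j) _
  have hroot : ∀ b : (AlgebraicClosure ℚ)ˣ, ∃ r : (AlgebraicClosure ℚ)ˣ, r ^ p = b := fun b => by
    obtain ⟨r, hr⟩ := IsAlgClosed.exists_pow_nat_eq (b : AlgebraicClosure ℚ) hp.pos
    exact ⟨Units.mk0 r (by
      rintro rfl
      rw [zero_pow hp.ne_zero] at hr
      exact b.ne_zero hr.symm), Units.ext (by simpa using hr)⟩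
  choose root hroot using hroot
  set x : U → (AlgebraicClosure ℚ)ˣ := fun s => f (i s).val * root (h' s)
  -- invariance under `F`
  have hδ : ∀ s ∈ F.fixingSubgroup, galUnit s δ = δ := fun s hs => by
    simp only [δ, map_prod, map_pow, hconj s _ hs]
  have hfF : ∀ I, ∀ s ∈ F.fixingSubgroup, galUnit s (f I) = f I := fun I s hs => by
    simp only [f, map_prod, hconj s _ hs]
  have hh'F : ∀ (t : U), ∀ s ∈ F.fixingSubgroup, galUnit s (h' t) = h' t := fun t s hs => by
    have hsU : s ∈ U := h.le (hFU' s hs)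
    have hd : galUnit s (galUnit (t : GQ) δ) = galUnit (t : GQ) δ := by
      simp only [δ, map_prod, map_pow, ← galUnit_mul (t : GQ)]
      simp only [hconj s _ hs]
    have hsa : galUnit s a = a := Units.ext (ha s hsU)
    simp only [h', map_div, map_mul, map_pow, hsa, hd, hδ s hs, hfF _ s hs]
  have hxF : ∀ g s : U, (s : GQ) ∈ F.fixingSubgroup → i (g * s) = i g ∧ x (g * s) = x g := by
    intro g s hs
    have h1 : i (g * s) = i g := by rw [hi, (hker s).2 (hFU' _ hs), add_zero]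
    refine ⟨h1, ?_⟩
    simp only [x, h', h1, Subgroup.coe_mul, galUnit_mul, hδ _ hs]
  -- the values of `x` span an `S`-level
  have hxfix : ∀ t : U, ∀ q ∉ S, ∀ A : ValuationSubring (AlgebraicClosure ℚ),
      A.LiesOverPrime ((q : Nat.Primes) : ℕ) → ∀ s ∈ A.inertiaSubgroupIn ℚ,
      galUnit s (x t) = x t := by
    intro t q hq A hA s hs
    have hsF : s ∈ F.fixingSubgroup := hF.2 q hq A hA hs
    simp only [x, map_mul, hfF _ s hsF]
    refine congrArg (_ * ·) (Units.ext ?_)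
    rw [galUnit_coe]
    refine inertia_fix_root hA (n := p) (fun hd => ?_) (root (h' t)).ne_zero
      (fun g => ⟨0, ?_⟩) hs ?_
    · exact hq ((Subtype.ext ((Nat.prime_dvd_prime_iff_eq q.2 hp).1 hd) : q = pPrime p) ▸ hpS)
    · rw [zpow_zero]
      refine (pow_eq_one_iff_of_nonneg (galNorm_pos q g (root (h' t)).ne_zero).le hp.ne_zero).1 ?_
      rw [← galNorm_pow, ← Units.val_pow_eq_pow_val, hroot]
      exact hh t q hq g
    · rw [← Units.val_pow_eq_pow_val, hroot, ← galUnit_coe, hh'F t s hsF]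
  have hfinite : (Set.range fun t : U => (x t : AlgebraicClosure ℚ)).Finite := by
    have := finite_quot_of_isLevelSubgroup (U := F.fixingSubgroup) ⟨F, hF.1, fun s hs => hs⟩
    refine (Set.finite_range fun z : GQ ⧸ F.fixingSubgroup =>
      if hz : ∃ t : U, QuotientGroup.mk (t : GQ) = z then
        (x hz.choose : AlgebraicClosure ℚ) else 0).subset ?_
    rintro _ ⟨t, rfl⟩
    have hz : ∃ t' : U, (QuotientGroup.mk (t' : GQ) : GQ ⧸ F.fixingSubgroup) =
        QuotientGroup.mk (t : GQ) := ⟨t, rfl⟩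
    refine ⟨QuotientGroup.mk (t : GQ), ?_⟩
    simp only [dif_pos hz]
    have h1 := (hxF hz.choose (hz.choose⁻¹ * t) (by
      simpa using QuotientGroup.eq.1 hz.choose_spec)).2
    rw [mul_inv_cancel_left] at h1
    exact congrArg Units.val h1.symm
  obtain ⟨E, hE, hEn, hEF, hEx⟩ := Levels.exists_normal₂ (Levels.normalBasis_unr S)
    (L := Levels.unr S) hF (isUnramifiedOutside_adjoin hfinite (by
      rintro _ ⟨t, rfl⟩ q hq A hA s hs
      exact congrArg Units.val (hxfix t q hq A hA s hs)))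
  refine ⟨δ, x, fun s => ?_, E, hE, hEn, fun g s hs => ?_⟩
  · simp only [x, mul_pow, hroot, h']
    rw [mul_div_cancel]
  · have := hxF g s (IntermediateField.fixingSubgroup_antitone hEF hs)
    exact ⟨this.2, this.1, Units.ext ((IntermediateField.mem_fixingSubgroup_iff _ _).1 hs _
      (hEx (IntermediateField.subset_adjoin ℚ _ ⟨g, rfl⟩)))⟩

/-- If `a` is a local norm at the places of `T` outside `S` and a unit outside `S ∪ T`, then, up to
a power prime to `p`, its carry class comes from `H²(G_{L,S}, μ_p)`. -/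
theorem exists_unr_carry_class (hp2 : p ≠ 2) (hpS : pPrime p ∈ S) (h : KummerStep p U' U)
    (hU' : IsLevelSubgroup (Levels.unr S) (MonoidHom.id GQ) U') (i : U → ZMod p)
    (hi : ∀ s t, i (s * t) = i s + i t) (hker : ∀ s : U, i s = 0 ↔ (s : GQ) ∈ U')
    (a : (AlgebraicClosure ℚ)ˣ) (ha : a ∈ fixedUnits U) (T : Finset Nat.Primes)
    (hT : ∀ q ∈ T, q ∉ S → ∃ g ∈ placePts q U', normFun h.le g = diag q U a)
    (hout : ∀ q ∉ S, q ∉ T → ∀ x, ‖(diag q U a x : Omega q)‖ = 1) :
    ∃ m : ℕ, ¬ p ∣ m ∧ ∃ c : ↥(Z2 (Levels.unr S) U.subtype (muSub p U)),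
      ∃ f : U → (AlgebraicClosure ℚ)ˣ, IsConst₁ Levels.all U.subtype f ∧ ∀ s t : U,
        (muInc p (c.1 (s, t)) : AlgebraicClosure ℚ) =
          (s : GQ) (f t) / f (s * t) * f s *
            (a : AlgebraicClosure ℚ) ^ (m * stepCarry i (s, t)) := by
  clear hp2
  obtain ⟨σ, hσ⟩ := exists_char_eq_one h hi hker
  obtain ⟨m, hm, γ, hfix, hP, hN⟩ := exists_descent_root hpS h hU' i hi hker a ha T hT hout hσ
  obtain ⟨δ, x, hx, E, hE, hEn, hEfix⟩ :=
    exists_descent_cochain hpS h hU' hi hker ha hσ hfix hP hN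
  set D : U → (AlgebraicClosure ℚ)ˣ := fun s => galUnit (s : GQ) δ / δ
  have hD : ∀ s t : U, D (s * t) = galUnit (s : GQ) (D t) * D s := fun s t => by
    simp only [D, map_div, Subgroup.coe_mul, galUnit_mul]
    rw [div_mul_div_cancel]
  have hau : ∀ s : U, galUnit (s : GQ) a = a := fun s => Units.ext (ha s s.2)
  set c'' : U × U → (AlgebraicClosure ℚ)ˣ := fun z =>
    galUnit (z.1 : GQ) (x z.2)⁻¹ / (x (z.1 * z.2))⁻¹ * (x z.1)⁻¹ *
      a ^ (m * stepCarry i z)
  have hc''p : ∀ z, c'' z ^ p = 1 := fun ⟨s, t⟩ => by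
    have hI : m * stepCarry i (s, t) * p + m * (i (s * t)).val
        = m * (i t).val + m * (i s).val := by
      rw [← mul_add, add_comm (i t).val, ← stepCarry_spec hi s t]
      ring
    have key : x (s * t) ^ p * a ^ (m * stepCarry i (s, t) * p) =
        galUnit (s : GQ) (x t) ^ p * x s ^ p := by
      rw [← map_pow, hx, hx, hx, map_mul, map_pow, hau]
      change a ^ _ * D (s * t) * a ^ _ = a ^ _ * galUnit (s : GQ) (D t) * (a ^ _ * D s)
      rw [hD, mul_mul_mul_comm, mul_right_comm, ← pow_add, ← pow_add,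
        add_comm (m * (i (s * t)).val), hI]
    simp only [c'', mul_pow, div_pow, map_inv, inv_pow, ← pow_mul a]
    rw [div_inv_eq_mul, mul_right_comm _ ((x s ^ p)⁻¹), mul_assoc _ (x (s * t) ^ p), key,
      inv_mul_cancel_left, mul_inv_cancel]
  set c : U × U → muSub p U := fun z => muLog (c'' z)
  have hc : ∀ z, muInc p (c z) = c'' z := fun z => muInc_muLog (hc''p z)
  have hcfix : ∀ (g : U) (z : U × U), galUnit (g : GQ) (c'' z) = c'' z := fun g z => by
    rw [← hc]
    exact Units.ext (gal_muInc_of_eq_one (h.mu g g.2) _)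
  have hcoc : c ∈ cocycles₂ (muSub p U) := by
    rw [mem_cocycles₂_iff]
    intro g k j
    have hρ : (muSub p U).ρ g (c (k, j)) = c (k, j) := by
      change (cycloChar p (g : GQ) : ZMod p) * c (k, j) = c (k, j)
      rw [h.mu g g.2, Units.val_one, one_mul]
    rw [hρ]
    refine muInc_injective (p := p) ?_
    rw [muInc_add, muInc_add, hc, hc, hc, hc]
    conv_rhs => rw [← hcfix g (k, j)]
    have hcar := congrArg (fun n => a ^ (m * n)) (stepCarry_cocycle hi g k j)
    simp only [mul_add, pow_add] at hcar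
    simp only [c'', map_mul, map_div, map_inv, map_pow, hau, Subgroup.coe_mul,
      ← galUnit_mul, mul_assoc g k j]
    apply Units.ext
    have hcar' := congrArg Units.val hcar
    push_cast at hcar' ⊢
    field_simp
    linear_combination hcar'
  have hconst : IsConst₂ (Levels.unr S) U.subtype c'' := by
    refine ⟨E, hE, fun g g' s s' hs hs' => ?_⟩
    have hcj : ((g'⁻¹ * s * g' : U) : GQ) ∈ E.fixingSubgroup :=
      conj_mem_level (r := U.subtype) hEn hs g'
    have h1 : g * s * (g' * s') = g * g' * (g'⁻¹ * s * g') * s' := by group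
    have h2 : x (g * s * (g' * s')) = x (g * g') := by
      rw [h1, (hEfix _ _ hs').1, (hEfix _ _ hcj).1]
    have h3 : stepCarry i (g * s, g' * s') = stepCarry i (g, g') := by
      simp only [stepCarry, (hEfix g s hs).2.1, (hEfix g' s' hs').2.1]
    simp only [c'', h2, h3, (hEfix g s hs).1, (hEfix g' s' hs').1, Subgroup.coe_mul, galUnit_mul,
      map_inv, (hEfix g' s hs).2.2]
  refine ⟨m, hm, ⟨c, hcoc, hconst.comp muLog⟩, fun s => (x s)⁻¹, ?_, fun s t => ?_⟩
  · exact ⟨E, hE.1, fun g s hs => congrArg (·⁻¹) (hEfix g s hs).1⟩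
  · change (muInc p (c (s, t)) : AlgebraicClosure ℚ) = _
    rw [hc]
    simp only [c'', Units.val_mul, Units.val_div_eq_div_val, Units.val_pow_eq_pow_val, galUnit_coe]

end Fermat.Agent.CFT.Sha
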