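import Fermat.Agent.CFT.Sha.LocalTarget
import Fermat.Agent.CFT.Sha.UnitsDescent
import Fermat.Agent.CFT.Recip.LocalData

/-!
# A cyclotomic step of degree `p` which is inert at every place over `S`
-/

set_option autoImplicit false
set_option linter.style.haveILetI false

open CategoryTheory groupCohomology ExtCitation

noncomputable section

namespace Fermat.Agent.CFT.Sha

variable {p : ℕ} [Fact p.Prime] (hp2 : p ≠ 2) {S : Finset Nat.Primes}

/-- The data of a step inside `U₀`. -/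
structure InertStep (p : ℕ) [Fact p.Prime] (S : Finset Nat.Primes) (U₀ : Subgroup GQ) where
  n : ℕ
  U' : Subgroup GQ
  U : Subgroup GQ
  i : U → ZMod p
  hn : 1 ≤ n
  le₀ : U ≤ U₀
  normal : U.Normal
  normal' : U'.Normal
  level : IsLevelSubgroup (Levels.unr S) (MonoidHom.id GQ) U
  level' : IsLevelSubgroup (Levels.unr S) (MonoidHom.id GQ) U'
  step : KummerStep p U' U
  char_mul : ∀ s t, i (s * t) = i s + i t
  char_ker : ∀ s : U, i s = 0 ↔ (s : GQ) ∈ U'
  tower_eq : ∀ s : U, tower p n s = pEmb p n (i s)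
  tower_zero : ∀ g ∈ U', tower p n g = 0
  inert : ∀ q ∈ S, ∀ x : GQ ⧸ U, ∃ τ ∈ placeStab q U x, tower p n (primeLocalToGlobal q τ) ≠ 0

include hp2 in
lemma tower_pow (n : ℕ) (g : GQ) (k : ℕ) : tower p n (g ^ k) = k * tower p n g := by
  rw [tower, tower, map_pow, Recip.theta_pow hp2]

lemma exists_torsion_multiple {n : ℕ} {t : ZMod (p ^ n)} (ht : t ≠ 0) :
    ∃ e : ℕ, (e : ZMod (p ^ n)) * t ≠ 0 ∧ p • ((e : ZMod (p ^ n)) * t) = 0 := by
  classical
  have hex : ∃ j : ℕ, ((p ^ j : ℕ) : ZMod (p ^ n)) * t = 0 :=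
    ⟨n, by rw [ZMod.natCast_self, zero_mul]⟩
  have h0 : Nat.find hex ≠ 0 := fun h => ht (by
    have := Nat.find_spec hex
    rwa [h, pow_zero, Nat.cast_one, one_mul] at this)
  refine ⟨p ^ (Nat.find hex - 1), Nat.find_min hex (Nat.sub_lt (Nat.pos_of_ne_zero h0) one_pos), ?_⟩
  rw [nsmul_eq_mul, ← mul_assoc, ← Nat.cast_mul, ← pow_succ', Nat.sub_add_cancel
    (Nat.one_le_iff_ne_zero.2 h0)]
  exact Nat.find_spec hex

include hp2 in
/-- A large level of the tower is non-trivial on the local groups inside a finite-index subgroup. -/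
theorem exists_local_nonzero (q : Nat.Primes) {W : Subgroup (primeLocalGaloisGroup q)} [W.Normal]
    (hW : W.index ≠ 0) {n : ℕ} (hn : (q : ℕ) ^ (W.index * (p - 1)) + W.index ≤ n) :
    ∃ τ ∈ W, tower p n (primeLocalToGlobal q τ) ≠ 0 := by
  haveI := Recip.neZeroPow p n
  haveI := Recip.neZeroPow p (n + 1)
  have hp : p.Prime := Fact.out
  have hlt : n < p ^ n := Nat.lt_pow_self hp.one_lt
  have hlt' : n < p ^ (n + 1) := hlt.trans_le (Nat.pow_le_pow_right hp.pos n.le_succ)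
  by_cases hq : (q : ℕ) = p
  · obtain rfl : q = pPrime p := Subtype.ext hq
    obtain ⟨g, hg⟩ := Recip.exists_tower_loc_self hp2 n 1
    refine ⟨g ^ W.index, W.pow_index_mem g, ?_⟩
    rw [map_pow, tower_pow hp2, hg, mul_one, Ne, ZMod.natCast_eq_zero_iff]
    exact fun h => hW (Nat.eq_zero_of_dvd_of_lt h (by omega))
  · obtain ⟨σ, hσ⟩ := Recip.exists_tower_loc_of_ne n hq
    refine ⟨σ ^ W.index, W.pow_index_mem σ, ?_⟩
    rw [map_pow, tower_pow hp2, hσ, ← Recip.theta_pow hp2, Ne, Recip.theta_eq_zero_iff hp2,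
      ← pow_mul]
    intro h
    have h1 : (((q : ℕ) ^ (W.index * (p - 1)) : ℕ) : ZMod (p ^ (n + 1))) = ((1 : ℕ) : ZMod _) := by
      rw [Nat.cast_pow, ← Recip.val_qUnit n hq, ← Units.val_pow_eq_pow_val, h, Units.val_one,
        Nat.cast_one]
    rw [ZMod.natCast_eq_natCast_iff', Nat.mod_eq_of_lt (by omega), Nat.mod_eq_of_lt (by omega),
      Nat.pow_eq_one] at h1
    rcases h1 with h1 | h1
    · exact q.2.ne_one h1
    · exact mul_ne_zero hW (Nat.sub_ne_zero_of_lt hp.one_lt) h1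

include hp2 in
/-- Inside any normal level one finds an inert step. -/
theorem exists_inertStep (hpS : pPrime p ∈ S) (U₀ : Subgroup GQ) [U₀.Normal]
    (hU₀ : IsLevelSubgroup (Levels.unr S) (MonoidHom.id GQ) U₀)
    (hμ : ∀ g ∈ U₀, cycloChar p g = 1) : Nonempty (InertStep p S U₀) := by
  classical
  haveI : NeZero p := ⟨(Fact.out : p.Prime).ne_zero⟩
  let W : ∀ q : Nat.Primes, Subgroup (primeLocalGaloisGroup q) :=
    fun q => U₀.comap (primeLocalToGlobal q)
  have hW : ∀ q, (W q).index ≠ 0 := fun q => by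
    obtain ⟨F, hF, h⟩ := hU₀
    have hl : IsLocLevel q (W q) := ⟨F, hF.1, fun s hs => h _ hs⟩
    exact (finiteIndex_of_isLocLevel hl).index_ne_zero
  let n : ℕ := ∑ q ∈ S, ((q : ℕ) ^ ((W q).index * (p - 1)) + (W q).index) + 1
  have hn : 1 ≤ n := Nat.le_add_left 1 _
  have hbound : ∀ q ∈ S, (q : ℕ) ^ ((W q).index * (p - 1)) + (W q).index ≤ n := fun q hq =>
    (Finset.single_le_sum (f := fun q : Nat.Primes =>
      (q : ℕ) ^ ((W q).index * (p - 1)) + (W q).index) (fun _ _ => Nat.zero_le _) hq).trans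
      (Nat.le_succ _)
  let U : Subgroup GQ := U₀ ⊓ ((powMonoidHom p).comp (Recip.towerHom hp2 n)).ker
  let U' : Subgroup GQ := U₀ ⊓ (Recip.towerHom hp2 n).ker
  have hmemU : ∀ g, g ∈ U ↔ g ∈ U₀ ∧ p • tower p n g = 0 := fun g =>
    and_congr_right fun _ => by
      show Multiplicative.ofAdd (tower p n g) ^ p = 1 ↔ _
      rw [← ofAdd_nsmul, ofAdd_eq_one]
  have hmemU' : ∀ g, g ∈ U' ↔ g ∈ U₀ ∧ tower p n g = 0 := fun g =>
    and_congr_right fun _ => ofAdd_eq_one
  have hUn : U.Normal := Subgroup.normal_inf_normal _ _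
  have hU'n : U'.Normal := Subgroup.normal_inf_normal _ _
  have hle : U' ≤ U := fun g hg =>
    (hmemU g).2 ⟨((hmemU' g).1 hg).1, by rw [((hmemU' g).1 hg).2, smul_zero]⟩
  have hlev' : IsLevelSubgroup (Levels.unr S) (MonoidHom.id GQ) U' := by
    obtain ⟨F₀, hF₀, h₀⟩ := hU₀
    obtain ⟨F₁, hF₁, h₁⟩ := tower_levelConst hp2 n
    have hF₁' : (Levels.unr S).ok F₁ := ⟨hF₁.1, fun q hq => hF₁.2 q fun h =>
      hq (Finset.mem_singleton.1 h ▸ hpS)⟩
    refine ⟨F₀ ⊔ F₁, (Levels.unr S).sup _ _ hF₀ hF₁', fun s hs => (hmemU' s).2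
      ⟨h₀ s (IntermediateField.fixingSubgroup_antitone le_sup_left hs), ?_⟩⟩
    have := h₁ 1 s (IntermediateField.fixingSubgroup_antitone le_sup_right hs)
    rwa [one_mul, Recip.tower_one hp2] at this
  have hlev : IsLevelSubgroup (Levels.unr S) (MonoidHom.id GQ) U := by
    obtain ⟨F, hF, h⟩ := hlev'
    exact ⟨F, hF, fun s hs => hle (h s hs)⟩
  have hinert : ∀ q ∈ S, ∀ x : GQ ⧸ U,
      ∃ τ ∈ placeStab q U x, tower p n (primeLocalToGlobal q τ) ≠ 0 := by
    intro q hq x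
    haveI : (W q).Normal := Subgroup.Normal.comap inferInstance _
    obtain ⟨τ, hτ, hne⟩ := exists_local_nonzero hp2 q (hW q) (hbound q hq)
    obtain ⟨e, he, hpe⟩ := exists_torsion_multiple hne
    have hT : tower p n (primeLocalToGlobal q (τ ^ e)) =
        (e : ZMod (p ^ n)) * tower p n (primeLocalToGlobal q τ) := by
      rw [map_pow, tower_pow hp2]
    refine ⟨τ ^ e, ?_, hT ▸ he⟩
    have hU1 : primeLocalToGlobal q (τ ^ e) ∈ U := (hmemU _).2
      ⟨(W q).pow_mem hτ e, hT ▸ hpe⟩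
    show primeLocalToGlobal q (τ ^ e) • x = x
    induction x using QuotientGroup.induction_on with | H g => ?_
    rw [MulAction.Quotient.smul_mk, eq_comm, QuotientGroup.eq, smul_eq_mul, ← mul_assoc]
    simpa using hUn.conj_mem _ hU1 g⁻¹
  choose i hi using fun s : U => exists_pEmb_eq hn ((hmemU s).1 s.2).2
  have hi' : ∀ s : U, tower p n s = pEmb p n (i s) := fun s => (hi s).symm
  have hmul : ∀ s t, i (s * t) = i s + i t := fun s t => pEmb_injective hn (by
    rw [← hi', pEmb_add hn, ← hi', ← hi', Subgroup.coe_mul, tower_mul hp2])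
  have hker : ∀ s : U, i s = 0 ↔ (s : GQ) ∈ U' := fun s => by
    rw [hmemU', hi', and_iff_right ((hmemU s).1 s.2).1]
    exact ⟨fun h => by rw [h]; exact map_zero (pEmbHom (p := p) hn),
      fun h => pEmb_injective hn (h.trans (map_zero (pEmbHom (p := p) hn)).symm)⟩
  have hidx : U'.relIndex U = p := by
    obtain ⟨τ, hτ, hne⟩ := hinert _ hpS (QuotientGroup.mk 1)
    have hτU : primeLocalToGlobal _ τ ∈ U := by
      have h : primeLocalToGlobal _ τ • (QuotientGroup.mk 1 : GQ ⧸ U) = QuotientGroup.mk 1 := hτ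
      rw [MulAction.Quotient.smul_mk, eq_comm, QuotientGroup.eq] at h
      simpa using h
    set u : U := ⟨_, hτU⟩
    have hu : i u ≠ 0 := fun h => hne ((hmemU' _).1 ((hker u).1 h)).2
    let χ : ↥U →* Multiplicative (ZMod p) :=
      MonoidHom.mk' (fun s => Multiplicative.ofAdd (i s)) fun s t => by rw [hmul]; rfl
    have hsurj : Function.Surjective χ := fun m => ⟨u ^ ((i u)⁻¹ * m.toAdd).val, by
      rw [map_pow, show χ u = Multiplicative.ofAdd (i u) from rfl, ← ofAdd_nsmul, nsmul_eq_mul,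
        ZMod.natCast_zmod_val, mul_comm, ← mul_assoc, mul_inv_cancel₀ hu, one_mul, ofAdd_toAdd]⟩
    have hχ : χ.ker = U'.subgroupOf U := by
      ext s
      rw [MonoidHom.mem_ker, Subgroup.mem_subgroupOf, ← hker]
      exact ofAdd_eq_one
    rw [Subgroup.relIndex, ← hχ, Subgroup.index_ker, MonoidHom.range_eq_top.2 hsurj,
      Subgroup.card_top]
    exact Nat.card_zmod p
  refine ⟨⟨n, U', U, i, hn, inf_le_left, hUn, hU'n, hlev, hlev',
    ⟨hle, ?_, Subgroup.Normal.subgroupOf hU'n U, hidx, fun g hg => hμ g ((hmemU g).1 hg).1⟩,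
    hmul, hker, hi', fun g hg => ((hmemU' g).1 hg).2, hinert⟩⟩
  obtain ⟨F, hF, h⟩ := hlev'
  exact ⟨F, hF.1, h⟩

end Fermat.Agent.CFT.Sha
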