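import Fermat.Agent.CFT.Sha.InvSum
import Fermat.Agent.CFT.Interface.Local
import Fermat.Agent.CFT.Recip.FiniteLevel

/-!
# Local elements whose norm has a prescribed `p`-torsion symbol

For a local level `V` on which the tower character has order `p`, the orbit norms from the fixed
field of `V` meet every `p`-torsion value of the symbol: a non-norm of the cyclic step gives a
non-zero class on `V`, hence a non-zero invariant downstairs.
-/

set_option autoImplicit false
set_option linter.style.haveILetI false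

open CategoryTheory groupCohomology ExtCitation Module

noncomputable section

namespace Fermat.Agent.CFT.Sha

variable {p : ℕ} [Fact p.Prime] (hp2 : p ≠ 2) {q : Nat.Primes}
  {V : Subgroup (primeLocalGaloisGroup q)}

variable (p) in
/-- `μ_p → (Omega q)ˣ`, additively. -/
def muLocHom (q : Nat.Primes) : ZMod p →+ Additive (Omega q)ˣ :=
  (MonoidHom.toAdditive (iota q)).comp (muIncHom p)

lemma muLocHom_equivariant (g : primeLocalGaloisGroup q) (m : muLoc p q) :
    muLocHom p q ((muLoc p q).ρ g m) = (locW q).ρ g (muLocHom p q m) := by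
  show Additive.ofMul (iota q (muInc p _)) = Additive.ofMul (locUnitAct g (iota q (muInc p m)))
  rw [iota_galUnit', galUnit_muInc]
  rfl

lemma muLocHom_injective : Function.Injective (muLocHom p q) := fun i j h =>
  muInc_injective (Units.ext ((padicEmbedding (q : ℕ)).toRingHom.injective
    (congrArg Units.val (Additive.ofMul.injective h))))

lemma exists_muLocHom_eq {u : Additive (Omega q)ˣ} (hu : p • u = 0) :
    ∃ i, muLocHom p q i = u := by
  haveI : NeZero p := ⟨(Fact.out : p.Prime).ne_zero⟩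
  have hz : IsPrimitiveRoot (iota q (zetaP p)) p :=
    (zetaP_isPrimitiveRoot (p := p)).map_of_injective
      (Units.map_injective (padicEmbedding (q : ℕ)).toRingHom.injective)
  have hu' : (u.toMul : (Omega q)ˣ) ^ p = 1 := by
    rw [← toMul_nsmul, hu]; rfl
  obtain ⟨i, -, hi⟩ := (IsPrimitiveRoot.coe_units_iff.2 hz).eq_pow_of_pow_eq_one
    (ξ := ((u.toMul : (Omega q)ˣ) : Omega q))
    (by rw [← Units.val_pow_eq_pow_val, hu', Units.val_one])
  refine ⟨(i : ZMod p), Additive.toMul.injective (Units.ext ?_)⟩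
  show (iota q (muInc p (i : ZMod p)) : Omega q) = _
  rw [muInc_natCast, map_pow, Units.val_pow_eq_pow_val, hi]

include hp2 in
lemma tower_inv (n : ℕ) (g : GQ) : tower p n g⁻¹ = -tower p n g := by
  rw [eq_neg_iff_add_eq_zero, ← tower_mul hp2, inv_mul_cancel, Recip.tower_one hp2]

include hp2 in
lemma tower_conj (n : ℕ) (g h : GQ) : tower p n (g * h * g⁻¹) = tower p n h := by
  rw [tower_mul hp2, tower_mul hp2, tower_inv hp2]
  abel

lemma val_pEmb {n : ℕ} (hn : 1 ≤ n) (i : ZMod p) :
    (pEmb p n i).val = p ^ (n - 1) * i.val := by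
  haveI : NeZero p := ⟨(Fact.out : p.Prime).ne_zero⟩
  refine ZMod.val_natCast_of_lt ?_
  calc _ < p ^ (n - 1) * p :=
        Nat.mul_lt_mul_of_pos_left (ZMod.val_lt _) (Nat.pow_pos (Fact.out : p.Prime).pos)
    _ = p ^ n := pow_pred_mul p hn

lemma carry_of_pEmb {n : ℕ} (hn : 1 ≤ n) {g h : GQ} {a b : ZMod p}
    (hg : tower p n g = pEmb p n a) (hh : tower p n h = pEmb p n b) :
    carry p n (g, h) = if p ≤ a.val + b.val then 1 else 0 := by
  have hpos : 0 < p ^ (n - 1) := Nat.pow_pos (Fact.out : p.Prime).pos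
  rw [carry, hg, hh, val_pEmb hn, val_pEmb hn, ← mul_add]
  refine if_congr ?_ rfl rfl
  rw [← pow_pred_mul p hn]
  exact ⟨fun h => Nat.le_of_mul_le_mul_left h hpos, fun h => Nat.mul_le_mul_left _ h⟩

lemma stepCarry_eq (a b : ZMod p) :
    (if p ≤ a.val + b.val then 1 else 0) * p + (a + b).val = a.val + b.val := by
  haveI : NeZero p := ⟨(Fact.out : p.Prime).ne_zero⟩
  split_ifs with h
  · rw [ZMod.val_add_of_le h]; omega
  · rw [ZMod.val_add_of_lt (by omega)]; omega

lemma kummer_torsion {M : Type*} [AddCommGroup M] (ρ : M →+ M) (p : ℕ) {a Z : M} (hpa : p • a = Z)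
    (hρ : ρ Z = Z) {i j k κ : ℕ} (h : κ * p + k = i + j) :
    p • (ρ (-(j • a)) - -(k • a) + -(i • a) + κ • Z) = 0 := by
  have hpρ : p • ρ a = Z := by rw [← map_nsmul, hpa, hρ]
  have h4 : (κ * p) • Z + k • Z = i • Z + j • Z := by rw [← add_nsmul, ← add_nsmul, h]
  rw [map_neg, map_nsmul, nsmul_add, nsmul_add, nsmul_sub, neg_nsmul, neg_nsmul, neg_nsmul,
    smul_comm p j, smul_comm p k, smul_comm p i, hpa, hpρ, ← mul_nsmul]
  linear_combination (norm := abel) h4

lemma kummer_cocycle {M : Type*} [AddCommGroup M] {G : Type*} [Group G]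
    (ρ : G →* AddMonoid.End M) (y : G → M) {Z : M} (hρ : ∀ s, ρ s Z = Z) (κ : G → G → ℕ)
    (g h j : G) (hκ : κ (g * h) j + κ g h = κ h j + κ g (h * j)) :
    (ρ (g * h) (y j) - y (g * h * j) + y (g * h) + κ (g * h) j • Z) +
        (ρ g (y h) - y (g * h) + y g + κ g h • Z) =
      ρ g (ρ h (y j) - y (h * j) + y h + κ h j • Z) +
        (ρ g (y (h * j)) - y (g * (h * j)) + y g + κ g (h * j) • Z) := by
  have hZ : κ (g * h) j • Z + κ g h • Z = κ h j • Z + κ g (h * j) • Z := by
    rw [← add_nsmul, ← add_nsmul, hκ]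
  simp only [map_add, map_sub, map_nsmul, hρ, map_mul, AddMonoid.End.coe_mul, Function.comp_apply,
    mul_assoc]
  linear_combination (norm := abel) hZ

lemma kummer_split {M : Type*} [AddCommGroup M] (ρ : M →+ M) (k k₁ k₂ y y₁ y₂ : M) (κZ : M)
    (e : ρ k - k₁ + k₂ = ρ y - y₁ + y₂ + κZ) :
    ρ (k - y) - (k₁ - y₁) + (k₂ - y₂) = κZ := by
  rw [map_sub]
  linear_combination (norm := abel) e

section Class

variable {n : ℕ} (hn : 1 ≤ n) (i : V → ZMod p)
  (hi : ∀ τ : V, tower p n (primeLocalToGlobal q τ) = pEmb p n (i τ))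

include hp2 hn hi in
lemma char_mul (s t : V) : i (s * t) = i s + i t := by
  refine pEmb_injective hn ?_
  rw [← hi, pEmb_add hn, ← hi, ← hi, Subgroup.coe_mul, map_mul, tower_mul hp2]

include hp2 hn hi in
lemma char_isConst : IsConst₁ Levels.all (rV q V) i := by
  obtain ⟨F, hF, h⟩ := tower_levelConst hp2 n
  refine ⟨F, hF.1, fun g s hs => pEmb_injective hn ?_⟩
  rw [← hi, ← hi, Subgroup.coe_mul, map_mul]
  exact h _ _ hs

/-- Every element of `Omega q` is fixed by a level. -/
lemma exists_level_fix (a : Omega q) :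
    ∃ F, Levels.all.ok F ∧ ∀ s : primeLocalGaloisGroup q,
      primeLocalToGlobal q s ∈ F.fixingSubgroup → locAct q s a = a := by
  haveI : FiniteDimensional ℚ_[(q : ℕ)] (IntermediateField.adjoin ℚ_[(q : ℕ)] {a}) :=
    IntermediateField.adjoin.finiteDimensional (Algebra.IsIntegral.isIntegral a)
  obtain ⟨F, hF, h⟩ := isLocLevel_fixingSubgroup (IntermediateField.adjoin ℚ_[(q : ℕ)] {a})
  exact ⟨F, hF, fun s hs => (IntermediateField.mem_fixingSubgroup_iff _ _).1 (h s hs) a
    (IntermediateField.mem_adjoin_simple_self _ a)⟩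

include hp2 hn hi in
/-- A non-norm of the step gives a class on `V` which is not zero. -/
theorem exists_carry_class {σ : V} (hσ : i σ = 1) {z : (Omega q)ˣ} (hz : z ∈ locUnits q V)
    {V' : Subgroup (primeLocalGaloisGroup q)} (hle : V' ≤ V)
    (hV' : ∀ τ : V, (τ : primeLocalGaloisGroup q) ∈ V' ↔ i τ = 0)
    (hnorm : z ∉ locNormSubgroup q V' V) :
    ∃ (c : ↥(Z2 Levels.all (rV q V) (muV p q V))) (y : V → Additive (Omega q)ˣ),
      IsConst₁ Levels.all (rV q V) y ∧ H2cπ _ _ _ c ≠ 0 ∧
      ∀ s t : V, muLocHom p q (c.1 (s, t)) = (locW q).ρ s (y t) - y (s * t) + y s +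
        carry p n (primeLocalToGlobal q s, primeLocalToGlobal q t) • Additive.ofMul z := by
  classical
  haveI : NeZero p := ⟨(Fact.out : p.Prime).ne_zero⟩
  obtain ⟨A, hA⟩ := IsAlgClosed.exists_pow_nat_eq (z : Omega q) (Fact.out : p.Prime).pos
  have hA0 : A ≠ 0 := fun h => z.ne_zero (by
    rw [← hA, h, zero_pow (Fact.out : p.Prime).ne_zero])
  let a : Additive (Omega q)ˣ := Additive.ofMul (Units.mk0 A hA0)
  let Z : Additive (Omega q)ˣ := Additive.ofMul z
  have hpa : p • a = Z := congrArg Additive.ofMul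
    (Units.ext hA : (Units.mk0 A hA0) ^ p = z)
  have hρZ : ∀ s : V, (locW q).ρ s Z = Z := fun s =>
    congrArg Additive.ofMul (Units.ext (hz _ s.2) : locUnitAct (s : primeLocalGaloisGroup q) z = z)
  let κ : V → V → ℕ := fun s t => carry p n (primeLocalToGlobal q s, primeLocalToGlobal q t)
  have hκ : ∀ s t, κ s t = if p ≤ (i s).val + (i t).val then 1 else 0 := fun s t =>
    carry_of_pEmb hn (hi s) (hi t)
  let y : V → Additive (Omega q)ˣ := fun s => -((i s).val • a)
  let E : V → V → Additive (Omega q)ˣ := fun s t =>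
    (locW q).ρ s (y t) - y (s * t) + y s + κ s t • Z
  have hyc : IsConst₁ Levels.all (rV q V) y :=
    (char_isConst hp2 hn i hi).comp fun k => -(k.val • a)
  have hE : ∀ s t, p • E s t = 0 := fun s t => by
    have h1 := stepCarry_eq (i s) (i t)
    rw [← hκ, ← char_mul hp2 hn i hi s t] at h1
    exact kummer_torsion ((locUnitρ q s).toAddMonoidHom) p hpa (hρZ s) h1
  choose c hc using fun s t => exists_muLocHom_eq (hE s t)
  have hcmem : (fun g : V × V => (c g.1 g.2 : ZMod p)) ∈ Z2 Levels.all (rV q V) (muV p q V) := by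
    refine ⟨(mem_cocycles₂_iff _).2 fun g h j => muLocHom_injective (q := q) ?_, ?_⟩
    · show muLocHom p q (c (g * h) j + c g h) =
        muLocHom p q ((muLoc p q).ρ g (c h j) + c g (h * j))
      rw [map_add, map_add, muLocHom_equivariant, hc, hc, hc, hc]
      let R : ↥V →* AddMonoid.End (Additive (Omega q)ˣ) :=
        { toFun := fun s => (locUnitρ q s).toAddMonoidHom
          map_one' := by rw [Subgroup.coe_one, map_one]; rfl
          map_mul' := fun s t => by rw [Subgroup.coe_mul, map_mul]; rfl }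
      exact kummer_cocycle R y hρZ κ g h j (by
          simp only [κ, Subgroup.coe_mul, map_mul]
          exact carry_cocycle hp2 n _ _ _)
    · obtain ⟨F₁, hF₁, h₁⟩ := char_isConst hp2 hn i hi
      obtain ⟨F₂, hF₂, h₂⟩ := exists_level_fix (q := q) A
      refine ⟨F₁ ⊔ F₂, Levels.all.sup _ _ hF₁ hF₂, fun g g' s s' hs hs' => ?_⟩
      apply muLocHom_injective (q := q)
      simp only [hc]
      have e1 := h₁ g s (level_antitone le_sup_left hs)
      have e2 := h₁ g' s' (level_antitone le_sup_left hs')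
      have e3 : i (g * s * (g' * s')) = i (g * g') := by
        rw [char_mul hp2 hn i hi, e1, e2, ← char_mul hp2 hn i hi]
      have e4 : (locW q).ρ ((g * s : V) : primeLocalGaloisGroup q) a =
          (locW q).ρ (g : primeLocalGaloisGroup q) a := by
        rw [Subgroup.coe_mul, map_mul, Module.End.mul_apply]
        exact congrArg _ (congrArg Additive.ofMul (Units.ext
          (h₂ _ (level_antitone le_sup_right hs)) :
            locUnitAct (s : primeLocalGaloisGroup q) (Units.mk0 A hA0) = Units.mk0 A hA0))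
      simp only [E, y, hκ, e1, e2, e3, map_neg, map_nsmul, e4]
  refine ⟨⟨_, hcmem⟩, y, hyc, fun h0 => hnorm ?_, fun s t => hc s t⟩
  obtain ⟨k', hk', hk'd⟩ := (Submodule.Quotient.mk_eq_zero _).1 h0
  let f : V → (Omega q)ˣ := fun s => Additive.toMul (muLocHom p q (k' s) - y s)
  have hfc : IsConst₁ Levels.all (rV q V) f :=
    (hk'.prodMk hyc).comp fun z : ZMod p × Additive (Omega q)ˣ =>
      Additive.toMul (muLocHom p q z.1 - z.2)
  have hf : ∀ s t : V, (locW q).ρ s (Additive.ofMul (f t)) - Additive.ofMul (f (s * t)) +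
      Additive.ofMul (f s) = κ s t • Z := fun s t => by
    have e := congrArg (muLocHom p q) (congrFun hk'd (s, t))
    rw [d₁₂_hom_apply, map_add, map_sub] at e
    change muLocHom p q ((muLoc p q).ρ s (k' t)) - muLocHom p q (k' (s * t)) + muLocHom p q (k' s)
      = muLocHom p q (c s t) at e
    rw [hc, muLocHom_equivariant] at e
    exact kummer_split ((locUnitρ q s).toAddMonoidHom) _ _ _ _ _ _ _ e
  let φ : ↥V →* (Omega q ≃ₐ[ℚ_[(q : ℕ)]] Omega q) :=
    MonoidHom.mk' (fun g => locAct q g) fun _ _ => rfl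
  letI : MulSemiringAction ↥V (Omega q) := MulSemiringAction.compHom (Omega q) φ
  have hsmul : ∀ (g : V) (x : Omega q), g • x = locAct q g x := fun _ _ => rfl
  let D : Recip.EmbData ↥V (Omega q) :=
    { r := rV q V
      ι := (padicEmbedding (q : ℕ)).toRingHom
      comm := fun g x => padicEmbedding_localGaloisToGlobal (q : ℕ) _ x
      smooth := fun b => by
        obtain ⟨F, hF, h⟩ := exists_level_fix (q := q) b
        exact ⟨F, hF, fun g hg => h g hg⟩ }
  let χ : ↥V →* Multiplicative (ZMod p) :=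
    MonoidHom.mk' (fun s => Multiplicative.ofAdd (i s)) fun s t => by
      rw [char_mul hp2 hn i hi]; rfl
  have hχker : ∀ k : V, k ∈ χ.ker ↔ i k = 0 := fun k => by
    rw [MonoidHom.mem_ker]
    exact ofAdd_eq_one
  obtain ⟨F₁, hF₁, h₁⟩ := char_isConst hp2 hn i hi
  have hχlev : ∃ F₀ : IntermediateField ℚ (AlgebraicClosure ℚ), FiniteDimensional ℚ F₀ ∧
      D.lev F₀ ≤ χ.ker := by
    refine ⟨F₁, hF₁, fun s hs => (hχker s).2 ?_⟩
    have h := h₁ 1 s hs
    have h1 : i 1 = 0 := by
      have := char_mul hp2 hn i hi 1 1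
      rw [mul_one] at this
      simpa using this
    rwa [one_mul, h1] at h
  obtain ⟨u, hu, huN⟩ := D.exists_norm hχlev (χ := χ) (σ := σ) (congrArg Multiplicative.ofAdd hσ)
    (b := z) (fun g => hz _ g.2) hfc fun s t => by
      have e := congrArg (fun w : Additive (Omega q)ˣ => ((w.toMul : (Omega q)ˣ) : Omega q)) (hf s t)
      have hcar : Class.carry χ s t = κ s t := by
        rw [hκ]
        show ((i s).val + (i t).val) / p = _
        have := ZMod.val_lt (i s)
        have := ZMod.val_lt (i t)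
        split_ifs with hle
        · exact Nat.div_eq_of_lt_le (by omega) (by omega)
        · exact Nat.div_eq_of_lt (by omega)
      rw [hcar]
      simp only [toMul_add, toMul_sub, toMul_ofMul, toMul_nsmul, Units.val_mul,
        Units.val_div_eq_div_val, Units.val_pow_eq_pow_val, Z] at e
      exact e
  have huV' : u ∈ locUnits q V' := fun τ hτ =>
    hu ⟨τ, hle hτ⟩ ((hχker _).2 ((hV' ⟨τ, hle hτ⟩).1 hτ))
  refine Subgroup.subset_closure ⟨u, huV', ?_⟩
  rw [locNorm, ← huN, ← Fin.prod_univ_eq_prod_range (fun j => σ ^ j • (u : Omega q)) p]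
  have hσj : ∀ j : ℕ, i (σ ^ j) = (j : ZMod p) := fun j => by
    induction j with
    | zero =>
      have h1 := char_mul hp2 hn i hi 1 1
      rw [mul_one] at h1
      simpa using h1
    | succ j ih => rw [pow_succ, char_mul hp2 hn i hi, ih, hσ, Nat.cast_succ]
  have hinv : ∀ v : V, i v⁻¹ = -i v := fun v => by
    have h1 := char_mul hp2 hn i hi v⁻¹ v
    have h2 := hσj 0
    rw [pow_zero] at h2
    rw [inv_mul_cancel, h2] at h1
    exact eq_neg_of_add_eq_zero_left (by simpa using h1.symm)
  have hbij : Function.Bijective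
      (fun j : Fin p => (QuotientGroup.mk (σ ^ (j : ℕ)) : ↥V ⧸ V'.subgroupOf V)) := by
    constructor
    · intro j k hjk
      have h := (hV' _).1 (Subgroup.mem_subgroupOf.1 (QuotientGroup.eq.1 hjk))
      rw [char_mul hp2 hn i hi, hinv, hσj, hσj, neg_add_eq_zero,
        ZMod.natCast_eq_natCast_iff', Nat.mod_eq_of_lt j.2, Nat.mod_eq_of_lt k.2] at h
      exact Fin.ext h
    · intro x
      induction x using QuotientGroup.induction_on with | H v => ?_
      refine ⟨⟨(i v).val, ZMod.val_lt _⟩, QuotientGroup.eq.2 (Subgroup.mem_subgroupOf.2 ?_)⟩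
      rw [hV', char_mul hp2 hn i hi, hinv, hσj, ZMod.natCast_zmod_val, neg_add_cancel]
  rw [← finprod_eq_prod_of_fintype]
  refine finprod_eq_of_bijective _ hbij fun j => ?_
  have hmem : (σ ^ (j : ℕ))⁻¹ *
      Quotient.out (QuotientGroup.mk (σ ^ (j : ℕ)) : ↥V ⧸ V'.subgroupOf V) ∈ V'.subgroupOf V :=
    QuotientGroup.eq.1 (QuotientGroup.out_eq' _).symm
  set v := Quotient.out (QuotientGroup.mk (σ ^ (j : ℕ)) : ↥V ⧸ V'.subgroupOf V)
  have hfix : ((σ ^ (j : ℕ))⁻¹ * v) • (u : Omega q) = u := huV' _ (Subgroup.mem_subgroupOf.1 hmem)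
  show σ ^ (j : ℕ) • (u : Omega q) = v • (u : Omega q)
  conv_lhs => rw [← hfix, ← mul_smul, mul_inv_cancel_left]

end Class

variable (hV : IsLocLevel q V)

variable (p q V) in
/-- Summation over the cosets. -/
def sumLoc [Fintype (primeLocalGaloisGroup q ⧸ V)] :
    funRep (muLoc p q) V →ₗ[ZMod p] muLoc p q where
  toFun f := ∑ x, f x
  map_add' f f' := Finset.sum_add_distrib
  map_smul' a f := (Finset.smul_sum (r := a) (f := fun x => f x) (s := Finset.univ)).symm

lemma sumLoc_equivariant [Fintype (primeLocalGaloisGroup q ⧸ V)] (g : primeLocalGaloisGroup q)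
    (f : funRep (muLoc p q) V) :
    sumLoc p q V ((funRep (muLoc p q) V).ρ g f) = (muLoc p q).ρ g (sumLoc p q V f) := by
  show ∑ x, (muLoc p q).ρ g (f (g⁻¹ • x)) = (muLoc p q).ρ g (∑ x, f x)
  rw [map_sum]
  exact Fintype.sum_bijective (g⁻¹ • ·) (MulAction.bijective g⁻¹) _ _ fun x => rfl

include hp2 hV in
/-- Orbit norms from `V` reach every `p`-torsion value of the symbol. -/
theorem exists_local_target [Fintype (primeLocalGaloisGroup q ⧸ V)] {n : ℕ} (hn : 1 ≤ n)
    (htp : ∀ τ ∈ V, p • tower p n (primeLocalToGlobal q τ) = 0)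
    (hne : ∃ τ ∈ V, tower p n (primeLocalToGlobal q τ) ≠ 0) (k : ZMod p) :
    ∃ f : primeLocalGaloisGroup q ⧸ V → (Omega q)ˣ,
      (∀ τ x, f (τ • x) = locUnitAct τ (f x)) ∧ phiOm p n q (∏ x, f x) = pEmb p n k := by
  classical
  haveI : NeZero p := ⟨(Fact.out : p.Prime).ne_zero⟩
  choose i hi using fun τ : V => exists_pEmb_eq hn (htp τ τ.2)
  replace hi : ∀ τ : V, tower p n (primeLocalToGlobal q τ) = pEmb p n (i τ) := fun τ => (hi τ).symm
  let V' : Subgroup (primeLocalGaloisGroup q) :=
    V ⊓ ((Recip.towerHom hp2 n).ker.comap (primeLocalToGlobal q))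
  have hmemV' : ∀ τ, τ ∈ V' ↔ τ ∈ V ∧ tower p n (primeLocalToGlobal q τ) = 0 := fun τ =>
    and_congr_right fun _ => ofAdd_eq_one
  have hV'i : ∀ τ : V, (τ : primeLocalGaloisGroup q) ∈ V' ↔ i τ = 0 := fun τ => by
    rw [hmemV', hi, and_iff_right τ.2]
    exact ⟨fun h => pEmb_injective hn (h.trans (map_zero (pEmbHom (p := p) hn)).symm),
      fun h => by rw [h]; exact map_zero (pEmbHom (p := p) hn)⟩
  have hlev' : IsLocLevel q V' := by
    obtain ⟨F₀, hF₀, h₀⟩ := hV
    obtain ⟨F₁, hF₁, h₁⟩ := tower_levelConst hp2 n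
    refine ⟨F₀ ⊔ F₁, Levels.all.sup _ _ hF₀ hF₁.1, fun s hs => (hmemV' s).2
      ⟨h₀ s (level_antitone le_sup_left hs), ?_⟩⟩
    have := h₁ 1 _ (level_antitone (r := primeLocalToGlobal q) le_sup_right hs)
    rwa [one_mul, Recip.tower_one hp2] at this
  obtain ⟨τ₀, hτ₀, hτ₀ne⟩ := hne
  have hiτ₀ : i ⟨τ₀, hτ₀⟩ ≠ 0 := fun h => hτ₀ne ((hmemV' τ₀).1 ((hV'i ⟨τ₀, hτ₀⟩).2 h)).2
  let χ : ↥V →* Multiplicative (ZMod p) :=
    MonoidHom.mk' (fun s => Multiplicative.ofAdd (i s)) fun s t => by
      rw [char_mul hp2 hn i hi]; rfl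
  let σ : V := ⟨τ₀, hτ₀⟩ ^ ((i ⟨τ₀, hτ₀⟩)⁻¹).val
  have hσ : i σ = 1 := by
    have := congrArg Multiplicative.toAdd (map_pow χ ⟨τ₀, hτ₀⟩ ((i ⟨τ₀, hτ₀⟩)⁻¹).val)
    rw [toAdd_pow, nsmul_eq_mul, ZMod.natCast_zmod_val] at this
    exact this.trans (inv_mul_cancel₀ hiτ₀)
  have hker : χ.ker = V'.subgroupOf V := by
    ext τ
    rw [MonoidHom.mem_ker, Subgroup.mem_subgroupOf, hV'i]
    exact ofAdd_eq_one
  have hn' : (V'.subgroupOf V).Normal := hker ▸ MonoidHom.normal_ker χ
  have hidx : V'.relIndex V = p := by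
    have hsurj : Function.Surjective χ := fun m => ⟨σ ^ (m.toAdd).val, by
      rw [map_pow, show χ σ = Multiplicative.ofAdd 1 from congrArg Multiplicative.ofAdd hσ,
        ← ofAdd_nsmul, nsmul_one, ZMod.natCast_zmod_val, ofAdd_toAdd]⟩
    rw [Subgroup.relIndex, ← hker, Subgroup.index_ker, MonoidHom.range_eq_top.2 hsurj,
      Subgroup.card_top]
    exact Nat.card_zmod p
  have hle : V' ≤ V := inf_le_left
  haveI : Finite (primeLocalGaloisGroup q ⧸ V') := hlev'.finite_quotient
  letI := Fintype.ofFinite (primeLocalGaloisGroup q ⧸ V')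
  -- equivariant functions
  have hfun : ∀ z ∈ locUnits q V, ∀ (τ : primeLocalGaloisGroup q)
      (x : primeLocalGaloisGroup q ⧸ V), locUnitAct (Quotient.out (τ • x)) z =
      locUnitAct τ (locUnitAct (Quotient.out x) z) := fun z hz τ x => by
    have h1 : (τ * Quotient.out x)⁻¹ * Quotient.out (τ • x) ∈ V := by
      refine QuotientGroup.eq.1 ?_
      conv_rhs => rw [QuotientGroup.out_eq', ← QuotientGroup.out_eq' x]
      rfl
    rw [← locUnitAct_mul]
    conv_rhs => rw [← (Units.ext (hz _ h1) :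
      locUnitAct ((τ * Quotient.out x)⁻¹ * Quotient.out (τ • x)) z = z), ← locUnitAct_mul,
      mul_inv_cancel_left]
  have hmem : ∀ (g : primeLocalGaloisGroup q ⧸ V → (Omega q)ˣ),
      (∀ τ x, g (τ • x) = locUnitAct τ (g x)) → (∏ x, g x) ∈ fixedTop q := fun g hg => by
    rw [mem_fixedTop]
    intro τ
    rw [map_prod]
    exact Fintype.prod_bijective (τ • ·) (MulAction.bijective τ) _ _ fun x => (hg τ x).symm
  -- all values are killed by `p`
  have htors : ∀ (g : primeLocalGaloisGroup q ⧸ V → (Omega q)ˣ),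
      (∀ τ x, g (τ • x) = locUnitAct τ (g x)) → ∃ j, pEmb p n j = phiOm p n q (∏ x, g x) := by
    intro g hg
    refine exists_pEmb_eq hn ?_
    let π : primeLocalGaloisGroup q ⧸ V' → primeLocalGaloisGroup q ⧸ V :=
      Subgroup.quotientMapOfLE hle
    have hπ : ∀ (τ : primeLocalGaloisGroup q) y, π (τ • y) = τ • π y := fun τ y => by
      induction y using QuotientGroup.induction_on
      rfl
    have hcard : ∀ x, (Finset.univ.filter fun y => π y = x).card = p := by
      intro x
      rw [← hidx, Subgroup.relIndex, Subgroup.index, ← Nat.card_eq_finsetCard]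
      refine (Nat.card_congr ?_).symm
      refine Equiv.ofBijective (fun u => ⟨(Quotient.out x) •
        (QuotientGroup.mk ((Quotient.out u : V) : primeLocalGaloisGroup q) :
          primeLocalGaloisGroup q ⧸ V'), ?_⟩) ⟨fun a b h => ?_, fun y => ?_⟩
      · simp only [Finset.mem_filter, Finset.mem_univ, true_and, hπ]
        conv_rhs => rw [← QuotientGroup.out_eq' x]
        show Quotient.out x • (QuotientGroup.mk ((Quotient.out u : V) : primeLocalGaloisGroup q) :
          primeLocalGaloisGroup q ⧸ V) = _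
        rw [MulAction.Quotient.smul_mk, QuotientGroup.eq, smul_eq_mul, mul_inv_rev,
          inv_mul_cancel_right]
        exact V.inv_mem (Quotient.out u : V).2
      · have h1 := QuotientGroup.eq.1 (MulAction.injective _ (congrArg Subtype.val h))
        rw [← QuotientGroup.out_eq' a, ← QuotientGroup.out_eq' b, QuotientGroup.eq,
          Subgroup.mem_subgroupOf]
        exact h1
      · obtain ⟨y, hy⟩ := y
        simp only [Finset.mem_filter, Finset.mem_univ, true_and] at hy
        induction y using QuotientGroup.induction_on with | H w => ?_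
        have hw : (Quotient.out x)⁻¹ * w ∈ V := QuotientGroup.eq.1 (by
          rw [QuotientGroup.out_eq']; exact hy.symm)
        obtain ⟨v, hv⟩ := QuotientGroup.mk_out_eq_mul (V'.subgroupOf V) ⟨_, hw⟩
        refine ⟨QuotientGroup.mk ⟨_, hw⟩, Subtype.ext ?_⟩
        show Quotient.out x • (QuotientGroup.mk ((Quotient.out (QuotientGroup.mk ⟨_, hw⟩ :
          ↥V ⧸ V'.subgroupOf V) : V) : primeLocalGaloisGroup q) :
            primeLocalGaloisGroup q ⧸ V') = _
        rw [hv, MulAction.Quotient.smul_mk, smul_eq_mul, Subgroup.coe_mul, ← mul_assoc,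
          mul_inv_cancel_left]
        exact QuotientGroup.eq.2 (by
          rw [mul_inv_rev, inv_mul_cancel_right]
          exact V'.inv_mem (Subgroup.mem_subgroupOf.1 v.2))
    have hg' : ∀ τ y, g (π (τ • y)) = locUnitAct τ (g (π y)) := fun τ y => by rw [hπ, hg]
    have hzero := phiOm_prodW_eq_zero (p := p) hp2 n (f := fun y => g (π y)) hg'
      (w := fun _ => 1) (fun _ _ => rfl) (fun y => ?_) (fun y τ hτ => ?_)
    · have e : prodW (fun y => g (π y)) (fun _ => (1 : ZMod p)) = (∏ x, g x) ^ p := by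
        simp only [prodW, ZMod.val_one, pow_one]
        rw [← Finset.prod_fiberwise Finset.univ π, ← Finset.prod_pow]
        refine Finset.prod_congr rfl fun x _ => ?_
        rw [Finset.prod_congr rfl (g := fun _ => g x) fun y hy => by rw [(Finset.mem_filter.1 hy).2],
          Finset.prod_const, hcard]
      rw [e, phiOm_pow hp2 n (hmem g hg)] at hzero
      rwa [nsmul_eq_mul]
    · obtain ⟨F, hF, hN, hle', hle''⟩ := Levels.exists_normal₂ Levels.normalBasis_all
        hlev'.choose_spec.1 hlev'.choose_spec.1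
      refine ⟨F, hF, fun s hs => ?_⟩
      induction y using QuotientGroup.induction_on with | H w => ?_
      show s • (QuotientGroup.mk w : primeLocalGaloisGroup q ⧸ V') = QuotientGroup.mk w
      rw [MulAction.Quotient.smul_mk, eq_comm, QuotientGroup.eq, smul_eq_mul, ← mul_assoc]
      exact hlev'.choose_spec.2 _ (level_antitone hle' (conj_mem_level hN hs w))
    · induction y using QuotientGroup.induction_on with | H w => ?_
      have h1 : w⁻¹ * (τ * w) ∈ V' := QuotientGroup.eq.1
        (show (QuotientGroup.mk w : primeLocalGaloisGroup q ⧸ V') = QuotientGroup.mk (τ * w)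
          from hτ.symm)
      have h2 := ((hmemV' _).1 h1).2
      rw [← mul_assoc, map_mul, map_mul, map_inv] at h2
      rw [← h2, ← tower_conj hp2 n (primeLocalToGlobal q w)⁻¹, inv_inv]
  -- a non-norm
  haveI := hV
  obtain ⟨z, hzV, hznorm⟩ : ∃ z ∈ locUnits q V, z ∉ locNormSubgroup q V' V := by
    by_contra hcon
    push Not at hcon
    have h1 := locNorm_index hlev' hle hn' hidx
    rw [Subgroup.relIndex_eq_one.2 hcon] at h1
    exact (Fact.out : p.Prime).ne_one h1.symm
  let f₀ : primeLocalGaloisGroup q ⧸ V → (Omega q)ˣ := fun x => locUnitAct (Quotient.out x) z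
  have hf₀ : ∀ τ x, f₀ (τ • x) = locUnitAct τ (f₀ x) := hfun z hzV
  obtain ⟨j, hj⟩ := htors f₀ hf₀
  suffices hj0 : j ≠ 0 by
    refine ⟨fun x => f₀ x ^ (k * j⁻¹).val, fun τ x => by simp only [hf₀, map_pow], ?_⟩
    rw [Finset.prod_pow, phiOm_pow hp2 n (hmem f₀ hf₀), ← hj, ← pEmb_mul hn, mul_assoc,
      inv_mul_cancel₀ hj0, mul_one]
  intro hj0
  obtain ⟨c, y, hyc, hc0, hc⟩ := exists_carry_class hp2 hn i hi hσ hzV hle hV'i hznorm
  let C : ↥(Z2 Levels.all (primeLocalToGlobal q) (funRep (muLoc p q) V)) :=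
    ⟨shapiroInv₂ c.1, shapiroInv₂_mem_cocycles₂ c.2.1,
      shapiroInv₂_isConst₂ Levels.normalBasis_all hV c.2.2⟩
  have hf₀1 : Additive.ofMul (f₀ (QuotientGroup.mk 1)) = Additive.ofMul z := by
    refine congrArg Additive.ofMul (Units.ext (hzV _ ?_))
    obtain ⟨v, hv⟩ := QuotientGroup.mk_out_eq_mul V 1
    rw [hv, one_mul]
    exact v.2
  obtain ⟨F, hFc, hF⟩ := exists_lift_carry (r := primeLocalToGlobal q) hV (M := muLoc p q)
    (W := locW q) (muLocHom p q) muLocHom_equivariant C.2.1 C.2.2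
    (fun g => carry p n (primeLocalToGlobal q g.1, primeLocalToGlobal q g.2))
    (fun g h j => by simp only [map_mul]; exact carry_cocycle hp2 n _ _ _)
    (carry_isConst hp2 _ n) (fun x => Additive.ofMul (f₀ x))
    (fun g x => by rw [locW_apply, ← hf₀, smul_inv_smul]; rfl) hyc (fun s t => by
      rw [show C.1 ((s : primeLocalGaloisGroup q), (t : primeLocalGaloisGroup q))
        (QuotientGroup.mk 1) = c.1 (s, t) from shapiro₂_cochain (M := muLoc p q) (U := V) c.1 s t, hc s t]
      exact congrArg (fun w : Additive (Omega q)ˣ => (locUnitρ q s) (y t) - y (s * t) + y s +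
        carry p n (primeLocalToGlobal q s, primeLocalToGlobal q t) • w) hf₀1.symm)
  have hCne : H2cπ _ _ _ C ≠ 0 := fun h => hc0 (by
    have h' := congrArg (shapiro₂ (L := Levels.all) (r := primeLocalToGlobal q) V (muLoc p q)) h
    rw [map_zero] at h'
    rw [← h']
    exact congrArg (H2cπ _ _ _) (Subtype.ext (funext fun st =>
      (shapiro₂_cochain (M := muLoc p q) (U := V) c.1 st.1 st.2).symm)))
  have hsm : IsSmoothRep Levels.all (primeLocalToGlobal q) (muLoc p q) := fun m => by
    obtain ⟨F', hF', h'⟩ := exists_level_fix (q := q)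
      ((iota q (zetaP p) : (Omega q)ˣ) : Omega q)
    refine ⟨F', hF', fun s hs => muLocHom_injective (q := q) ?_⟩
    rw [muLocHom_equivariant]
    show Additive.ofMul (locUnitAct s (iota q (muInc p m))) = Additive.ofMul (iota q (muInc p m))
    rw [muInc, map_pow, map_pow, (Units.ext (h' s hs) :
      locUnitAct s (iota q (zetaP p)) = iota q (zetaP p))]
  have hfin1 : finrank (ZMod p)
      (H2c Levels.all (primeLocalToGlobal q) (funRep (muLoc p q) V)) = 1 := by
    rw [(LinearEquiv.ofBijective _ (shapiro₂_bijective Levels.hasNormal_all hV hsm)).finrank_eq]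
    exact finrank_H2_muV hV
  have hfin2 : finrank (ZMod p) (H2c Levels.all (primeLocalToGlobal q) (muLoc p q)) = 1 := by
    rw [(LinearEquiv.ofBijective _ (invLoc_bijective hp2 q)).finrank_eq, finrank_self]
  haveI := Module.finite_of_finrank_eq_succ hfin1
  haveI := Module.finite_of_finrank_eq_succ hfin2
  have hinj : Function.Injective (pushH2 (L := Levels.all) (r := primeLocalToGlobal q)
      (sumLoc p q V) sumLoc_equivariant) :=
    (LinearMap.injective_iff_surjective_of_finrank_eq_finrank (hfin1.trans hfin2.symm)).2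
      (sum_pushH2_surjective hV _ (fun g => (finsum_eq_sum_of_fintype _).symm) _)
  refine hCne (hinj ?_)
  rw [map_zero]
  refine (invLoc_bijective hp2 q).1 ?_
  rw [map_zero]
  refine invLoc_sumW (X := primeLocalGaloisGroup q ⧸ V) hp2 hn _ (fun g x => C.1 g x)
    (w := fun _ => 1) (fun _ _ => rfl) (fun g => by simp only [one_mul]; rfl)
    (fun s x => (F s x).toMul) (hFc.comp fun φ x => (φ x).toMul) hf₀ 1 (fun s t x => ?_) ?_
  · have e := congrArg Additive.toMul (hF s t x)
    rw [one_mul]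
    exact e
  · rw [Nat.cast_one, one_mul, show prodW f₀ (fun _ => (1 : ZMod p)) = ∏ x, f₀ x by
      simp [prodW, ZMod.val_one], ← hj, hj0]

end Fermat.Agent.CFT.Sha
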